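import Fermat.Agent.S20.CombBasic

/-!
# The number of `T`-orbits on `SL(2,ℤ) ⧸ Γ₀(N)` is `cuspCount N`
-/

set_option autoImplicit false

open scoped MatrixGroups
open CongruenceSubgroup

namespace Fermat.Agent.S20lib

/-! ### Arithmetic preliminaries -/

/-- `a * e⁻¹` modulo `g`, as a natural number. -/
noncomputable def rOf (g : ℕ) (a e : ℤ) : ℕ := ((a : ZMod g) * (e : ZMod g)⁻¹).val

lemma rOf_eq_iff {g : ℕ} (hg : g ≠ 0) {a e a' e' : ℤ} (he : IsCoprime e (g : ℤ))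
    (he' : IsCoprime e' (g : ℤ)) :
    rOf g a e = rOf g a' e' ↔ (g : ℤ) ∣ a * e' - a' * e := by
  have : NeZero g := ⟨hg⟩
  have hu : IsUnit (e : ZMod g) := (ZMod.coe_int_isUnit_iff_isCoprime e g).mpr he.symm
  have hu' : IsUnit (e' : ZMod g) := (ZMod.coe_int_isUnit_iff_isCoprime e' g).mpr he'.symm
  have h1 : (e : ZMod g) * (e : ZMod g)⁻¹ = 1 := ZMod.mul_inv_of_unit _ hu
  have h1' : (e' : ZMod g) * (e' : ZMod g)⁻¹ = 1 := ZMod.mul_inv_of_unit _ hu'
  unfold rOf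
  rw [(ZMod.val_injective g).eq_iff, ← ZMod.intCast_zmod_eq_zero_iff_dvd]
  push_cast
  constructor
  · intro h
    linear_combination (e : ZMod g) * (e' : ZMod g) * h - (a : ZMod g) * e' * h1
      + (a' : ZMod g) * e * h1'
  · intro h
    linear_combination (e : ZMod g)⁻¹ * (e' : ZMod g)⁻¹ * h
      - (a : ZMod g) * (e : ZMod g)⁻¹ * h1' + (a' : ZMod g) * (e' : ZMod g)⁻¹ * h1

/-- Solvability of a linear congruence. -/
lemma exists_dvd_add_mul {x m w : ℤ} (h : (Int.gcd x m : ℤ) ∣ w) : ∃ k : ℤ, m ∣ w + k * x := by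
  obtain ⟨w', hw'⟩ := h
  refine ⟨-w' * Int.gcdA x m, w' * Int.gcdB x m, ?_⟩
  have := Int.gcd_eq_gcd_ab x m
  rw [hw', this]
  ring

section data

variable (N : ℕ) (c : ℤ)

/-- `gcd(c, N)` -/
def dOf : ℕ := Int.gcd c N

/-- `gcd(d, N/d)` -/
def gOf (d : ℕ) : ℕ := Nat.gcd d (N / d)

variable {N}

lemma dOf_dvd : dOf N c ∣ N := by
  have : ((dOf N c : ℕ) : ℤ) ∣ (N : ℤ) := Int.gcd_dvd_right c N
  exact_mod_cast this

lemma dOf_ne_zero (hN : N ≠ 0) : dOf N c ≠ 0 := by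
  intro h
  have := dOf_dvd (N := N) c
  rw [h, zero_dvd_iff] at this
  exact hN this

lemma dOf_mul_div : ((dOf N c : ℕ) : ℤ) * (c / (dOf N c : ℕ)) = c :=
  Int.mul_ediv_cancel' (Int.gcd_dvd_left c N)

lemma dOf_mul_div' : dOf N c * (N / dOf N c) = N := Nat.mul_div_cancel' (dOf_dvd c)

lemma isCoprime_div_dOf (hN : N ≠ 0) :
    IsCoprime (c / (dOf N c : ℕ)) ((N / dOf N c : ℕ) : ℤ) := by
  rw [Int.isCoprime_iff_gcd_eq_one, Int.natCast_div]
  exact Int.gcd_div_gcd_div_gcd (Nat.pos_of_ne_zero (dOf_ne_zero c hN))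

lemma gOf_dvd_left (d : ℕ) : gOf N d ∣ d := Nat.gcd_dvd_left _ _
lemma gOf_dvd_right (d : ℕ) : gOf N d ∣ N / d := Nat.gcd_dvd_right _ _

lemma gOf_ne_zero {d : ℕ} (hd : d ≠ 0) : gOf N d ≠ 0 := by
  intro h
  exact hd (Nat.eq_zero_of_gcd_eq_zero_left h)

lemma isCoprime_div_dOf_gOf (hN : N ≠ 0) :
    IsCoprime (c / (dOf N c : ℕ)) ((gOf N (dOf N c) : ℕ) : ℤ) :=
  (isCoprime_div_dOf c hN).of_isCoprime_of_dvd_right (by exact_mod_cast gOf_dvd_right _)

end data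

/-- If `N ∣ a' c - c' a` with `(a,c)` coprime, then `gcd(c,N) ∣ gcd(c',N)`. -/
lemma dOf_dvd_dOf {N : ℕ} {a c a' c' : ℤ} (h : IsCoprime a c)
    (hN : (N : ℤ) ∣ a' * c - c' * a) : dOf N c ∣ dOf N c' := by
  have h1 : ((dOf N c : ℕ) : ℤ) ∣ c := Int.gcd_dvd_left c N
  have h2 : ((dOf N c : ℕ) : ℤ) ∣ (N : ℤ) := Int.gcd_dvd_right c N
  have h3 : ((dOf N c : ℕ) : ℤ) ∣ c' * a := by
    have := (dvd_sub_right (h1.mul_left a')).mp (h2.trans hN)
    exact this
  have h4 : IsCoprime ((dOf N c : ℕ) : ℤ) a := (h.symm).of_isCoprime_of_dvd_left h1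
  have h5 : ((dOf N c : ℕ) : ℤ) ∣ c' := h4.dvd_of_dvd_mul_right h3
  have := Int.dvd_coe_gcd h5 h2
  exact_mod_cast this

/-- The complete invariant for `T`-orbits. -/
noncomputable def cuspInv (N : ℕ) (γ : SL(2, ℤ)) : (Σ _ : ℕ, ℕ) :=
  ⟨dOf N (γ 1 0), rOf (gOf N (dOf N (γ 1 0))) (γ 0 0) (γ 1 0 / (dOf N (γ 1 0) : ℕ))⟩

lemma cuspInv_eq_iff_aux {N : ℕ} (hN : N ≠ 0) {a c a' c' : ℤ} (h : IsCoprime a c)
    (h' : IsCoprime a' c') :
    ((⟨dOf N c, rOf (gOf N (dOf N c)) a (c / (dOf N c : ℕ))⟩ : Σ _ : ℕ, ℕ) =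
      ⟨dOf N c', rOf (gOf N (dOf N c')) a' (c' / (dOf N c' : ℕ))⟩) ↔
    ∃ k : ℤ, (N : ℤ) ∣ (a' + k * c') * c - c' * a := by
  rw [Sigma.mk.inj_iff, heq_eq_eq]
  constructor
  · rintro ⟨hd, hr⟩
    rw [← hd] at hr
    set d := dOf N c with hd_def
    set e := c / (d : ℕ) with he_def
    set e' := c' / (d : ℕ) with he'_def
    have hc : (d : ℤ) * e = c := dOf_mul_div c
    have hc' : (d : ℤ) * e' = c' := by rw [he'_def, hd]; exact dOf_mul_div c'
    have hdm : d * (N / d) = N := dOf_mul_div' c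
    have hd0 : d ≠ 0 := dOf_ne_zero c hN
    have hem : IsCoprime e ((N / d : ℕ) : ℤ) := isCoprime_div_dOf c hN
    have hem' : IsCoprime e' ((N / d : ℕ) : ℤ) := by
      rw [he'_def, hd]; exact isCoprime_div_dOf c' hN
    have heg : IsCoprime e ((gOf N d : ℕ) : ℤ) := isCoprime_div_dOf_gOf c hN
    have heg' : IsCoprime e' ((gOf N d : ℕ) : ℤ) := by
      rw [he'_def, hd]; exact isCoprime_div_dOf_gOf c' hN
    rw [rOf_eq_iff (gOf_ne_zero hd0) heg heg'] at hr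
    -- solve the congruence
    have hG : (Int.gcd ((d : ℤ) * e * e') ((N / d : ℕ) : ℤ) : ℤ) ∣ a' * e - e' * a := by
      set G := Int.gcd ((d : ℤ) * e * e') ((N / d : ℕ) : ℤ) with hG_def
      have g1 : (G : ℤ) ∣ (d : ℤ) * e * e' := Int.gcd_dvd_left _ _
      have g2 : (G : ℤ) ∣ ((N / d : ℕ) : ℤ) := Int.gcd_dvd_right _ _
      have g3 : IsCoprime (G : ℤ) e' := (hem'.symm).of_isCoprime_of_dvd_left g2
      have g4 : IsCoprime (G : ℤ) e := (hem.symm).of_isCoprime_of_dvd_left g2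
      have g5 : (G : ℤ) ∣ (d : ℤ) := g4.dvd_of_dvd_mul_right (g3.dvd_of_dvd_mul_right g1)
      have g6 : (G : ℤ) ∣ ((gOf N d : ℕ) : ℤ) := by
        have : G ∣ gOf N d := Nat.dvd_gcd (by exact_mod_cast g5) (by exact_mod_cast g2)
        exact_mod_cast this
      have := g6.trans hr
      rw [show a' * e - e' * a = -(a * e' - a' * e) by ring]
      exact (dvd_neg).mpr this
    obtain ⟨k, hk⟩ := exists_dvd_add_mul hG
    refine ⟨k, ?_⟩
    rw [← hc, ← hc']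
    have : ((a' + k * ((d : ℤ) * e')) * ((d : ℤ) * e) - (d : ℤ) * e' * a) =
        (d : ℤ) * (a' * e - e' * a + k * ((d : ℤ) * e * e')) := by ring
    rw [this]
    have hN' : (N : ℤ) = (d : ℤ) * ((N / d : ℕ) : ℤ) := by exact_mod_cast hdm.symm
    rw [hN']
    exact mul_dvd_mul_left _ hk
  · rintro ⟨k, hk⟩
    have h'' : IsCoprime (a' + k * c') c' := by
      rw [add_comm]
      exact (IsCoprime.mul_add_right_left_iff (x := a') (y := c') (z := k)).mpr h' |> fun t => by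
        simpa [mul_comm] using t
    have hd : dOf N c = dOf N c' := by
      apply Nat.dvd_antisymm
      · exact dOf_dvd_dOf h hk
      · refine dOf_dvd_dOf (a := a' + k * c') (a' := a) h'' ?_
        rw [show a * c' - c * (a' + k * c') = -((a' + k * c') * c - c' * a) by ring]
        exact (dvd_neg).mpr hk
    refine ⟨hd, ?_⟩
    rw [← hd]
    set d := dOf N c with hd_def
    set e := c / (d : ℕ) with he_def
    set e' := c' / (d : ℕ) with he'_def
    have hc : (d : ℤ) * e = c := dOf_mul_div c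
    have hc' : (d : ℤ) * e' = c' := by rw [he'_def, hd]; exact dOf_mul_div c'
    have hdm : d * (N / d) = N := dOf_mul_div' c
    have hd0 : d ≠ 0 := dOf_ne_zero c hN
    have heg : IsCoprime e ((gOf N d : ℕ) : ℤ) := isCoprime_div_dOf_gOf c hN
    have heg' : IsCoprime e' ((gOf N d : ℕ) : ℤ) := by
      rw [he'_def, hd]; exact isCoprime_div_dOf_gOf c' hN
    rw [rOf_eq_iff (gOf_ne_zero hd0) heg heg']
    rw [← hc, ← hc'] at hk
    have e1 : ((a' + k * ((d : ℤ) * e')) * ((d : ℤ) * e) - (d : ℤ) * e' * a) =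
        (d : ℤ) * (a' * e - e' * a + k * ((d : ℤ) * e * e')) := by ring
    have hN' : (N : ℤ) = (d : ℤ) * ((N / d : ℕ) : ℤ) := by exact_mod_cast hdm.symm
    rw [e1, hN', mul_dvd_mul_iff_left (by exact_mod_cast hd0)] at hk
    have g1 : ((gOf N d : ℕ) : ℤ) ∣ ((N / d : ℕ) : ℤ) := by exact_mod_cast gOf_dvd_right d
    have g2 : ((gOf N d : ℕ) : ℤ) ∣ (d : ℤ) := by exact_mod_cast gOf_dvd_left d
    have g3 := g1.trans hk
    have g4 : ((gOf N d : ℕ) : ℤ) ∣ k * ((d : ℤ) * e * e') :=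
      Dvd.dvd.mul_left ((g2.mul_right e).mul_right e') k
    have g5 := (dvd_add_left g4).mp g3
    rw [show a * e' - a' * e = -(a' * e - e' * a) by ring]
    exact (dvd_neg).mpr g5

end Fermat.Agent.S20lib

namespace Fermat.Agent.S20lib

lemma cuspInv_eq_iff {N : ℕ} (hN : N ≠ 0) (γ δ : SL(2, ℤ)) :
    cuspInv N γ = cuspInv N δ ↔
      ∃ k : ℤ, ((ModularGroup.T ^ k * δ : SL(2, ℤ)) : SL(2, ℤ) ⧸ Gamma0 N) = γ := by
  unfold cuspInv
  rw [cuspInv_eq_iff_aux hN (isCoprime_col γ) (isCoprime_col δ)]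
  refine exists_congr fun k => ?_
  rw [mk_eq_mk_iff, T_zpow_mul_col0, T_zpow_mul_col1]

/-- The finite set of values of the invariant. -/
def cuspSet (N : ℕ) : Finset (Σ _ : ℕ, ℕ) :=
  N.divisors.sigma fun d => (Finset.range (gOf N d)).filter fun r => (gOf N d).Coprime r

lemma card_cuspSet (N : ℕ) : (cuspSet N).card = ModularCurve.cuspCount N := by
  unfold cuspSet ModularCurve.cuspCount
  rw [Finset.card_sigma]
  refine Finset.sum_congr rfl fun d _ => ?_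
  rw [← Nat.totient_eq_card_coprime]
  rfl

lemma range_cuspInv {N : ℕ} (hN : N ≠ 0) : Set.range (cuspInv N) = ↑(cuspSet N) := by
  ext ⟨d, r⟩
  simp only [Set.mem_range, cuspSet, Finset.coe_sigma, Set.mem_sigma_iff, Finset.mem_coe,
    Nat.mem_divisors, Finset.mem_filter, Finset.mem_range]
  constructor
  · rintro ⟨γ, hγ⟩
    unfold cuspInv at hγ
    rw [Sigma.mk.inj_iff, heq_eq_eq] at hγ
    obtain ⟨rfl, rfl⟩ := hγ
    set c := γ 1 0 with hc
    set a := γ 0 0 with ha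
    have hd0 : dOf N c ≠ 0 := dOf_ne_zero c hN
    have hg0 : gOf N (dOf N c) ≠ 0 := gOf_ne_zero hd0
    have : NeZero (gOf N (dOf N c)) := ⟨hg0⟩
    refine ⟨⟨dOf_dvd c, hN⟩, ZMod.val_lt _, ?_⟩
    have hu1 : IsUnit ((c / (dOf N c : ℕ) : ℤ) : ZMod (gOf N (dOf N c))) :=
      (ZMod.coe_int_isUnit_iff_isCoprime _ _).mpr (isCoprime_div_dOf_gOf c hN).symm
    have hu2 : IsUnit ((a : ℤ) : ZMod (gOf N (dOf N c))) := by
      rw [ZMod.coe_int_isUnit_iff_isCoprime]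
      have h1 : IsCoprime c a := (isCoprime_col γ).symm
      have h2 : ((gOf N (dOf N c) : ℕ) : ℤ) ∣ c :=
        (show ((gOf N (dOf N c) : ℕ) : ℤ) ∣ ((dOf N c : ℕ) : ℤ) by
          exact_mod_cast gOf_dvd_left _).trans (Int.gcd_dvd_left c N)
      exact h1.of_isCoprime_of_dvd_left h2
    have hu3 : IsUnit (((c / (dOf N c : ℕ) : ℤ) : ZMod (gOf N (dOf N c)))⁻¹) := by
      refine IsUnit.of_mul_eq_one _ (ZMod.inv_mul_of_unit _ hu1)
    obtain ⟨u, hu⟩ := hu2.mul hu3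
    unfold rOf
    rw [← hu]
    exact (ZMod.val_coe_unit_coprime u).symm
  · rintro ⟨⟨hdN, -⟩, hr, hcop⟩
    have hd0 : d ≠ 0 := by rintro rfl; exact hN (zero_dvd_iff.mp hdN)
    have : NeZero d := ⟨hd0⟩
    have hg0 : gOf N d ≠ 0 := gOf_ne_zero hd0
    have : NeZero (gOf N d) := ⟨hg0⟩
    obtain ⟨u, hu⟩ := ZMod.unitsMap_surjective (gOf_dvd_left (N := N) d)
      (ZMod.unitOfCoprime r hcop.symm)
    have hu' : (((u : ZMod d).val : ℕ) : ZMod (gOf N d)) = (r : ZMod (gOf N d)) := by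
      have := congrArg (fun x : (ZMod (gOf N d))ˣ => (x : ZMod (gOf N d))) hu
      simp only [ZMod.unitsMap_val, ZMod.coe_unitOfCoprime] at this
      rw [← this, ZMod.natCast_val]
    have hcop' : IsCoprime (((u : ZMod d).val : ℕ) : ℤ) (d : ℤ) := by
      rw [Nat.isCoprime_iff_coprime]
      exact ZMod.val_coe_unit_coprime u
    obtain ⟨γ, h0, h1⟩ := exists_col hcop'
    refine ⟨γ, ?_⟩
    unfold cuspInv
    have hdd : dOf N (d : ℤ) = d := by
      unfold dOf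
      rw [Int.gcd_natCast_natCast]
      exact Nat.gcd_eq_left hdN
    rw [h0, h1, hdd, Sigma.mk.inj_iff, heq_eq_eq]
    refine ⟨rfl, ?_⟩
    unfold rOf
    rw [Int.ediv_self (by exact_mod_cast hd0)]
    have hone : (1 : ZMod (gOf N d))⁻¹ = 1 := by
      simp
    simp only [Int.cast_natCast, Int.cast_one]
    rw [hone, mul_one, hu', ZMod.val_natCast, Nat.mod_eq_of_lt hr]

/-- Counting orbits of a subgroup on a coset space by a complete invariant. -/
lemma card_orbitRel_quotient_eq_card_range {G Z : Type*} [Group G] (Γ H : Subgroup G)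
    (inv : G → Z)
    (h : ∀ γ δ, inv γ = inv δ ↔ ∃ x : H, x • ((δ : G) : G ⧸ Γ) = γ) :
    Nat.card (MulAction.orbitRel.Quotient H (G ⧸ Γ)) = Nat.card (Set.range inv) := by
  let π : G → MulAction.orbitRel.Quotient H (G ⧸ Γ) := fun γ => Quotient.mk'' (γ : G ⧸ Γ)
  have hπ : Function.Surjective π := by
    intro x
    induction x using Quotient.inductionOn' with | _ y => ?_
    induction y using QuotientGroup.induction_on with | _ γ => ?_
    exact ⟨γ, rfl⟩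
  have hker : Setoid.ker π = Setoid.ker inv := by
    ext γ δ
    rw [Setoid.ker_def, Setoid.ker_def, h]
    show (Quotient.mk'' (γ : G ⧸ Γ) : MulAction.orbitRel.Quotient H (G ⧸ Γ)) =
      Quotient.mk'' (δ : G ⧸ Γ) ↔ _
    rw [Quotient.eq'', MulAction.orbitRel_apply, MulAction.mem_orbit_iff]
  exact Nat.card_congr ((Setoid.quotientKerEquivOfSurjective π hπ).symm.trans
    ((Quotient.congrRight (fun a b => by rw [hker])).trans (Setoid.quotientKerEquivRange inv)))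

/-- **C4**: the number of `T`-orbits on `SL(2,ℤ) ⧸ Γ₀(N)` is the number of cusps. -/
theorem card_orbits_T_aux (N : ℕ) [NeZero N] :
    Nat.card (MulAction.orbitRel.Quotient (Subgroup.zpowers ModularGroup.T)
      (SL(2, ℤ) ⧸ Gamma0 N)) = ModularCurve.cuspCount N := by
  rw [card_orbitRel_quotient_eq_card_range (Gamma0 N) (Subgroup.zpowers ModularGroup.T)
    (cuspInv N), range_cuspInv (NeZero.ne N), Nat.card_coe_set_eq, Set.ncard_coe_finset,
    card_cuspSet]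
  intro γ δ
  rw [cuspInv_eq_iff (NeZero.ne N)]
  constructor
  · rintro ⟨k, hk⟩
    exact ⟨⟨ModularGroup.T ^ k, k, rfl⟩, hk⟩
  · rintro ⟨⟨_, k, rfl⟩, hk⟩
    exact ⟨k, hk⟩

end Fermat.Agent.S20lib
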