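import Fermat.Agent.S20.CombBasic

/-!
# Fixed points of `S` and `S * T` on `SL(2,ℤ) ⧸ Γ₀(N)`
-/

set_option autoImplicit false

open scoped MatrixGroups
open CongruenceSubgroup

namespace Fermat.Agent.S20lib

variable {N : ℕ}

/-- The matrix with first column `(a, 1)`. -/
def colMat (a : ℤ) : SL(2, ℤ) := ⟨!![a, -1; 1, 0], by simp [Matrix.det_fin_two_of]⟩

@[simp] lemma colMat_00 (a : ℤ) : colMat a 0 0 = a := rfl
@[simp] lemma colMat_10 (a : ℤ) : colMat a 1 0 = 1 := rfl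

lemma smul_mk_eq_iff (g γ : SL(2, ℤ)) :
    g • (γ : SL(2, ℤ) ⧸ Gamma0 N) = γ ↔
      (N : ℤ) ∣ (g * γ) 0 0 * γ 1 0 - (g * γ) 1 0 * γ 0 0 := by
  rw [MulAction.Quotient.smul_mk, smul_eq_mul, mk_eq_mk_iff]

lemma card_fixed_aux (g : SL(2, ℤ)) (t : ℤ)
    (hg : ∀ γ : SL(2, ℤ), (g * γ) 0 0 * γ 1 0 - (g * γ) 1 0 * γ 0 0 =
      -(γ 0 0 ^ 2 + t * γ 0 0 * γ 1 0 + γ 1 0 ^ 2)) :
    Nat.card {x : SL(2, ℤ) ⧸ Gamma0 N // g • x = x} =
      Nat.card {x : ZMod N // x ^ 2 + (t : ZMod N) * x + 1 = 0} := by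
  have key : ∀ γ : SL(2, ℤ), g • (γ : SL(2, ℤ) ⧸ Gamma0 N) = γ ↔
      ((γ 0 0 : ZMod N) ^ 2 + t * γ 0 0 * γ 1 0 + (γ 1 0 : ZMod N) ^ 2 = 0) := by
    intro γ
    rw [smul_mk_eq_iff, hg, dvd_neg, ← ZMod.intCast_zmod_eq_zero_iff_dvd]
    push_cast
    rfl
  symm
  let f : {x : ZMod N // x ^ 2 + (t : ZMod N) * x + 1 = 0} →
      {x : SL(2, ℤ) ⧸ Gamma0 N // g • x = x} := fun u =>
    ⟨(colMat (u.1.cast : ℤ) : SL(2, ℤ) ⧸ Gamma0 N), by
      rw [key]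
      simp only [colMat_00, colMat_10, ZMod.intCast_cast, ZMod.cast_id', id_eq, Int.cast_one,
        mul_one, one_pow]
      exact u.2⟩
  apply Nat.card_congr (Equiv.ofBijective f ⟨?_, ?_⟩)
  · intro u v huv
    have h1 : ((colMat (u.1.cast : ℤ) : SL(2, ℤ)) : SL(2, ℤ) ⧸ Gamma0 N) =
        (colMat (v.1.cast : ℤ) : SL(2, ℤ)) := congrArg Subtype.val huv
    rw [mk_eq_mk_iff, ← ZMod.intCast_zmod_eq_zero_iff_dvd] at h1
    simp only [colMat_00, colMat_10, mul_one, one_mul, Int.cast_sub, ZMod.intCast_cast,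
      ZMod.cast_id', id_eq] at h1
    exact Subtype.ext (sub_eq_zero.mp h1)
  · rintro ⟨x, hx⟩
    induction x using QuotientGroup.induction_on with | _ γ => ?_
    rw [key] at hx
    have hcop : IsCoprime (γ 0 0 : ZMod N) (γ 1 0 : ZMod N) :=
      (isCoprime_col γ).map (Int.castRingHom (ZMod N))
    have hunit : IsUnit (γ 1 0 : ZMod N) := by
      refine (hcop.pow_left (m := 2)).isUnit_of_dvd' ?_ dvd_rfl
      refine ⟨-(t * γ 0 0 + γ 1 0), ?_⟩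
      linear_combination hx
    obtain ⟨c, hc⟩ := hunit
    refine ⟨⟨(γ 0 0 : ZMod N) * (c⁻¹ : (ZMod N)ˣ), ?_⟩, ?_⟩
    · have h2 : ((c⁻¹ : (ZMod N)ˣ) : ZMod N) * (γ 1 0 : ZMod N) = 1 := by
        rw [← hc]; simp
      linear_combination ((c⁻¹ : (ZMod N)ˣ) : ZMod N) ^ 2 * hx
        - (((c⁻¹ : (ZMod N)ˣ) : ZMod N) * (γ 1 0 : ZMod N) + 1
          + (t : ZMod N) * γ 0 0 * ((c⁻¹ : (ZMod N)ˣ) : ZMod N)) * h2
    · apply Subtype.ext
      show ((colMat _ : SL(2, ℤ)) : SL(2, ℤ) ⧸ Gamma0 N) = γ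
      rw [mk_eq_mk_iff, ← ZMod.intCast_zmod_eq_zero_iff_dvd]
      simp only [colMat_00, colMat_10, one_mul, Int.cast_sub, Int.cast_mul, ZMod.intCast_cast,
        ZMod.cast_id', id_eq]
      have h2 : ((c⁻¹ : (ZMod N)ˣ) : ZMod N) * (γ 1 0 : ZMod N) = 1 := by
        rw [← hc]; simp
      linear_combination (γ 0 0 : ZMod N) * h2

/-- **C2**: the number of fixed points of `S` on `SL(2,ℤ) ⧸ Γ₀(N)`. -/
theorem card_fixed_S_aux (N : ℕ) :
    Nat.card {x : SL(2, ℤ) ⧸ Gamma0 N // ModularGroup.S • x = x} = ModularCurve.nuTwo N := by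
  rw [card_fixed_aux ModularGroup.S 0 (by intro γ; simp; ring), ModularCurve.nuTwo]
  simp

/-- **C3**: the number of fixed points of `S * T` on `SL(2,ℤ) ⧸ Γ₀(N)`. -/
theorem card_fixed_ST_aux (N : ℕ) :
    Nat.card {x : SL(2, ℤ) ⧸ Gamma0 N // (ModularGroup.S * ModularGroup.T) • x = x} =
      ModularCurve.nuThree N := by
  rw [card_fixed_aux (ModularGroup.S * ModularGroup.T) 1
    (by intro γ; simp [mul_assoc]; ring), ModularCurve.nuThree]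
  simp

end Fermat.Agent.S20lib
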