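import Fermat.Agent.S20.CombBasic

/-!
# The index of `Γ₀(N)` in `SL(2,ℤ)` is `dedekindPsi N`
-/

set_option autoImplicit false

open scoped MatrixGroups
open CongruenceSubgroup

namespace Fermat.Agent.S20lib

lemma Gamma0_mul_le (N p : ℕ) : Gamma0 (N * p) ≤ Gamma0 N := by
  intro γ hγ
  rw [Gamma0_mem, ZMod.intCast_zmod_eq_zero_iff_dvd] at hγ ⊢
  exact (Dvd.intro _ (by push_cast; rfl)).trans hγ

/-- invariant for the cosets `Γ₀(N) ⧸ Γ₀(Np)`. -/
noncomputable def towerInv (N p : ℕ) [Fact p.Prime] (γ : Gamma0 N) : Option (ZMod p) :=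
  open Classical in
  if ((γ : SL(2, ℤ)) 0 0 : ZMod p) = 0 then none
  else some ((((γ : SL(2, ℤ)) 1 0 / (N : ℤ) : ℤ) : ZMod p) / ((γ : SL(2, ℤ)) 0 0 : ZMod p))

lemma Gamma0_col1_eq (N : ℕ) (γ : Gamma0 N) :
    (γ : SL(2, ℤ)) 1 0 = N * ((γ : SL(2, ℤ)) 1 0 / (N : ℤ)) := by
  have := γ.2
  rw [Gamma0_mem, ZMod.intCast_zmod_eq_zero_iff_dvd] at this
  exact (Int.mul_ediv_cancel' this).symm

lemma towerInv_eq_iff (N p : ℕ) [NeZero N] [Fact p.Prime] (γ δ : Gamma0 N) :
    towerInv N p γ = towerInv N p δ ↔ γ⁻¹ * δ ∈ (Gamma0 (N * p)).subgroupOf (Gamma0 N) := by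
  rw [Subgroup.mem_subgroupOf]
  have e1 : ((γ⁻¹ * δ : Gamma0 N) : SL(2, ℤ)) = (γ : SL(2, ℤ))⁻¹ * δ := rfl
  rw [e1, inv_mul_mem_Gamma0_iff]
  set a := (γ : SL(2, ℤ)) 0 0 with ha
  set a' := (δ : SL(2, ℤ)) 0 0 with ha'
  set c₁ := (γ : SL(2, ℤ)) 1 0 / (N : ℤ) with hc₁
  set c₁' := (δ : SL(2, ℤ)) 1 0 / (N : ℤ) with hc₁'
  have hc : (γ : SL(2, ℤ)) 1 0 = N * c₁ := Gamma0_col1_eq N γ
  have hc' : (δ : SL(2, ℤ)) 1 0 = N * c₁' := Gamma0_col1_eq N δ
  have hN : (N : ℤ) ≠ 0 := by exact_mod_cast NeZero.ne N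
  have h1 : ((N * p : ℕ) : ℤ) ∣ a * (δ : SL(2, ℤ)) 1 0 - (γ : SL(2, ℤ)) 1 0 * a' ↔
      (a : ZMod p) * c₁' - c₁ * a' = 0 := by
    rw [hc, hc', show a * (N * c₁') - N * c₁ * a' = N * (a * c₁' - c₁ * a') by ring]
    push_cast
    rw [mul_dvd_mul_iff_left hN, ← ZMod.intCast_zmod_eq_zero_iff_dvd]
    push_cast
    rfl
  rw [h1]
  have hcop : IsCoprime (a : ZMod p) (c₁ : ZMod p) := by
    have := isCoprime_col (γ : SL(2, ℤ))
    rw [hc] at this
    exact (this.of_mul_right_right).map (Int.castRingHom (ZMod p))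
  have hcop' : IsCoprime (a' : ZMod p) (c₁' : ZMod p) := by
    have := isCoprime_col (δ : SL(2, ℤ))
    rw [hc'] at this
    exact (this.of_mul_right_right).map (Int.castRingHom (ZMod p))
  unfold towerInv
  rw [← ha, ← ha', ← hc₁, ← hc₁']
  by_cases h0 : (a : ZMod p) = 0 <;> by_cases h0' : (a' : ZMod p) = 0
  · simp [h0, h0']
  · have hc0 : (c₁ : ZMod p) ≠ 0 := by
      intro h
      rw [h0, h] at hcop
      exact not_isCoprime_zero_zero hcop
    simp [h0, h0', hc0]
  · have hc0 : (c₁' : ZMod p) ≠ 0 := by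
      intro h
      rw [h0', h] at hcop'
      exact not_isCoprime_zero_zero hcop'
    simp [h0, h0', hc0]
  · simp only [h0, h0', if_false, Option.some.injEq]
    rw [div_eq_div_iff h0 h0']
    constructor
    · intro h; linear_combination -h
    · intro h; linear_combination -h

lemma relIndex_Gamma0_mul_prime (N p : ℕ) [NeZero N] (hp : p.Prime) :
    (Gamma0 (N * p)).relIndex (Gamma0 N) = if p ∣ N then p else p + 1 := by
  have : Fact p.Prime := ⟨hp⟩
  rw [Subgroup.relIndex, Subgroup.index,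
    card_quotient_eq_card_range _ (towerInv N p) (towerInv_eq_iff N p)]
  have hsome : ∀ t : ZMod p, some t ∈ Set.range (towerInv N p) := by
    intro t
    obtain ⟨γ, h0, h1⟩ := exists_col (a := 1) (c := N * (t.cast : ℤ)) isCoprime_one_left
    have hγ : γ ∈ Gamma0 N := by
      rw [Gamma0_mem, h1]; simp
    refine ⟨⟨γ, hγ⟩, ?_⟩
    have hN : (N : ℤ) ≠ 0 := by exact_mod_cast NeZero.ne N
    simp [towerInv, h0, h1, Int.mul_ediv_cancel_left _ hN]
  split_ifs with hpN
  · have : Set.range (towerInv N p) = Set.range (some : ZMod p → Option (ZMod p)) := by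
      ext x
      constructor
      · rintro ⟨γ, rfl⟩
        have ha : (((γ : SL(2, ℤ)) 0 0 : ℤ) : ZMod p) ≠ 0 := by
          intro h
          rw [ZMod.intCast_zmod_eq_zero_iff_dvd] at h
          have h2 : (p : ℤ) ∣ (γ : SL(2, ℤ)) 1 0 := by
            rw [Gamma0_col1_eq N γ]
            exact Dvd.dvd.mul_right (by exact_mod_cast hpN) _
          have := (isCoprime_col (γ : SL(2, ℤ))).isUnit_of_dvd' h h2
          rw [Int.isUnit_iff] at this
          have hp2 := hp.two_le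
          omega
        simp [towerInv, ha]
      · rintro ⟨t, rfl⟩
        exact hsome t
    rw [this, Nat.card_range_of_injective (Option.some_injective _), Nat.card_zmod]
  · have : Set.range (towerInv N p) = Set.univ := by
      ext x
      simp only [Set.mem_univ, iff_true]
      cases x with
      | some t => exact hsome t
      | none =>
        have hcop : IsCoprime (p : ℤ) (N : ℤ) := by
          rw [Nat.isCoprime_iff_coprime]
          exact (Nat.Prime.coprime_iff_not_dvd hp).mpr hpN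
        obtain ⟨γ, h0, h1⟩ := exists_col hcop
        have hγ : γ ∈ Gamma0 N := by
          rw [Gamma0_mem, h1]; simp
        refine ⟨⟨γ, hγ⟩, ?_⟩
        simp [towerInv, h0]
    rw [this, Nat.card_univ, Nat.card_eq_fintype_card, Fintype.card_option, ZMod.card]

lemma index_Gamma0_mul_prime (N p : ℕ) [NeZero N] (hp : p.Prime) :
    (Gamma0 (N * p)).index = (if p ∣ N then p else p + 1) * (Gamma0 N).index := by
  rw [← Subgroup.relIndex_mul_index (Gamma0_mul_le N p), relIndex_Gamma0_mul_prime N p hp]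

end Fermat.Agent.S20lib

namespace Fermat.Agent.S20lib

open ModularCurve

lemma dedekindPsi_mul_prime_of_dvd {a p : ℕ} (ha : a ≠ 0) (hp : p.Prime) (hpa : p ∣ a) :
    dedekindPsi (a * p) = p * dedekindPsi a := by
  unfold dedekindPsi
  have hset : (a * p).divisors.filter Squarefree = a.divisors.filter Squarefree := by
    ext d
    simp only [Finset.mem_filter, Nat.mem_divisors, ne_eq, mul_eq_zero, not_or]
    constructor
    · rintro ⟨⟨h1, -⟩, h2⟩
      refine ⟨⟨?_, ha⟩, h2⟩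
      have : d ∣ a ^ 2 := h1.trans (by rw [pow_two]; exact mul_dvd_mul_left a hpa)
      exact (h2.dvd_pow_iff_dvd two_ne_zero).mp this
    · rintro ⟨⟨h1, -⟩, h2⟩
      exact ⟨⟨h1.mul_right p, ha, hp.ne_zero⟩, h2⟩
  rw [hset, Finset.mul_sum]
  refine Finset.sum_congr rfl fun d hd => ?_
  simp only [Finset.mem_filter, Nat.mem_divisors] at hd
  obtain ⟨k, rfl⟩ := hd.1.1
  have hd0 : 0 < d := Nat.pos_of_ne_zero (by rintro rfl; simp at ha)
  rw [mul_assoc, Nat.mul_div_cancel_left _ hd0, Nat.mul_div_cancel_left _ hd0, mul_comm]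

lemma dedekindPsi_mul_prime_of_not_dvd {a p : ℕ} (ha : a ≠ 0) (hp : p.Prime) (hpa : ¬ p ∣ a) :
    dedekindPsi (a * p) = (p + 1) * dedekindPsi a := by
  unfold dedekindPsi
  rw [← Finset.sum_filter_add_sum_filter_not ((a * p).divisors.filter Squarefree) (fun d => p ∣ d),
    add_mul, one_mul, add_comm]
  congr 1
  · -- divisors not divisible by `p`
    have hset : ((a * p).divisors.filter Squarefree).filter (fun d => ¬ p ∣ d) =
        a.divisors.filter Squarefree := by
      ext d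
      simp only [Finset.mem_filter, Nat.mem_divisors, ne_eq, mul_eq_zero, not_or]
      constructor
      · rintro ⟨⟨⟨h1, -⟩, h2⟩, h3⟩
        refine ⟨⟨?_, ha⟩, h2⟩
        exact (Nat.Coprime.symm ((Nat.Prime.coprime_iff_not_dvd hp).mpr h3)).dvd_of_dvd_mul_right h1
      · rintro ⟨⟨h1, -⟩, h2⟩
        exact ⟨⟨⟨h1.mul_right p, ha, hp.ne_zero⟩, h2⟩, fun h => hpa (h.trans h1)⟩
    rw [hset, Finset.mul_sum]
    refine Finset.sum_congr rfl fun d hd => ?_
    simp only [Finset.mem_filter, Nat.mem_divisors] at hd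
    obtain ⟨k, rfl⟩ := hd.1.1
    have hd0 : 0 < d := Nat.pos_of_ne_zero (by rintro rfl; simp at ha)
    rw [mul_assoc, Nat.mul_div_cancel_left _ hd0, Nat.mul_div_cancel_left _ hd0, mul_comm]
  · -- divisors divisible by `p`
    symm
    refine Finset.sum_bij (fun d _ => d * p) ?_ ?_ ?_ ?_
    · intro d hd
      simp only [Finset.mem_filter, Nat.mem_divisors, ne_eq, mul_eq_zero, not_or] at hd ⊢
      refine ⟨⟨⟨mul_dvd_mul_right hd.1.1 p, ha, hp.ne_zero⟩, ?_⟩, dvd_mul_left p d⟩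
      have hcop : Nat.Coprime d p :=
        Nat.Coprime.symm ((Nat.Prime.coprime_iff_not_dvd hp).mpr fun h => hpa (h.trans hd.1.1))
      exact (Nat.squarefree_mul hcop).mpr ⟨hd.2, hp.prime.irreducible.squarefree⟩
    · intro d _ d' _ h
      exact Nat.eq_of_mul_eq_mul_right hp.pos h
    · intro e he
      simp only [Finset.mem_filter, Nat.mem_divisors, ne_eq, mul_eq_zero, not_or] at he
      obtain ⟨⟨⟨h1, -⟩, h2⟩, ⟨k, rfl⟩⟩ := he
      refine ⟨k, ?_, mul_comm _ _⟩
      simp only [Finset.mem_filter, Nat.mem_divisors, ne_eq]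
      refine ⟨⟨?_, ha⟩, h2.squarefree_of_dvd (dvd_mul_left k p)⟩
      rw [mul_comm a p] at h1
      exact Nat.dvd_of_mul_dvd_mul_left hp.pos h1
    · intro d hd
      exact (Nat.mul_div_mul_right a d hp.pos).symm

/-- **C1** (index form). -/
theorem index_Gamma0 (N : ℕ) (hN : N ≠ 0) : (Gamma0 N).index = dedekindPsi N := by
  induction N using induction_on_primes with
  | zero => exact absurd rfl hN
  | one =>
    rw [dedekindPsi_one]
    have : Gamma0 1 = ⊤ := by
      ext γ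
      simp [Gamma0_mem, eq_iff_true_of_subsingleton]
    rw [this, Subgroup.index_top]
  | prime_mul p a hp ih =>
    have ha : a ≠ 0 := by rintro rfl; simp at hN
    have : NeZero a := ⟨ha⟩
    rw [mul_comm p a, index_Gamma0_mul_prime a p hp, ih ha]
    split_ifs with h
    · rw [dedekindPsi_mul_prime_of_dvd ha hp h]
    · rw [dedekindPsi_mul_prime_of_not_dvd ha hp h]

/-- **C1**: `#(SL(2,ℤ) ⧸ Γ₀(N)) = ψ(N)`. -/
theorem card_quotient_Gamma0 (N : ℕ) [NeZero N] :
    Nat.card (SL(2, ℤ) ⧸ Gamma0 N) = dedekindPsi N :=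
  index_Gamma0 N (NeZero.ne N)

end Fermat.Agent.S20lib
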