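import Fermat.Agent.S20.Defs
import Fermat.Agent.S20.CombFixed
import Fermat.Agent.S20.CombIndex
import Fermat.Agent.S20.CombCusps

/-!
# S20 library, tasks C1-C4: combinatorics of `SL(2,ℤ) ⧸ Γ₀(N)`  (≃ ℙ¹(ℤ/N))
-/

set_option autoImplicit false

open MatrixGroups

namespace Fermat.Agent.S20lib

open CongruenceSubgroup ModularGroup

/-- C1 -/
theorem card_quot_Gamma0 (N : ℕ) [NeZero N] :
    Nat.card (SL(2, ℤ) ⧸ Gamma0 N) = ModularCurve.dedekindPsi N :=
  card_quotient_Gamma0 N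

/-- C2 -/
theorem card_fixed_S (N : ℕ) [NeZero N] :
    Nat.card {x : SL(2, ℤ) ⧸ Gamma0 N // S • x = x} = ModularCurve.nuTwo N :=
  card_fixed_S_aux N

/-- C3 -/
theorem card_fixed_ST (N : ℕ) [NeZero N] :
    Nat.card {x : SL(2, ℤ) ⧸ Gamma0 N // (S * T) • x = x} = ModularCurve.nuThree N :=
  card_fixed_ST_aux N

/-- C4 -/
theorem card_orbits_T (N : ℕ) [NeZero N] :
    numCusps (SL(2, ℤ) ⧸ Gamma0 N) = ModularCurve.cuspCount N :=
  card_orbits_T_aux N

end Fermat.Agent.S20lib
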