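import Fermat.Agent.S20.GoodBasis

/-!
# S20 library, task H4
-/

set_option autoImplicit false

open UpperHalfPlane hiding I
open ModularForm MatrixGroups Filter Topology Complex ModularGroup
open scoped Manifold Real

namespace Fermat.Agent.S20lib

local notation "Δ" => ModularForm.discriminant

namespace GoodBasis

variable {X : Type} [Fintype X] [DecidableEq X] [MulAction SL(2, ℤ) X] (B : GoodBasis X)

/-! ### H4: evaluation at the elliptic points -/

/-- general trace formula at a fixed point -/
theorem trace_of_fixed (g : SL(2, ℤ)) (z : ℍ) (hz : g • z = z) :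
    (Fintype.card {x : X // g • x = x} : ℂ) = ∑ j, (denom g z) ^ (-(B.wt j)) := by
  set M := B.mat z with hM
  have hdet : IsUnit M.det := isUnit_iff_ne_zero.2 (B.det_mat_ne z)
  have hd : denom g z ≠ 0 := denom_ne_zero g z
  let P : Matrix X X ℂ := Matrix.of fun x y => if y = g⁻¹ • x then 1 else 0
  let D : Matrix X X ℂ := Matrix.diagonal fun j => (denom g z) ^ (-(B.wt j))
  have hPM : P * M = M * D := by
    ext x j
    have h1 : (P * M) x j = M (g⁻¹ • x) j := by
      simp [P, Matrix.mul_apply]
    have h2 : (M * D) x j = M x j * (denom g z) ^ (-(B.wt j)) := by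
      simp [D, Matrix.mul_diagonal]
    rw [h1, h2, hM, mat_apply, mat_apply]
    have h3 := (B.isV j).apply_smul g x z
    rw [hz] at h3
    rw [h3, mul_comm, ← mul_assoc, ← zpow_add₀ hd]
    simp
  have hP : P = M * D * M⁻¹ := by
    rw [← hPM, Matrix.mul_assoc, Matrix.mul_nonsing_inv _ hdet, Matrix.mul_one]
  have htr : P.trace = D.trace := by
    rw [hP, Matrix.trace_mul_cycle, Matrix.nonsing_inv_mul _ hdet, Matrix.one_mul]
  have h1 : P.trace = (Fintype.card {x : X // g • x = x} : ℂ) := by
    rw [Fintype.card_subtype, Finset.card_filter]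
    push_cast
    simp only [Matrix.trace, Matrix.diag_apply, P, Matrix.of_apply]
    refine Finset.sum_congr rfl (fun x _ => ?_)
    have : (x = g⁻¹ • x) ↔ g • x = x := by
      rw [eq_inv_smul_iff]
    simp only [this]
  rw [← h1, htr]
  simp [D, Matrix.trace_diagonal]

theorem trace_S : (Fintype.card {x : X // S • x = x} : ℂ) = ∑ j, Complex.I ^ (-(B.wt j)) := by
  have h : S • UpperHalfPlane.I = UpperHalfPlane.I := by
    rw [ModularGroup.stabilizer_I]; simp
  have := B.trace_of_fixed S UpperHalfPlane.I h
  rw [this, ModularGroup.denom_S, UpperHalfPlane.coe_I]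

theorem trace_ST : (Fintype.card {x : X // (S * T) • x = x} : ℂ) =
    ∑ j, (cexp (π * Complex.I / 3)) ^ (-(B.wt j)) := by
  have h : (S * T) • UpperHalfPlane.ρ = UpperHalfPlane.ρ := by
    rw [ModularGroup.stabilizer_ρ]; simp
  have := B.trace_of_fixed (S * T) UpperHalfPlane.ρ h
  rw [this]
  have hden : ∀ g : SL(2, ℤ), g = S * T → denom g UpperHalfPlane.ρ = cexp (π * Complex.I / 3) := by
    intro g hg
    rw [ModularGroup.denom_apply, hg]
    have e1 : (S * T : SL(2, ℤ)) 1 0 = 1 := by decide
    have e2 : (S * T : SL(2, ℤ)) 1 1 = 1 := by decide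
    rw [e1, e2]
    have e3 : (π : ℂ) * Complex.I / 3 = ((π / 3 : ℝ) : ℂ) * Complex.I := by
      push_cast; ring
    rw [e3, Complex.exp_mul_I, ← Complex.ofReal_cos, ← Complex.ofReal_sin, Real.cos_pi_div_three,
      Real.sin_pi_div_three]
    apply Complex.ext <;> simp [UpperHalfPlane.ρ] <;> norm_num
  rw [hden _ rfl]

end GoodBasis

end Fermat.Agent.S20lib
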