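import Mathlib

/-!
# S20 library, task H5
-/

set_option autoImplicit false

open Complex
open scoped Real

namespace Fermat.Agent.S20lib

/-! ### H5: arithmetic -/

/-- auxiliary integer valued functions: `ζ ^ (-a) = cntP a + cntQ a * ζ`, `I ^ (-a) = cntE a`. -/
def cntP (a : ℤ) : ℤ := if a = 0 ∨ a = 6 then 1 else if a = 4 ∨ a = 10 then -1 else 0

/-- see `cntP`. -/
def cntQ (a : ℤ) : ℤ := if a = 2 ∨ a = 8 then -1 else if a = 4 ∨ a = 10 then 1 else 0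

/-- see `cntP`. -/
def cntE (a : ℤ) : ℤ := if a = 0 ∨ a = 4 ∨ a = 8 then 1 else -1

lemma cnt_zeta_re : (cexp (π * Complex.I / 3)).re = 1 / 2 := by
  rw [show (π * Complex.I / 3 : ℂ) = ((π / 3 : ℝ) : ℂ) * Complex.I by push_cast; ring,
    Complex.exp_ofReal_mul_I_re, Real.cos_pi_div_three]

lemma cnt_zeta_im : (cexp (π * Complex.I / 3)).im = √3 / 2 := by
  rw [show (π * Complex.I / 3 : ℂ) = ((π / 3 : ℝ) : ℂ) * Complex.I by push_cast; ring,
    Complex.exp_ofReal_mul_I_im, Real.sin_pi_div_three]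

lemma cnt_zeta_sq : (cexp (π * Complex.I / 3)) ^ 2 = cexp (π * Complex.I / 3) - 1 := by
  have h3 : (√3 : ℝ) * √3 = 3 := Real.mul_self_sqrt (by norm_num)
  apply Complex.ext
  · simp only [pow_two, Complex.mul_re, Complex.sub_re, Complex.one_re, cnt_zeta_re, cnt_zeta_im]
    nlinarith
  · simp only [pow_two, Complex.mul_im, Complex.sub_im, Complex.one_im, cnt_zeta_re, cnt_zeta_im]
    ring

lemma cnt_zeta_zpow (a : ℤ) (ha : a = 0 ∨ a = 2 ∨ a = 4 ∨ a = 6 ∨ a = 8 ∨ a = 10) :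
    (cexp (π * Complex.I / 3)) ^ (-a) = (cntP a : ℂ) + (cntQ a : ℂ) * cexp (π * Complex.I / 3) := by
  set ζ : ℂ := cexp (π * Complex.I / 3) with hζ
  have hζ2 : ζ ^ 2 = ζ - 1 := cnt_zeta_sq
  have hη : ζ⁻¹ = 1 - ζ := by
    apply inv_eq_of_mul_eq_one_right
    linear_combination -hζ2
  have e2 : (1 - ζ) ^ 2 = -ζ := by linear_combination hζ2
  have e4 : (1 - ζ) ^ 4 = ζ - 1 := by
    calc (1 - ζ) ^ 4 = ((1 - ζ) ^ 2) ^ 2 := by ring
      _ = ζ - 1 := by rw [e2]; linear_combination hζ2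
  have e6 : (1 - ζ) ^ 6 = 1 := by
    calc (1 - ζ) ^ 6 = (1 - ζ) ^ 2 * (1 - ζ) ^ 4 := by ring
      _ = 1 := by rw [e2, e4]; linear_combination -hζ2
  have e8 : (1 - ζ) ^ 8 = -ζ := by
    calc (1 - ζ) ^ 8 = (1 - ζ) ^ 6 * (1 - ζ) ^ 2 := by ring
      _ = -ζ := by rw [e2, e6, one_mul]
  have e10 : (1 - ζ) ^ 10 = ζ - 1 := by
    calc (1 - ζ) ^ 10 = (1 - ζ) ^ 6 * (1 - ζ) ^ 4 := by ring
      _ = ζ - 1 := by rw [e4, e6, one_mul]
  rw [zpow_neg, ← inv_zpow, hη]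
  rcases ha with h | h | h | h | h | h <;> subst h
  · simp [cntP, cntQ]
  · rw [zpow_ofNat, e2]; simp [cntP, cntQ]
  · rw [zpow_ofNat, e4]; simp [cntP, cntQ]; ring
  · rw [zpow_ofNat, e6]; simp [cntP, cntQ]
  · rw [zpow_ofNat, e8]; simp [cntP, cntQ]
  · rw [zpow_ofNat, e10]; simp [cntP, cntQ]; ring

lemma cnt_I_zpow (a : ℤ) (ha : a = 0 ∨ a = 2 ∨ a = 4 ∨ a = 6 ∨ a = 8 ∨ a = 10) :
    Complex.I ^ (-a) = (cntE a : ℂ) := by
  have e2 : (-Complex.I) ^ 2 = -1 := by rw [neg_sq, Complex.I_sq]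
  have e4 : (-Complex.I) ^ 4 = 1 := by
    calc (-Complex.I) ^ 4 = ((-Complex.I) ^ 2) ^ 2 := by ring
      _ = 1 := by rw [e2]; norm_num
  have e6 : (-Complex.I) ^ 6 = -1 := by
    calc (-Complex.I) ^ 6 = ((-Complex.I) ^ 2) ^ 3 := by ring
      _ = -1 := by rw [e2]; norm_num
  have e8 : (-Complex.I) ^ 8 = 1 := by
    calc (-Complex.I) ^ 8 = ((-Complex.I) ^ 2) ^ 4 := by ring
      _ = 1 := by rw [e2]; norm_num
  have e10 : (-Complex.I) ^ 10 = -1 := by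
    calc (-Complex.I) ^ 10 = ((-Complex.I) ^ 2) ^ 5 := by ring
      _ = -1 := by rw [e2]; norm_num
  rw [zpow_neg, ← inv_zpow, Complex.inv_I]
  rcases ha with h | h | h | h | h | h <;> subst h
  · simp [cntE]
  · rw [zpow_ofNat, e2]; simp [cntE]
  · rw [zpow_ofNat, e4]; simp [cntE]
  · rw [zpow_ofNat, e6]; simp [cntE]
  · rw [zpow_ofNat, e8]; simp [cntE]
  · rw [zpow_ofNat, e10]; simp [cntE]

lemma cnt_pointwise (a : ℤ) (ha : a = 0 ∨ a = 2 ∨ a = 4 ∨ a = 6 ∨ a = 8 ∨ a = 10) :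
    12 * (if a = 10 then 1 else 0 : ℤ) =
      12 * (if a = 0 then 1 else 0 : ℤ) - 5 - 4 * cntP a - 3 * cntE a + a := by
  rcases ha with h | h | h | h | h | h <;> subst h <;> simp [cntP, cntE]

theorem count_arith {ι : Type} [Fintype ι] (k : ι → ℤ) (hk0 : ∀ j, 0 ≤ k j) (hk12 : ∀ j, k j < 12)
    (hkev : ∀ j, Even (k j)) (e2 e3 c : ℕ)
    (h0 : Fintype.card {j : ι // k j = 0} = 1)
    (hsum : (∑ j, k j : ℤ) = 6 * ((Fintype.card ι : ℤ) - c))
    (h2 : (e2 : ℂ) = ∑ j, Complex.I ^ (-(k j)))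
    (h3 : (e3 : ℂ) = ∑ j, (cexp (π * Complex.I / 3)) ^ (-(k j))) :
    (Fintype.card {j : ι // k j = 10} : ℚ) =
      1 + (Fintype.card ι : ℚ) / 12 - (e2 : ℚ) / 4 - (e3 : ℚ) / 3 - (c : ℚ) / 2 := by
  classical
  have hcases : ∀ j, k j = 0 ∨ k j = 2 ∨ k j = 4 ∨ k j = 6 ∨ k j = 8 ∨ k j = 10 := by
    intro j
    have h1 := hk0 j
    have h2 := hk12 j
    obtain ⟨m, hm⟩ := hkev j
    omega
  -- the sum of `cntE`
  have hE : (∑ j, cntE (k j) : ℤ) = e2 := by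
    have : ((∑ j, cntE (k j) : ℤ) : ℂ) = ((e2 : ℤ) : ℂ) := by
      push_cast
      rw [h2]
      exact Finset.sum_congr rfl fun j _ => (cnt_I_zpow _ (hcases j)).symm
    exact_mod_cast this
  -- the sums of `cntP`, `cntQ`
  have hPQ : (e3 : ℂ) = ((∑ j, cntP (k j) : ℤ) : ℂ) +
      ((∑ j, cntQ (k j) : ℤ) : ℂ) * cexp (π * Complex.I / 3) := by
    rw [h3]
    push_cast
    rw [Finset.sum_mul, ← Finset.sum_add_distrib]
    exact Finset.sum_congr rfl fun j _ => cnt_zeta_zpow _ (hcases j)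
  have hQ : (∑ j, cntQ (k j) : ℤ) = 0 := by
    have him := congrArg Complex.im hPQ
    simp only [Complex.natCast_im, Complex.add_im, Complex.intCast_im, Complex.mul_im,
      Complex.intCast_re, cnt_zeta_im, zero_mul, add_zero, zero_add] at him
    have h3pos : (0 : ℝ) < √3 / 2 := by positivity
    have : ((∑ j, cntQ (k j) : ℤ) : ℝ) = 0 := by
      rcases mul_eq_zero.mp him.symm with h | h
      · exact h
      · exact absurd h h3pos.ne'
    exact_mod_cast this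
  have hP : (∑ j, cntP (k j) : ℤ) = e3 := by
    rw [hQ] at hPQ
    have : ((∑ j, cntP (k j) : ℤ) : ℂ) = ((e3 : ℤ) : ℂ) := by
      rw [Int.cast_natCast, hPQ]
      simp
    exact_mod_cast this
  -- sum the pointwise identity
  have hc10 : (Fintype.card {j : ι // k j = 10} : ℤ) = ∑ j, (if k j = 10 then 1 else 0 : ℤ) := by
    rw [Fintype.card_subtype, Finset.card_filter]
    push_cast
    rfl
  have hc0 : (Fintype.card {j : ι // k j = 0} : ℤ) = ∑ j, (if k j = 0 then 1 else 0 : ℤ) := by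
    rw [Fintype.card_subtype, Finset.card_filter]
    push_cast
    rfl
  have hmain : 12 * (Fintype.card {j : ι // k j = 10} : ℤ) =
      12 * (Fintype.card {j : ι // k j = 0} : ℤ) - 5 * (Fintype.card ι : ℤ) - 4 * e3 - 3 * e2 +
        6 * ((Fintype.card ι : ℤ) - c) := by
    rw [hc10, hc0, ← hP, ← hE, ← hsum, Finset.mul_sum, Finset.mul_sum, Finset.mul_sum,
      Finset.mul_sum]
    have h5 : 5 * (Fintype.card ι : ℤ) = ∑ _j : ι, (5 : ℤ) := by
      simp [mul_comm]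
    rw [h5, ← Finset.sum_sub_distrib, ← Finset.sum_sub_distrib, ← Finset.sum_sub_distrib,
      ← Finset.sum_add_distrib]
    exact Finset.sum_congr rfl fun j _ => cnt_pointwise _ (hcases j)
  have hmainQ : 12 * (Fintype.card {j : ι // k j = 10} : ℚ) =
      12 * 1 - 5 * (Fintype.card ι : ℚ) - 4 * e3 - 3 * e2 + 6 * ((Fintype.card ι : ℚ) - c) := by
    rw [h0] at hmain
    exact_mod_cast hmain
  linarith

end Fermat.Agent.S20lib
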