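import Fermat.Agent.S20.Count3
import Fermat.Agent.S20.Count4
import Fermat.Agent.S20.Count5

/-!
# S20 library: from a good basis to the dimension formula
-/

set_option autoImplicit false

open UpperHalfPlane hiding I
open ModularForm MatrixGroups Filter Topology Complex ModularGroup
open scoped Manifold Real

namespace Fermat.Agent.S20lib

local notation "Δ" => ModularForm.discriminant

/-- The dimension formula for a transitive finite `SL(2,ℤ)`-set with a good basis. -/
theorem GoodBasis.dimension_formula {X : Type} [Fintype X] [DecidableEq X] [MulAction SL(2, ℤ) X]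
    [MulAction.IsPretransitive SL(2, ℤ) X] [Nonempty X] (B : GoodBasis X)
    (hneg : ∀ x : X, (-1 : SL(2, ℤ)) • x = x) :
    (Module.finrank ℂ (Smod X 2) : ℚ) =
      1 + (Nat.card X : ℚ) / 12 - (Nat.card {x : X // S • x = x} : ℚ) / 4
        - (Nat.card {x : X // (S * T) • x = x} : ℚ) / 3
        - (numCusps X : ℚ) / 2 := by
  rw [B.finrank_S2 hneg]
  have := count_arith B.wt B.wt_nonneg B.wt_lt_twelve (B.wt_even hneg)
    (Fintype.card {x : X // S • x = x}) (Fintype.card {x : X // (S * T) • x = x})
    (numCusps X)
    B.card_wt_zero B.sum_wt B.trace_S B.trace_ST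
  rw [this]
  simp only [Nat.card_eq_fintype_card]

end Fermat.Agent.S20lib
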