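import Mathlib

/-!
# S20 library, task A: graded Nakayama + freeness from a regular sequence (pure algebra)
-/

set_option autoImplicit false

namespace Fermat.Agent.S20lib

section NakayamaAux

variable {M : Type*} [AddCommGroup M] [Module ℂ M]

/-- For a finite dimensional subspace `V` and an arbitrary subspace `W` there is a finite family
in `V` which is a basis of `V` modulo `W`. -/
theorem exists_compl_family (V W : Submodule ℂ M) [Module.Finite ℂ V] :
    ∃ (n : ℕ) (f : Fin n → M), (∀ i, f i ∈ V) ∧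
      (∀ v ∈ V, ∃ c : Fin n → ℂ, v - ∑ i, c i • f i ∈ W) ∧
      (∀ c : Fin n → ℂ, ∑ i, c i • f i ∈ W → ∀ i, c i = 0) := by
  classical
  let q : V →ₗ[ℂ] M ⧸ W := W.mkQ ∘ₗ V.subtype
  let Q := LinearMap.range q
  let b := Module.finBasis ℂ Q
  have hpre : ∀ i, ∃ v : V, q v = b i := fun i => (b i).2
  choose g hg using hpre
  have hq : ∀ c : Fin (Module.finrank ℂ Q) → ℂ,
      W.mkQ (∑ i, c i • (g i : M)) = ((∑ i, c i • b i : Q) : M ⧸ W) := by
    intro c
    rw [map_sum, AddSubmonoidClass.coe_finsetSum]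
    refine Finset.sum_congr rfl fun i _ => ?_
    rw [map_smul, Submodule.coe_smul, ← hg i]
    rfl
  refine ⟨Module.finrank ℂ Q, fun i => (g i : M), fun i => (g i).2, ?_, ?_⟩
  · intro v hv
    let y : Q := ⟨q ⟨v, hv⟩, LinearMap.mem_range_self _ _⟩
    refine ⟨fun i => b.repr y i, ?_⟩
    refine (Submodule.Quotient.mk_eq_zero W).1 ?_
    show W.mkQ _ = 0
    rw [map_sub, hq, b.sum_repr y, sub_eq_zero]
    rfl
  · intro c hc
    have hc' : W.mkQ (∑ i, c i • (g i : M)) = 0 := (Submodule.Quotient.mk_eq_zero W).2 hc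
    rw [hq] at hc'
    have h0 : (∑ i, c i • b i : Q) = 0 := Subtype.ext hc'
    exact fun i => Fintype.linearIndependent_iff.1 b.linearIndependent c h0 i

end NakayamaAux

section Core

variable {A M : Type*} [CommRing A] [Algebra ℂ A] [AddCommGroup M] [Module ℂ M] [Module A M]
    [IsScalarTower ℂ A M]

theorem graded_gen_core
    (R : ℤ → Submodule ℂ A) (V : ℤ → Submodule ℂ M) (e4 e6 : A)
    (hRone : (1 : A) ∈ R 0)
    (hRmul : ∀ i j a b, a ∈ R i → b ∈ R j → a * b ∈ R (i + j))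
    (he4 : e4 ∈ R 4) (he6 : e6 ∈ R 6)
    (hVneg : ∀ k < 0, ∀ v ∈ V k, v = 0)
    {ι : Type*} [Fintype ι] (wt : ι → ℤ) (F : ι → M)
    (P1 : ∀ k, ∀ v ∈ V k, ∃ c : ι → ℂ, (∀ j, wt j ≠ k → c j = 0) ∧
       ∃ u ∈ V (k - 4), ∃ w ∈ V (k - 6), v = ∑ j, c j • F j + (e4 • u + e6 • w)) :
    ∀ k, ∀ v ∈ V k, ∃ a : ι → A, (∀ j, a j ∈ R (k - wt j)) ∧ v = ∑ j, a j • F j := by
  have key : ∀ n : ℕ, ∀ k : ℤ, k < n → ∀ v ∈ V k,
      ∃ a : ι → A, (∀ j, a j ∈ R (k - wt j)) ∧ v = ∑ j, a j • F j := by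
    intro n
    induction n with
    | zero =>
      intro k hk v hv
      refine ⟨fun _ => 0, fun j => Submodule.zero_mem _, ?_⟩
      rw [hVneg k (by simpa using hk) v hv]
      simp
    | succ n ih =>
      intro k hk v hv
      obtain ⟨c, hc, u, hu, w, hw, rfl⟩ := P1 k v hv
      push_cast at hk
      obtain ⟨au, hau, rfl⟩ := ih (k - 4) (by omega) u hu
      obtain ⟨aw, haw, rfl⟩ := ih (k - 6) (by omega) w hw
      refine ⟨fun j => algebraMap ℂ A (c j) + (e4 * au j + e6 * aw j), fun j => ?_, ?_⟩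
      · refine Submodule.add_mem _ ?_ (Submodule.add_mem _ ?_ ?_)
        · by_cases hj : wt j = k
          · rw [hj, sub_self, Algebra.algebraMap_eq_smul_one]
            exact Submodule.smul_mem _ _ hRone
          · rw [hc j hj, map_zero]
            exact Submodule.zero_mem _
        · have := hRmul 4 (k - 4 - wt j) e4 (au j) he4 (hau j)
          rwa [show (4 : ℤ) + (k - 4 - wt j) = k - wt j by ring] at this
        · have := hRmul 6 (k - 6 - wt j) e6 (aw j) he6 (haw j)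
          rwa [show (6 : ℤ) + (k - 6 - wt j) = k - wt j by ring] at this
      · simp only [add_smul, Finset.sum_add_distrib, mul_smul, Finset.smul_sum, algebraMap_smul]
  intro k v hv
  exact key (k.toNat + 1) k (by push_cast; have := Int.self_le_toNat k; omega) v hv

theorem graded_free_core
    (R : ℤ → Submodule ℂ A) (V : ℤ → Submodule ℂ M) (e4 e6 : A)
    (hR0 : ∀ a ∈ R 0, ∃ c : ℂ, a = algebraMap ℂ A c)
    (hRneg : ∀ k < 0, ∀ a ∈ R k, a = 0)
    (hRmul : ∀ i j a b, a ∈ R i → b ∈ R j → a * b ∈ R (i + j))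
    (he4 : e4 ∈ R 4) (he6 : e6 ∈ R 6)
    (hRdec : ∀ k, k ≠ 0 → ∀ a ∈ R k, ∃ b ∈ R (k - 4), ∃ c ∈ R (k - 6), a = e4 * b + e6 * c)
    (hRV : ∀ i j a v, a ∈ R i → v ∈ V j → a • v ∈ V (i + j))
    (hreg : ∀ k, ∀ g ∈ V (k - 4), ∀ f ∈ V (k - 6), e4 • g = e6 • f →
      ∃ h ∈ V (k - 10), g = e6 • h ∧ f = e4 • h)
    {ι : Type*} [Fintype ι] (wt : ι → ℤ) (F : ι → M) (hwt : ∀ j, 0 ≤ wt j)
    (hF : ∀ j, F j ∈ V (wt j))
    (gen : ∀ k, ∀ v ∈ V k, ∃ a : ι → A, (∀ j, a j ∈ R (k - wt j)) ∧ v = ∑ j, a j • F j)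
    (P2 : ∀ k, ∀ c : ι → ℂ, (∀ j, wt j ≠ k → c j = 0) →
       (∃ u ∈ V (k - 4), ∃ w ∈ V (k - 6), ∑ j, c j • F j = e4 • u + e6 • w) → ∀ j, c j = 0) :
    ∀ k, ∀ a : ι → A, (∀ j, a j ∈ R (k - wt j)) → ∑ j, a j • F j = 0 → ∀ j, a j = 0 := by
  have hsum : ∀ (k : ℤ) (a : ι → A), (∀ j, a j ∈ R (k - wt j)) → ∑ j, a j • F j ∈ V k := by
    intro k a ha
    refine Submodule.sum_mem _ fun j _ => ?_
    have := hRV (k - wt j) (wt j) (a j) (F j) (ha j) (hF j)
    rwa [sub_add_cancel] at this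
  have key : ∀ n : ℕ, ∀ k : ℤ, k < n → ∀ a : ι → A, (∀ j, a j ∈ R (k - wt j)) →
      ∑ j, a j • F j = 0 → ∀ j, a j = 0 := by
    intro n
    induction n with
    | zero =>
      intro k hk a ha _ j
      exact hRneg (k - wt j) (by have := hwt j; simp at hk; omega) _ (ha j)
    | succ n ih =>
      intro k hk a ha h0
      push_cast at hk
      have hdec : ∀ j, ∃ (c : ℂ) (b d : A), (wt j ≠ k → c = 0) ∧ b ∈ R (k - 4 - wt j) ∧
          d ∈ R (k - 6 - wt j) ∧ a j = algebraMap ℂ A c + (e4 * b + e6 * d) := by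
        intro j
        by_cases hj : wt j = k
        · have h := ha j
          rw [hj, sub_self] at h
          obtain ⟨c, hc⟩ := hR0 _ h
          exact ⟨c, 0, 0, fun h => absurd hj h, Submodule.zero_mem _, Submodule.zero_mem _,
            by rw [hc]; simp⟩
        · obtain ⟨b, hb, d, hd, hbd⟩ := hRdec (k - wt j) (sub_ne_zero.2 (Ne.symm hj)) _ (ha j)
          refine ⟨0, b, d, fun _ => rfl, ?_, ?_, by rw [hbd]; simp⟩
          · rwa [show k - 4 - wt j = k - wt j - 4 by ring]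
          · rwa [show k - 6 - wt j = k - wt j - 6 by ring]
      choose c b d hc hb hd habd using hdec
      set G := ∑ j, b j • F j with hG
      set H := ∑ j, d j • F j with hH
      have hGV : G ∈ V (k - 4) := hsum _ b hb
      have hHV : H ∈ V (k - 6) := hsum _ d hd
      have hexp : ∑ j, a j • F j = ∑ j, c j • F j + (e4 • G + e6 • H) := by
        simp only [habd, hG, hH, add_smul, Finset.sum_add_distrib, mul_smul, Finset.smul_sum,
          algebraMap_smul]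
      rw [h0] at hexp
      have hc0 : ∀ j, c j = 0 := by
        refine P2 k c hc ⟨-G, Submodule.neg_mem _ hGV, -H, Submodule.neg_mem _ hHV, ?_⟩
        rw [smul_neg, smul_neg, ← neg_add, eq_neg_iff_add_eq_zero]
        exact hexp.symm
      have hGH : e4 • G = e6 • (-H) := by
        have : ∑ j, c j • F j = 0 := by simp [hc0]
        rw [this, zero_add] at hexp
        rw [smul_neg, eq_neg_iff_add_eq_zero]
        exact hexp.symm
      obtain ⟨h, hhV, hGh, hHh⟩ := hreg k G hGV (-H) (Submodule.neg_mem _ hHV) hGH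
      obtain ⟨e, he, rfl⟩ := gen (k - 10) h hhV
      have hb' : ∀ j, b j - e6 * e j = 0 := by
        refine ih (k - 4) (by omega) _ (fun j => Submodule.sub_mem _ (hb j) ?_) ?_
        · have := hRmul 6 (k - 10 - wt j) e6 (e j) he6 (he j)
          rwa [show (6 : ℤ) + (k - 10 - wt j) = k - 4 - wt j by ring] at this
        · simp only [sub_smul, Finset.sum_sub_distrib, mul_smul, ← Finset.smul_sum]
          rw [← hG, hGh, sub_self]
      have hd' : ∀ j, d j + e4 * e j = 0 := by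
        refine ih (k - 6) (by omega) _ (fun j => Submodule.add_mem _ (hd j) ?_) ?_
        · have := hRmul 4 (k - 10 - wt j) e4 (e j) he4 (he j)
          rwa [show (4 : ℤ) + (k - 10 - wt j) = k - 6 - wt j by ring] at this
        · simp only [add_smul, Finset.sum_add_distrib, mul_smul, ← Finset.smul_sum]
          rw [← hH, ← hHh, add_neg_cancel]
      intro j
      rw [habd j, hc0 j, map_zero, zero_add, sub_eq_zero.1 (hb' j),
        eq_neg_of_add_eq_zero_left (hd' j)]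
      ring
  intro k a ha h0
  exact key (k.toNat + 1) k (by push_cast; have := Int.self_le_toNat k; omega) a ha h0

end Core

/-- Task A. A graded module `V` over a graded ring `R` "generated by `e4`, `e6`" on which
`e4, e6` is a regular sequence and which is finitely generated has a homogeneous free basis. -/
theorem graded_free_basis
    {A M : Type*} [CommRing A] [Algebra ℂ A] [AddCommGroup M] [Module ℂ M] [Module A M]
    [IsScalarTower ℂ A M]
    (R : ℤ → Submodule ℂ A) (V : ℤ → Submodule ℂ M) (e4 e6 : A)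
    (hR0 : ∀ a ∈ R 0, ∃ c : ℂ, a = algebraMap ℂ A c)
    (hRneg : ∀ k < 0, ∀ a ∈ R k, a = 0)
    (hRone : (1 : A) ∈ R 0)
    (hRmul : ∀ i j a b, a ∈ R i → b ∈ R j → a * b ∈ R (i + j))
    (he4 : e4 ∈ R 4) (he6 : e6 ∈ R 6)
    (hRdec : ∀ k, k ≠ 0 → ∀ a ∈ R k, ∃ b ∈ R (k - 4), ∃ c ∈ R (k - 6), a = e4 * b + e6 * c)
    (hRV : ∀ i j a v, a ∈ R i → v ∈ V j → a • v ∈ V (i + j))
    (hVneg : ∀ k < 0, ∀ v ∈ V k, v = 0)
    (hVfin : ∀ k, Module.Finite ℂ (V k))
    (hreg : ∀ k, ∀ g ∈ V (k - 4), ∀ f ∈ V (k - 6), e4 • g = e6 • f →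
      ∃ h ∈ V (k - 10), g = e6 • h ∧ f = e4 • h)
    (hfg : ∃ B : ℤ, ∀ k > B, ∀ v ∈ V k, ∃ u ∈ V (k - 4), ∃ w ∈ V (k - 6), v = e4 • u + e6 • w) :
    ∃ (n : ℕ) (wt : Fin n → ℤ) (F : Fin n → M), (∀ j, 0 ≤ wt j) ∧ (∀ j, F j ∈ V (wt j)) ∧
      (∀ k, ∀ v ∈ V k, ∃ a : Fin n → A, (∀ j, a j ∈ R (k - wt j)) ∧ v = ∑ j, a j • F j) ∧
      (∀ k, ∀ a : Fin n → A, (∀ j, a j ∈ R (k - wt j)) → ∑ j, a j • F j = 0 → ∀ j, a j = 0) := by
  classical
  obtain ⟨B, hB⟩ := hfg
  let lsm : A → (M →ₗ[ℂ] M) := fun a =>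
    { toFun := fun m => a • m
      map_add' := smul_add a
      map_smul' := fun c m => smul_comm a c m }
  let W : ℤ → Submodule ℂ M := fun l => (V (l - 4)).map (lsm e4) ⊔ (V (l - 6)).map (lsm e6)
  have memW : ∀ l x, x ∈ W l ↔ ∃ u ∈ V (l - 4), ∃ w ∈ V (l - 6), x = e4 • u + e6 • w := by
    intro l x
    constructor
    · intro hx
      obtain ⟨y, hy, z, hz, rfl⟩ := Submodule.mem_sup.1 hx
      obtain ⟨u, hu, rfl⟩ := Submodule.mem_map.1 hy
      obtain ⟨w, hw, rfl⟩ := Submodule.mem_map.1 hz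
      exact ⟨u, hu, w, hw, rfl⟩
    · rintro ⟨u, hu, w, hw, rfl⟩
      exact Submodule.add_mem_sup (Submodule.mem_map_of_mem (f := lsm e4) hu)
        (Submodule.mem_map_of_mem (f := lsm e6) hw)
  have hfam := fun l => @exists_compl_family M _ _ (V l) (W l) (hVfin l)
  choose n f hfV hfgen hfind using hfam
  let ι := Σ l : ↥(Finset.Icc (0 : ℤ) B), Fin (n l)
  let wt : ι → ℤ := fun j => j.1
  let F : ι → M := fun j => f j.1 j.2
  have hwt : ∀ j, 0 ≤ wt j := fun j => (Finset.mem_Icc.1 j.1.2).1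
  have hF : ∀ j, F j ∈ V (wt j) := fun j => hfV _ _
  have hsingle : ∀ (k : ℤ) (hk : k ∈ Finset.Icc (0 : ℤ) B) (c : ι → ℂ),
      (∀ j, wt j ≠ k → c j = 0) →
      ∑ j, c j • F j = ∑ i, c ⟨⟨k, hk⟩, i⟩ • f k i := by
    intro k hk c hc
    rw [Fintype.sum_sigma]
    refine Finset.sum_eq_single_of_mem (⟨k, hk⟩ : ↥(Finset.Icc (0 : ℤ) B)) (Finset.mem_univ _) ?_
    intro l _ hl
    refine Finset.sum_eq_zero fun i _ => ?_
    rw [hc ⟨l, i⟩ (fun h => hl (Subtype.ext h)), zero_smul]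
  have P1 : ∀ k, ∀ v ∈ V k, ∃ c : ι → ℂ, (∀ j, wt j ≠ k → c j = 0) ∧
       ∃ u ∈ V (k - 4), ∃ w ∈ V (k - 6), v = ∑ j, c j • F j + (e4 • u + e6 • w) := by
    intro k v hv
    by_cases hk : k ∈ Finset.Icc (0 : ℤ) B
    · obtain ⟨c', hc'⟩ := hfgen k v hv
      obtain ⟨u, hu, w, hw, huw⟩ := (memW _ _).1 hc'
      let c : ι → ℂ := fun j => if h : j.1 = ⟨k, hk⟩ then
        c' (Fin.cast (congrArg (fun l : ↥(Finset.Icc (0 : ℤ) B) => n l) h) j.2) else 0
      have hc : ∀ j, wt j ≠ k → c j = 0 := by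
        intro j hj
        exact dif_neg fun h => hj (congrArg Subtype.val h)
      refine ⟨c, hc, u, hu, w, hw, ?_⟩
      rw [hsingle k hk c hc, ← huw]
      have : ∀ i, c ⟨⟨k, hk⟩, i⟩ = c' i := fun i => by
        simp only [c, dif_pos, Fin.cast_eq_self]
      simp only [this]
      abel
    · rw [Finset.mem_Icc, not_and_or, not_le, not_le] at hk
      rcases hk with hk | hk
      · refine ⟨fun _ => 0, fun _ _ => rfl, 0, Submodule.zero_mem _, 0, Submodule.zero_mem _, ?_⟩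
        rw [hVneg k hk v hv]
        simp
      · obtain ⟨u, hu, w, hw, rfl⟩ := hB k hk v hv
        exact ⟨fun _ => 0, fun _ _ => rfl, u, hu, w, hw, by simp⟩
  have P2 : ∀ k, ∀ c : ι → ℂ, (∀ j, wt j ≠ k → c j = 0) →
       (∃ u ∈ V (k - 4), ∃ w ∈ V (k - 6), ∑ j, c j • F j = e4 • u + e6 • w) → ∀ j, c j = 0 := by
    intro k c hc hW j
    by_cases hj : wt j = k
    · have hk : k ∈ Finset.Icc (0 : ℤ) B := hj ▸ j.1.2
      rw [hsingle k hk c hc] at hW
      have h0 := hfind k (fun i => c ⟨⟨k, hk⟩, i⟩) ((memW _ _).2 hW)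
      obtain ⟨⟨l, hl⟩, i⟩ := j
      obtain rfl : l = k := hj
      exact h0 i
    · exact hc j hj
  have gen := graded_gen_core R V e4 e6 hRone hRmul he4 he6 hVneg wt F P1
  have free := graded_free_core R V e4 e6 hR0 hRneg hRmul he4 he6 hRdec hRV hreg wt F hwt hF gen P2
  let e := Fintype.equivFin ι
  refine ⟨Fintype.card ι, wt ∘ e.symm, F ∘ e.symm, fun j => hwt _, fun j => hF _, ?_, ?_⟩
  · intro k v hv
    obtain ⟨a, ha, rfl⟩ := gen k v hv
    refine ⟨a ∘ e.symm, fun j => ha _, ?_⟩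
    exact (Equiv.sum_comp e.symm (fun j => a j • F j)).symm
  · intro k a ha h0 j
    have h1 := free k (a ∘ e) (fun j => by simpa using ha (e j)) (by
      rw [← h0]
      refine (Equiv.sum_comp e (fun j => a j • (F ∘ e.symm) j)).symm.trans ?_ |>.symm
      simp)
    simpa using h1 (e.symm j)

end Fermat.Agent.S20lib
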