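import Fermat.Agent.S20.FreeBasis
import Fermat.Agent.S20.Nakayama

/-!
# S20 library, task F: finite dimensionality, finite generation, existence of a free basis
-/

set_option autoImplicit false

open UpperHalfPlane hiding I
open ModularForm MatrixGroups Filter Topology Complex ModularGroup
open scoped Manifold Real

namespace Fermat.Agent.S20lib

local notation "Δ" => ModularForm.discriminant

variable {X : Type} [Fintype X] [DecidableEq X] [MulAction SL(2, ℤ) X]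

/-- `ev` as a linear map on `V_k` -/
noncomputable def DiagData.evL (D : DiagData X) (k : ℤ) : Vmod X k →ₗ[ℂ] (X → ℂ) where
  toFun F := D.ev F.1
  map_add' F G := D.ev_add (IsV.isT F.2) (IsV.isT G.2)
  map_smul' c F := D.ev_smul c (IsV.isT F.2)

theorem DiagData.exists_eq_disc_smul (D : DiagData X) {k : ℤ} {F : X → ℍ → ℂ} (hF : IsV k F)
    (h : D.ev F = 0) : ∃ H : X → ℍ → ℂ, IsV (k - 12) H ∧ F = (Δ : ℍ → ℂ) • H :=
  hF.div_disc (D.isBigO_of_ev_eq_zero hF.isT h)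

/-- multiplication by `Δ` as a linear map `V_(k-12) → V_k` -/
noncomputable def mulDisc (X : Type) [MulAction SL(2, ℤ) X] (k : ℤ) :
    Vmod X (k - 12) →ₗ[ℂ] Vmod X k where
  toFun H := ⟨(Δ : ℍ → ℂ) • H.1, (IsV.rsmul isR_disc H.2).congr_weight (by ring)⟩
  map_add' F G := Subtype.ext (smul_add _ _ _)
  map_smul' c F := Subtype.ext (smul_comm _ _ _)

/-- F1: induction on `k`: `V_k = 0` for `k < 0`, and `ker (evL k) = Δ • V_(k-12)`. -/
theorem finite_Vmod [MulAction.IsPretransitive SL(2, ℤ) X] (k : ℤ) :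
    Module.Finite ℂ (Vmod X k) := by
  obtain ⟨D⟩ := exists_diagData X
  have key : ∀ n : ℕ, ∀ k : ℤ, k < 12 * n → Module.Finite ℂ (Vmod X k) := by
    intro n
    induction n with
    | zero =>
      intro k hk
      have : Vmod X k = ⊥ := by
        rw [eq_bot_iff]
        intro F hF
        exact (Submodule.mem_bot ℂ).2 (IsV.eq_zero_of_neg (by simpa using hk) hF)
      rw [this]
      infer_instance
    | succ n ih =>
      intro k hk
      push_cast at hk
      have := ih (k - 12) (by omega)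
      have hle : LinearMap.ker (D.evL k) ≤ LinearMap.range (mulDisc X k) := by
        intro F hF
        obtain ⟨H, hH, hFH⟩ := D.exists_eq_disc_smul F.2 (LinearMap.mem_ker.1 hF)
        exact ⟨⟨H, hH⟩, Subtype.ext hFH.symm⟩
      have : Module.Finite ℂ (LinearMap.ker (D.evL k)) := Submodule.finiteDimensional_of_le hle
      have : Module.Finite ℂ (Vmod X k ⧸ LinearMap.ker (D.evL k)) :=
        Module.Finite.equiv (D.evL k).quotKerEquivRange.symm
      exact Module.Finite.of_submodule_quotient (LinearMap.ker (D.evL k))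
  exact key (k.toNat + 1) k (by push_cast; have := Int.self_le_toNat k; omega)

theorem DiagData.range_evL_le (D : DiagData X) (k : ℤ) :
    LinearMap.range (D.evL k) ≤ LinearMap.range (D.evL (k + 4)) := by
  rintro _ ⟨F, rfl⟩
  refine ⟨⟨(E₄ : ℍ → ℂ) • F.1, (IsV.rsmul isR_E4 F.2).congr_weight (by ring)⟩, ?_⟩
  show D.ev ((E₄ : ℍ → ℂ) • F.1) = D.ev F.1
  rw [D.ev_rsmul tendsto_E4 (IsV.isT F.2), one_smul]

theorem DiagData.exists_stable (D : DiagData X) (a : ℤ) :
    ∃ n₀ : ℕ, ∀ m : ℕ, n₀ ≤ m →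
      LinearMap.range (D.evL (a + 4 * n₀)) = LinearMap.range (D.evL (a + 4 * m)) := by
  let f : ℕ →o Submodule ℂ (X → ℂ) :=
    ⟨fun n => LinearMap.range (D.evL (a + 4 * n)), monotone_nat_of_le_succ fun n => by
      have := D.range_evL_le (a + 4 * n)
      rwa [show a + 4 * (n : ℤ) + 4 = a + 4 * ((n + 1 : ℕ) : ℤ) by push_cast; ring] at this⟩
  exact (monotone_stabilizes_iff_noetherian.2 (inferInstance : IsNoetherian ℂ (X → ℂ))) f

/-- F2: the ranges `I k` of `evL k` satisfy `I k ≤ I (k+4)` (multiply by `E₄ → 1`), hence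
stabilise in each residue class mod 4; if `I k = I (k-4)` then for `v ∈ V_k` pick `W ∈ V_(k-4)`
with `ev W = ev v`, so `v - E₄ W = Δ H = (E₄³ - E₆²)/1728 • H`. -/
theorem exists_fg_bound :
    ∃ B : ℤ, ∀ k > B, ∀ v ∈ Vmod X k, ∃ u ∈ Vmod X (k - 4), ∃ w ∈ Vmod X (k - 6),
      v = (E₄ : ℍ → ℂ) • u + (E₆ : ℍ → ℂ) • w := by
  obtain ⟨D⟩ := exists_diagData X
  obtain ⟨n0, h0⟩ := D.exists_stable 0
  obtain ⟨n1, h1⟩ := D.exists_stable 1
  obtain ⟨n2, h2⟩ := D.exists_stable 2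
  obtain ⟨n3, h3⟩ := D.exists_stable 3
  refine ⟨4 * (n0 + n1 + n2 + n3 : ℕ) + 8, fun k hk v hv => ?_⟩
  push_cast at hk
  -- the ranges agree
  have hst : LinearMap.range (D.evL k) = LinearMap.range (D.evL (k - 4)) := by
    have aux : ∀ (a : ℤ) (n₀ : ℕ), (∀ m : ℕ, n₀ ≤ m →
        LinearMap.range (D.evL (a + 4 * n₀)) = LinearMap.range (D.evL (a + 4 * m))) →
        k % 4 = a → (n₀ : ℤ) + 1 ≤ k / 4 →
        LinearMap.range (D.evL k) = LinearMap.range (D.evL (k - 4)) := by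
      intro a n₀ h ha hn
      have e1 := h (k / 4).toNat (by omega)
      have e2 := h ((k / 4).toNat - 1) (by omega)
      have c1 : a + 4 * ((k / 4).toNat : ℤ) = k := by omega
      have c2 : a + 4 * (((k / 4).toNat - 1 : ℕ) : ℤ) = k - 4 := by omega
      rw [c1] at e1
      rw [c2] at e2
      rw [← e1, ← e2]
    have hmod : k % 4 = 0 ∨ k % 4 = 1 ∨ k % 4 = 2 ∨ k % 4 = 3 := by omega
    rcases hmod with hm | hm | hm | hm
    · exact aux 0 n0 h0 hm (by omega)
    · exact aux 1 n1 h1 hm (by omega)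
    · exact aux 2 n2 h2 hm (by omega)
    · exact aux 3 n3 h3 hm (by omega)
  have hmem : D.evL k ⟨v, hv⟩ ∈ LinearMap.range (D.evL (k - 4)) := by
    rw [← hst]
    exact LinearMap.mem_range_self _ _
  obtain ⟨W, hW⟩ := hmem
  have hWv : D.ev W.1 = D.ev v := hW
  have hEW : IsV k ((E₄ : ℍ → ℂ) • W.1) := (IsV.rsmul isR_E4 W.2).congr_weight (by ring)
  have hdiff : IsV k (v - (E₄ : ℍ → ℂ) • W.1) := IsV.sub hv hEW
  have hev : D.ev (v - (E₄ : ℍ → ℂ) • W.1) = 0 := by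
    have e1 : v - (E₄ : ℍ → ℂ) • W.1 = v + (-1 : ℂ) • ((E₄ : ℍ → ℂ) • W.1) := by
      rw [neg_one_smul, sub_eq_add_neg]
    rw [e1, D.ev_add (IsV.isT hv) ((IsV.isT hEW).smul _), D.ev_smul _ (IsV.isT hEW),
      D.ev_rsmul tendsto_E4 (IsV.isT W.2), hWv]
    simp
  obtain ⟨H, hH, hvH⟩ := D.exists_eq_disc_smul hdiff hev
  refine ⟨W.1 + (1 / 1728 : ℂ) • (((E₄ : ℍ → ℂ) * (E₄ : ℍ → ℂ)) • H), ?_,
    (-(1 / 1728) : ℂ) • ((E₆ : ℍ → ℂ) • H), ?_, ?_⟩
  · exact IsV.add W.2 (IsV.smul _ ((IsV.rsmul (isR_E4.mul isR_E4) hH).congr_weight (by ring)))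
  · exact IsV.smul _ ((IsV.rsmul isR_E6 hH).congr_weight (by ring))
  · have e2 : v = (E₄ : ℍ → ℂ) • W.1 + (Δ : ℍ → ℂ) • H := by
      rw [← hvH]; abel
    rw [e2, disc_eq]
    funext x z
    simp only [Pi.add_apply, Pi.smul_apply, smul_eq_mul, Pi.mul_apply, Pi.sub_apply, Pi.pow_apply]
    ring

/-- F3: apply `graded_free_basis`. -/
theorem exists_freeBasis [MulAction.IsPretransitive SL(2, ℤ) X] :
    ∃ n : ℕ, Nonempty (FreeBasis X (Fin n)) := by
  obtain ⟨n, wt, F, hwt, hF, gen, free⟩ := graded_free_basis (A := ℍ → ℂ) (M := X → ℍ → ℂ)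
    Rmod (Vmod X) (E₄ : ℍ → ℂ) (E₆ : ℍ → ℂ)
    (fun a ha => by
      obtain ⟨c, rfl⟩ := IsR.eq_const ha
      exact ⟨c, rfl⟩)
    (fun k hk a ha => IsR.eq_zero_of_neg hk ha)
    isR_one
    (fun i j a b ha hb => IsR.mul ha hb)
    isR_E4 isR_E6
    (fun k hk a ha => by
      obtain ⟨b, c, hb, hc, h⟩ := IsR.decomp hk ha
      exact ⟨b, hb, c, hc, h⟩)
    (fun i j a v ha hv => IsV.rsmul ha hv)
    (fun k hk v hv => IsV.eq_zero_of_neg hk hv)
    finite_Vmod
    (fun k g hg f hf h => by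
      obtain ⟨h', h1, h2, h3⟩ := IsV.regular hg hf h
      exact ⟨h', h1, h2, h3⟩)
    exists_fg_bound
  exact ⟨n, ⟨{ wt := wt, F := F, wt_nonneg := hwt, isV := hF,
               gen := fun k H hH => gen k H hH, free := fun k a ha h => free k a ha h }⟩⟩

end Fermat.Agent.S20lib
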