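import Fermat.Agent.S20.FreeBasis

/-!
# S20 library, task K: the rank of a free basis is `|X|`
-/

set_option autoImplicit false

open UpperHalfPlane hiding I
open ModularForm MatrixGroups Filter Topology Complex ModularGroup
open scoped Manifold Real

namespace Fermat.Agent.S20lib

local notation "Δ" => ModularForm.discriminant

variable {X : Type} [Fintype X] [DecidableEq X] [MulAction SL(2, ℤ) X] {ι : Type} [Fintype ι]

/-- K0 -/
theorem FreeBasis.F_ne_zero (B : FreeBasis X ι) (j : ι) : B.F j ≠ 0 := by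
  classical
  intro h0
  have h1 := B.free (B.wt j) (fun i => if i = j then (1 : ℍ → ℂ) else 0)
    (fun i => by
      by_cases hij : i = j
      · subst hij
        simpa using isR_one
      · simpa [hij] using isR_zero)
    (by
      refine Finset.sum_eq_zero fun i _ => ?_
      by_cases hij : i = j
      · subst hij
        simp [h0]
      · simp [hij]) j
  simp only [if_true] at h1
  have := congrFun h1 UpperHalfPlane.I
  simp at this

/-- K0' -/
theorem FreeBasis.wt_even (B : FreeBasis X ι) (hneg : ∀ x : X, (-1 : SL(2, ℤ)) • x = x) (j : ι) :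
    Even (B.wt j) := by
  by_contra h
  exact B.F_ne_zero j (IsV.eq_zero_of_odd hneg (Int.not_even_iff_odd.mp h) (B.isV j))

theorem IsV.fsum {κ : Type*} (s : Finset κ) {k : ℤ} {G : κ → X → ℍ → ℂ}
    (h : ∀ i ∈ s, IsV k (G i)) : IsV k (∑ i ∈ s, G i) :=
  (Vmod X k).sum_mem h

theorem IsT.fsum {κ : Type*} (s : Finset κ) {G : κ → X → ℍ → ℂ}
    (h : ∀ i ∈ s, IsT (G i)) : IsT (∑ i ∈ s, G i) := by
  classical
  induction s using Finset.induction_on with
  | empty => simpa using (isV_zero (X := X) (k := 0)).isT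
  | insert a s ha ih =>
    rw [Finset.sum_insert ha]
    exact (h a (Finset.mem_insert_self a s)).add
      (ih fun i hi => h i (Finset.mem_insert_of_mem hi))

theorem DiagData.ev_fsum (D : DiagData X) {κ : Type*} (s : Finset κ) {G : κ → X → ℍ → ℂ}
    (h : ∀ i ∈ s, IsT (G i)) : D.ev (∑ i ∈ s, G i) = ∑ i ∈ s, D.ev (G i) := by
  classical
  induction s using Finset.induction_on with
  | empty => simpa using D.ev_zero
  | insert a s ha ih =>
    rw [Finset.sum_insert ha, Finset.sum_insert ha,
      D.ev_add (h a (Finset.mem_insert_self a s))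
        (IsT.fsum s fun i hi => h i (Finset.mem_insert_of_mem hi)),
      ih fun i hi => h i (Finset.mem_insert_of_mem hi)]

/-- K1: the leading coefficient vectors of a free basis are linearly independent. -/
theorem FreeBasis.linearIndependent_ev (B : FreeBasis X ι) (D : DiagData X)
    (hneg : ∀ x : X, (-1 : SL(2, ℤ)) • x = x) :
    LinearIndependent ℂ (fun j => D.ev (B.F j)) := by
  classical
  rw [Fintype.linearIndependent_iff]
  intro c hc
  set K' : ℤ := 4 + ∑ j, B.wt j with hK'
  have hle : ∀ j, B.wt j ≤ ∑ i, B.wt i := fun j =>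
    Finset.single_le_sum (fun i _ => B.wt_nonneg i) (Finset.mem_univ j)
  have hev : Even (∑ j, B.wt j) := Finset.even_sum _ fun j _ => B.wt_even hneg j
  have hA : ∀ j, ∃ a, IsR (K' - B.wt j) a ∧ Tendsto a atImInfty (𝓝 1) := fun j =>
    exists_isR_tendsto_one (((by decide : Even (4 : ℤ)).add hev).sub (B.wt_even hneg j))
      (by have := hle j; omega)
  choose A hAR hAt using hA
  have hterm : ∀ j, IsV K' (c j • (A j • B.F j)) := fun j =>
    IsV.smul _ ((IsV.rsmul (hAR j) (B.isV j)).congr_weight (by ring))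
  set H : X → ℍ → ℂ := ∑ j, c j • (A j • B.F j) with hH
  have hHV : IsV K' H := IsV.fsum _ fun j _ => hterm j
  have hevH : D.ev H = 0 := by
    rw [hH, D.ev_fsum _ fun j _ => (hterm j).isT, ← hc]
    refine Finset.sum_congr rfl fun j _ => ?_
    have h1 : IsT (A j • B.F j) := (IsV.rsmul (hAR j) (B.isV j)).isT
    rw [D.ev_smul _ h1, D.ev_rsmul (hAt j) (B.isV j).isT, one_smul]
  obtain ⟨H', hH'V, hHH'⟩ := hHV.div_disc (D.isBigO_of_ev_eq_zero hHV.isT hevH)
  obtain ⟨b, hbR, hb⟩ := B.gen _ H' hH'V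
  have hfree := B.free K' (fun j => c j • A j - (Δ : ℍ → ℂ) * b j)
    (fun j => ((hAR j).smul (c j)).sub ((isR_disc.mul (hbR j)).congr_weight (by ring)))
    (by
      have h1 : ∑ j, (c j • A j - (Δ : ℍ → ℂ) * b j) • B.F j = H - (Δ : ℍ → ℂ) • H' := by
        rw [hH, hb, Finset.smul_sum, ← Finset.sum_sub_distrib]
        refine Finset.sum_congr rfl fun j _ => ?_
        funext x z
        simp only [Pi.smul_apply, Pi.sub_apply, Pi.mul_apply, smul_eq_mul]
        ring
      rw [h1, ← hHH', sub_self])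
  intro j
  have h1 : ∀ z, c j * A j z = (Δ : ℍ → ℂ) z * b j z := fun z => by
    have := congrFun (hfree j) z
    simp only [Pi.sub_apply, Pi.smul_apply, Pi.mul_apply, smul_eq_mul, Pi.zero_apply] at this
    exact sub_eq_zero.mp this
  have h2 : Tendsto (fun z => c j * A j z) atImInfty (𝓝 (c j * 1)) := (hAt j).const_mul _
  have h3 : Tendsto (fun z => (Δ : ℍ → ℂ) z * b j z) atImInfty (𝓝 0) := by
    have hz : IsZeroAtImInfty (Δ : ℍ → ℂ) := by
      simpa using CuspFormClass.zero_at_infty (CuspForm.discriminant)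
    exact hz.mul_boundedAtFilter (hbR j).bdd
  have h4 := tendsto_nhds_unique h2 (h3.congr fun z => (h1 z).symm)
  simpa using h4

/-- K2: if some form separates the points of `X` then the rank is at least `|X|`. -/
theorem FreeBasis.card_le (B : FreeBasis X ι)
    (hsep : ∃ (k : ℤ) (F : X → ℍ → ℂ), IsV k F ∧ Function.Injective F) :
    Fintype.card X ≤ Fintype.card ι := by
  classical
  obtain ⟨k, F, hF, hinj⟩ := hsep
  -- a point where the values are pairwise distinct
  obtain ⟨z₀, hz₀⟩ : ∃ z₀ : ℍ, ∀ x y : X, x ≠ y → F x z₀ ≠ F y z₀ := by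
    by_contra hcon
    push Not at hcon
    have h0 : ∏ p ∈ (Finset.univ : Finset (X × X)).filter (fun p => p.1 ≠ p.2),
        (F p.1 - F p.2) = 0 := by
      funext z
      obtain ⟨x, y, hxy, hval⟩ := hcon z
      rw [Finset.prod_apply]
      exact Finset.prod_eq_zero (i := (x, y)) (by simpa using hxy) (by simp [hval])
    obtain ⟨p, hp, hp0⟩ := (UpperHalfPlane.prod_eq_zero_iff
      (fun p _ => (hF.holo p.1).sub (hF.holo p.2))).1 h0
    exact (Finset.mem_filter.mp hp).2 (hinj (sub_eq_zero.mp hp0))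
  by_contra hlt
  push Not at hlt
  -- a vector orthogonal to all `B.F j · z₀`
  let L : (X → ℂ) →ₗ[ℂ] (ι → ℂ) :=
    { toFun := fun u j => ∑ x, u x * B.F j x z₀
      map_add' := fun u v => by
        funext j
        simp [add_mul, Finset.sum_add_distrib]
      map_smul' := fun a u => by
        funext j
        simp [Finset.mul_sum, mul_assoc] }
  have hker : LinearMap.ker L ≠ ⊥ := L.ker_ne_bot_of_finrank_lt (by simpa using hlt)
  obtain ⟨u, hu, hu0⟩ := (Submodule.ne_bot_iff _).mp hker
  have huj : ∀ j, ∑ x, u x * B.F j x z₀ = 0 := fun j => congrFun (LinearMap.mem_ker.mp hu) j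
  have hpow : ∀ a : ℕ, ∑ x, u x * F x z₀ ^ a = 0 := by
    intro a
    obtain ⟨c, -, hc⟩ := B.gen _ _ (hF.pow a)
    have h1 : ∀ x, F x z₀ ^ a = ∑ j, c j z₀ * B.F j x z₀ := fun x => by
      have := congrFun (congrFun hc x) z₀
      simpa [Finset.sum_apply] using this
    simp only [h1, Finset.mul_sum]
    rw [Finset.sum_comm]
    refine Finset.sum_eq_zero fun j _ => ?_
    have := huj j
    calc ∑ x, u x * (c j z₀ * B.F j x z₀) = c j z₀ * ∑ x, u x * B.F j x z₀ := by
          rw [Finset.mul_sum]; refine Finset.sum_congr rfl fun x _ => by ring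
      _ = 0 := by rw [this, mul_zero]
  have hpoly : ∀ p : Polynomial ℂ, ∑ x, u x * p.eval (F x z₀) = 0 := by
    intro p
    simp only [Polynomial.eval_eq_sum_range, Finset.mul_sum]
    rw [Finset.sum_comm]
    refine Finset.sum_eq_zero fun a _ => ?_
    calc ∑ x, u x * (p.coeff a * F x z₀ ^ a) = p.coeff a * ∑ x, u x * F x z₀ ^ a := by
          rw [Finset.mul_sum]; refine Finset.sum_congr rfl fun x _ => by ring
      _ = 0 := by rw [hpow a, mul_zero]
  obtain ⟨x₁, hx₁⟩ : ∃ x₁, u x₁ ≠ 0 := by
    by_contra hcon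
    push Not at hcon
    exact hu0 (funext hcon)
  have h5 := hpoly (∏ y ∈ Finset.univ.erase x₁, (Polynomial.X - Polynomial.C (F y z₀)))
  rw [Finset.sum_eq_single x₁] at h5
  · rw [Polynomial.eval_prod] at h5
    rcases mul_eq_zero.mp h5 with h6 | h6
    · exact hx₁ h6
    · obtain ⟨y, hy, hy0⟩ := Finset.prod_eq_zero_iff.mp h6
      simp only [Polynomial.eval_sub, Polynomial.eval_X, Polynomial.eval_C] at hy0
      exact hz₀ x₁ y (Finset.ne_of_mem_erase hy).symm (sub_eq_zero.mp hy0)
  · intro x _ hx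
    rw [Polynomial.eval_prod, Finset.prod_eq_zero (i := x) (by simp [hx]) (by simp), mul_zero]
  · intro h; exact absurd (Finset.mem_univ x₁) h

/-- K3 -/
theorem FreeBasis.card_eq (B : FreeBasis X ι) (hneg : ∀ x : X, (-1 : SL(2, ℤ)) • x = x)
    (hsep : ∃ (k : ℤ) (F : X → ℍ → ℂ), IsV k F ∧ Function.Injective F) :
    Fintype.card ι = Fintype.card X := by
  obtain ⟨D⟩ := exists_diagData X
  refine le_antisymm ?_ (B.card_le hsep)
  simpa using (B.linearIndependent_ev D hneg).fintype_card_le_finrank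

end Fermat.Agent.S20lib
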