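import Fermat.Agent.S20.ToGood
import Fermat.Agent.S20.FG
import Fermat.Agent.S20.Rank

/-!
# S20 library: existence of a good basis
-/

set_option autoImplicit false

open UpperHalfPlane hiding I
open ModularForm MatrixGroups

namespace Fermat.Agent.S20lib

theorem exists_goodBasis {X : Type} [Fintype X] [DecidableEq X] [MulAction SL(2, ℤ) X]
    [MulAction.IsPretransitive SL(2, ℤ) X]
    (hneg : ∀ x : X, (-1 : SL(2, ℤ)) • x = x)
    (hsep : ∃ (k : ℤ) (F : X → ℍ → ℂ), IsV k F ∧ Function.Injective F) :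
    Nonempty (GoodBasis X) := by
  obtain ⟨n, ⟨B⟩⟩ := exists_freeBasis (X := X)
  have hcard := B.card_eq hneg hsep
  let e : X ≃ Fin n := Fintype.equivOfCardEq hcard.symm
  obtain ⟨D⟩ := exists_diagData X
  exact ⟨(B.reindex e).toGoodBasis D ((B.reindex e).linearIndependent_ev D hneg)⟩

end Fermat.Agent.S20lib
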