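import Fermat.Agent.S20.Transfer

/-!
# S20 library, task D: `Δ(N z)` separates the cosets of `Γ₀(N)`
-/

set_option autoImplicit false

open UpperHalfPlane ModularForm MatrixGroups Filter Topology CongruenceSubgroup
open scoped Manifold Real

namespace Fermat.Agent.S20lib

local notation "Δ" => ModularForm.discriminant

/-- the "dilation factor" of an upper triangular matrix -/
noncomputable def dil (γ : GL (Fin 2) ℝ) : ℝ := |γ.det.val| / (γ 1 1) ^ 2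

theorem upper_ne_zero {γ : GL (Fin 2) ℝ} (h : γ 1 0 = 0) : γ 1 1 ≠ 0 := by
  intro h11
  apply γ.det_ne_zero
  rw [Matrix.det_fin_two, h, h11]
  ring

theorem dil_pos {γ : GL (Fin 2) ℝ} (h : γ 1 0 = 0) : 0 < dil γ := by
  have h1 := upper_ne_zero h
  have h2 : γ.det.val ≠ 0 := γ.det.ne_zero
  unfold dil
  positivity

theorem im_smul_of_upper {γ : GL (Fin 2) ℝ} (h : γ 1 0 = 0) (z : ℍ) :
    (γ • z).im = dil γ * z.im := by
  rw [UpperHalfPlane.im_smul_eq_div_normSq, denom, h, dil]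
  simp only [Complex.ofReal_zero, zero_mul, zero_add, Complex.normSq_ofReal]
  ring

theorem tendsto_smul_of_upper {γ : GL (Fin 2) ℝ} (h : γ 1 0 = 0) :
    Tendsto (fun z : ℍ => γ • z) atImInfty atImInfty := by
  rw [atImInfty, tendsto_comap_iff]
  have : (UpperHalfPlane.im ∘ fun z : ℍ => γ • z) = fun z : ℍ => dil γ * z.im := by
    ext z; exact im_smul_of_upper h z
  rw [this]
  exact tendsto_comap.const_mul_atTop (dil_pos h)

theorem norm_slash_of_upper {γ : GL (Fin 2) ℝ} (h : γ 1 0 = 0) (f : ℍ → ℂ) (k : ℤ) (z : ℍ) :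
    ‖(f ∣[k] γ) z‖ = ‖f (γ • z)‖ * (|γ.det.val| ^ (k - 1) * |γ 1 1| ^ (-k)) := by
  rw [ModularForm.slash_apply, denom, h]
  simp [mul_assoc]

theorem disc_isTheta : (Δ : ℍ → ℂ) =Θ[atImInfty] fun z : ℍ => Real.exp (-2 * π * z.im) := by
  refine ⟨?_, exp_isBigO_discriminant⟩
  have := CuspFormClass.exp_decay_atImInfty (h := 1) CuspForm.discriminant one_pos
    one_mem_strictPeriods_SL
  simpa using this

theorem disc_slash_isTheta {γ : GL (Fin 2) ℝ} (h : γ 1 0 = 0) :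
    ((Δ : ℍ → ℂ) ∣[(12 : ℤ)] γ) =Θ[atImInfty] fun z : ℍ => Real.exp (-2 * π * (dil γ * z.im)) := by
  have h1 : ((Δ : ℍ → ℂ) ∘ fun z : ℍ => γ • z) =Θ[atImInfty]
      ((fun z : ℍ => Real.exp (-2 * π * z.im)) ∘ fun z : ℍ => γ • z) :=
    ⟨disc_isTheta.1.comp_tendsto (tendsto_smul_of_upper h),
      disc_isTheta.2.comp_tendsto (tendsto_smul_of_upper h)⟩
  have hC : (|γ.det.val| ^ ((12 : ℤ) - 1) * |γ 1 1| ^ (-(12 : ℤ))) ≠ 0 := by
    have h1 := upper_ne_zero h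
    have h2 : γ.det.val ≠ 0 := γ.det.ne_zero
    positivity
  have h2 : ((Δ : ℍ → ℂ) ∣[(12 : ℤ)] γ) =Θ[atImInfty] ((Δ : ℍ → ℂ) ∘ fun z : ℍ => γ • z) := by
    refine Asymptotics.IsTheta.of_norm_eventuallyEq_norm ?_ |>.trans
      (Asymptotics.isTheta_const_mul_left (c := (|γ.det.val| ^ ((12 : ℤ) - 1) * |γ 1 1| ^ (-(12 : ℤ)) : ℝ)) hC |>.mpr (Asymptotics.isTheta_norm_left.mpr Asymptotics.isTheta_rfl))
    filter_upwards with z
    rw [norm_slash_of_upper h]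
    simp [mul_comm]
  refine h2.trans (h1.trans_eventuallyEq ?_)
  filter_upwards with z
  simp [im_smul_of_upper h]

theorem dil_eq_of_slash_eq {γ γ' : GL (Fin 2) ℝ} (h : γ 1 0 = 0) (h' : γ' 1 0 = 0)
    (heq : (Δ : ℍ → ℂ) ∣[(12 : ℤ)] γ = (Δ : ℍ → ℂ) ∣[(12 : ℤ)] γ') : dil γ = dil γ' := by
  have h1 := (disc_slash_isTheta h).symm.trans (heq ▸ disc_slash_isTheta h')
  rw [Real.isTheta_exp_comp_exp_comp] at h1
  by_contra hne
  have hpos : 0 < 2 * π * |dil γ' - dil γ| := by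
    have : 0 < |dil γ' - dil γ| := abs_pos.mpr (sub_ne_zero.mpr (Ne.symm hne))
    positivity
  have h2 : Tendsto (fun z : ℍ => |-2 * π * (dil γ * z.im) - -2 * π * (dil γ' * z.im)|)
      atImInfty atTop := by
    have : (fun z : ℍ => |-2 * π * (dil γ * z.im) - -2 * π * (dil γ' * z.im)|) =
        fun z : ℍ => (2 * π * |dil γ' - dil γ|) * z.im := by
      ext z
      have : -2 * π * (dil γ * z.im) - -2 * π * (dil γ' * z.im) =
          (2 * π) * (dil γ' - dil γ) * z.im := by ring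
      rw [this, abs_mul, abs_mul, abs_of_pos z.im_pos, abs_of_pos (by positivity : 0 < 2 * π)]
    rw [this]
    exact tendsto_comap.const_mul_atTop hpos
  exact not_isBoundedUnder_of_tendsto_atTop h2 h1

/-- the matrix `diag(N, 1)` -/
noncomputable def diagN (N : ℕ) [NeZero N] : GL (Fin 2) ℝ :=
  Matrix.GeneralLinearGroup.mkOfDetNeZero !![(N : ℝ), 0; 0, 1]
    (by simp [Matrix.det_fin_two_of, NeZero.ne N])

@[simp] theorem val_diagN (N : ℕ) [NeZero N] :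
    ((diagN N : GL (Fin 2) ℝ) : Matrix (Fin 2) (Fin 2) ℝ) = !![(N : ℝ), 0; 0, 1] := rfl

open ConjAct Pointwise in
theorem Gamma0_le_conj (N : ℕ) [NeZero N] :
    ((Gamma0 N : Subgroup SL(2, ℤ)) : Subgroup (GL (Fin 2) ℝ)) ≤
      toConjAct (diagN N)⁻¹ • 𝒮ℒ := by
  rintro _ ⟨g, hg, rfl⟩
  rw [Subgroup.mem_pointwise_smul_iff_inv_smul_mem, ← map_inv, inv_inv, ConjAct.smul_def,
    ConjAct.ofConjAct_toConjAct]
  have hg' : ((g 1 0 : ℤ) : ZMod N) = 0 := Gamma0_mem.mp hg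
  rw [ZMod.intCast_zmod_eq_zero_iff_dvd] at hg'
  obtain ⟨c', hc'⟩ := hg'
  have hdet : g 0 0 * g 1 1 - g 0 1 * g 1 0 = 1 := by
    have := g.det_coe
    rwa [Matrix.det_fin_two] at this
  obtain ⟨γ', h00, h01, h10, h11⟩ : ∃ γ' : SL(2, ℤ), γ' 0 0 = g 0 0 ∧ γ' 0 1 = N * g 0 1 ∧
      γ' 1 0 = c' ∧ γ' 1 1 = g 1 1 := by
    refine ⟨⟨!![g 0 0, N * g 0 1; c', g 1 1], ?_⟩, rfl, rfl, rfl, rfl⟩
    rw [Matrix.det_fin_two_of]
    rw [hc'] at hdet
    linarith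
  refine ⟨γ', ?_⟩
  rw [eq_mul_inv_iff_mul_eq]
  ext i j
  fin_cases i <;> fin_cases j <;>
    simp [Matrix.mul_apply, Fin.sum_univ_two, hc', mul_comm, h00, h01, h10, h11]

/-- `z ↦ N¹¹ Δ(N z)` as a modular form on `Γ₀(N)` -/
noncomputable def discN (N : ℕ) [NeZero N] :
    ModularForm ((Gamma0 N : Subgroup SL(2, ℤ)) : Subgroup (GL (Fin 2) ℝ)) 12 where
  toFun := (Δ : ℍ → ℂ) ∣[(12 : ℤ)] diagN N
  slash_action_eq' γ hγ :=
    (ModularForm.translate CuspForm.discriminant (diagN N)).slash_action_eq' γ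
      (Gamma0_le_conj N hγ)
  holo' := (ModularForm.translate CuspForm.discriminant (diagN N)).holo'
  bdd_at_cusps' hc :=
    (ModularForm.translate CuspForm.discriminant (diagN N)).bdd_at_cusps'
      (hc.mono (Gamma0_le_conj N))

theorem coe_discN (N : ℕ) [NeZero N] : ⇑(discN N) = (Δ : ℍ → ℂ) ∣[(12 : ℤ)] diagN N := rfl

theorem dil_diagN (N : ℕ) [NeZero N] : dil (diagN N) = N := by
  simp [dil, Matrix.GeneralLinearGroup.val_det_apply, Matrix.det_fin_two_of]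

theorem disc_slash_SL (g : SL(2, ℤ)) : (Δ : ℍ → ℂ) ∣[(12 : ℤ)] g = Δ := by
  have := CuspForm.discriminant.slash_action_eq' (g : GL (Fin 2) ℝ) ⟨g, rfl⟩
  exact this

theorem mem_Gamma0_of_slash_eq (N : ℕ) [NeZero N] (g : SL(2, ℤ))
    (h : (discN N : ℍ → ℂ) ∣[(12 : ℤ)] g = discN N) : g ∈ Gamma0 N := by
  have hN : (N : ℤ) ≠ 0 := by exact_mod_cast NeZero.ne N
  have hdet : g 0 0 * g 1 1 - g 0 1 * g 1 0 = 1 := by
    have := g.det_coe
    rwa [Matrix.det_fin_two] at this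
  -- the coprime pair
  have hG0 : 0 < Int.gcd (N * g 0 0) (g 1 0) := by
    rw [Int.gcd_pos_iff]
    by_contra hcon
    push Not at hcon
    obtain ⟨h1, h2⟩ := hcon
    have h3 : g 0 0 = 0 := by
      rcases mul_eq_zero.mp h1 with h | h
      · exact absurd h hN
      · exact h
    rw [h2, h3] at hdet
    simp at hdet
  set G0 : ℤ := (Int.gcd (N * g 0 0) (g 1 0) : ℤ) with hG0def
  obtain ⟨p, hp⟩ : G0 ∣ N * g 0 0 := Int.gcd_dvd_left _ _
  obtain ⟨r, hr⟩ : G0 ∣ g 1 0 := Int.gcd_dvd_right _ _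
  have hG0ne : G0 ≠ 0 := by
    rw [hG0def]; exact_mod_cast hG0.ne'
  have hcop : IsCoprime p r := by
    have := Int.gcd_div_gcd_div_gcd hG0
    rw [← hG0def] at this
    rw [Int.isCoprime_iff_gcd_eq_one]
    rwa [hp, hr, Int.mul_ediv_cancel_left _ hG0ne, Int.mul_ediv_cancel_left _ hG0ne] at this
  obtain ⟨δ, hδ0, hδ1⟩ := hcop.exists_SL2_col 0
  -- the upper triangular matrix `τ = δ⁻¹ α g`
  obtain ⟨ε, hinv10, hinv11⟩ : ∃ ε : SL(2, ℤ), ε 1 0 = -r ∧ ε 1 1 = p := by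
    refine ⟨δ⁻¹, ?_, ?_⟩
    · rw [Matrix.SpecialLinearGroup.SL2_inv_expl]; simp [hδ1]
    · rw [Matrix.SpecialLinearGroup.SL2_inv_expl]; simp [hδ0]
  set τ : GL (Fin 2) ℝ := (ε : GL (Fin 2) ℝ) * diagN N * (g : GL (Fin 2) ℝ) with hτ
  set e : ℤ := -r * (N * g 0 1) + p * g 1 1 with he
  have hτ10 : τ 1 0 = 0 := by
    have h1 : τ 1 0 = ((-r * (N * g 0 0) + p * g 1 0 : ℤ) : ℝ) := by
      simp [hτ, Matrix.mul_apply, Fin.sum_univ_two, hinv10, hinv11]
      ring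
    rw [h1, hp, hr]
    have : -r * (G0 * p) + p * (G0 * r) = 0 := by ring
    rw [this]; simp
  have hτ11 : τ 1 1 = (e : ℝ) := by
    simp [hτ, he, Matrix.mul_apply, Fin.sum_univ_two, hinv10, hinv11]
    ring
  have hτdet : τ.det.val = N := by
    simp [hτ, Matrix.GeneralLinearGroup.val_det_apply, Matrix.det_fin_two_of]
  have hslash : (Δ : ℍ → ℂ) ∣[(12 : ℤ)] τ = (Δ : ℍ → ℂ) ∣[(12 : ℤ)] diagN N := by
    rw [hτ, SlashAction.slash_mul, SlashAction.slash_mul]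
    have h1 : (Δ : ℍ → ℂ) ∣[(12 : ℤ)] (ε : GL (Fin 2) ℝ) = Δ := disc_slash_SL ε
    rw [h1]
    exact h
  have hdil := dil_eq_of_slash_eq hτ10 (by simp) hslash
  rw [dil_diagN, dil, hτdet, hτ11] at hdil
  have hNR : (N : ℝ) ≠ 0 := by exact_mod_cast NeZero.ne N
  have he0 : (e : ℝ) ≠ 0 := hτ11 ▸ upper_ne_zero hτ10
  have he2 : e ^ 2 = 1 := by
    have : (e : ℝ) ^ 2 = 1 := by
      rw [Nat.abs_cast] at hdil
      field_simp at hdil
      linarith
    exact_mod_cast this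
  have hec : e * g 1 0 = r * N := by
    have h1 : p * g 1 0 = r * (N * g 0 0) := by rw [hp, hr]; ring
    calc e * g 1 0 = -r * N * (g 0 1 * g 1 0) + g 1 1 * (p * g 1 0) := by rw [he]; ring
      _ = r * N * (g 0 0 * g 1 1 - g 0 1 * g 1 0) := by rw [h1]; ring
      _ = r * N := by rw [hdet, mul_one]
  rw [Gamma0_mem, ZMod.intCast_zmod_eq_zero_iff_dvd]
  refine ⟨e * r, ?_⟩
  calc g 1 0 = e ^ 2 * g 1 0 := by rw [he2, one_mul]
    _ = e * (e * g 1 0) := by ring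
    _ = N * (e * r) := by rw [hec]; ring

/-- D1: there is a modular form of weight 12 on `Γ₀(N)` (namely `z ↦ Δ(N z)`) whose stabiliser
in `SL(2,ℤ)` under the weight 12 slash action is exactly `Γ₀(N)`. -/
theorem exists_modularForm_stabilizer (N : ℕ) [NeZero N] :
    ∃ f : ModularForm ((Gamma0 N : Subgroup SL(2, ℤ)) : Subgroup (GL (Fin 2) ℝ)) 12,
      ∀ g : SL(2, ℤ), (f : ℍ → ℂ) ∣[(12 : ℤ)] g = f → g ∈ Gamma0 N :=
  ⟨discN N, mem_Gamma0_of_slash_eq N⟩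

/-- D2: consequence. -/
theorem exists_separating (N : ℕ) [NeZero N] :
    ∃ F : (SL(2, ℤ) ⧸ Gamma0 N) → ℍ → ℂ, IsV 12 F ∧ Function.Injective F := by
  obtain ⟨f, hf⟩ := exists_modularForm_stabilizer N
  obtain ⟨F, hF, hFf⟩ := exists_isV_of_modularForm (Gamma0 N) f
  refine ⟨F, hF, ?_⟩
  intro x y hxy
  induction x using QuotientGroup.induction_on with
  | H g =>
    induction y using QuotientGroup.induction_on with
    | H h =>
      rw [hFf, hFf] at hxy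
      rw [QuotientGroup.eq]
      apply hf
      rw [SlashAction.slash_mul, hxy, ← SlashAction.slash_mul, inv_mul_cancel,
        SlashAction.slash_one]

end Fermat.Agent.S20lib
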