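import Fermat.Agent.S20.Defs

/-!
# S20 library, task L: level one facts, in terms of the predicate `IsR`
-/

set_option autoImplicit false

open UpperHalfPlane ModularForm MatrixGroups Filter Topology
open scoped Manifold

namespace Fermat.Agent.S20lib

local notation "Δ" => ModularForm.discriminant

/-- the level one modular form attached to `IsR k a` -/
noncomputable def IsR.toModularForm {k : ℤ} {a : ℍ → ℂ} (ha : IsR k a) : ModularForm 𝒮ℒ k where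
  toFun := a
  slash_action_eq' A hA := by
    obtain ⟨A, rfl⟩ := hA
    exact ha.inv A
  holo' := ha.holo
  bdd_at_cusps' hc := by
    rw [OnePoint.isBoundedAt_iff_forall_SL2Z hc]
    intro γ _
    rw [ha.inv γ]
    exact ha.bdd

@[simp] theorem IsR.coe_toModularForm {k : ℤ} {a : ℍ → ℂ} (ha : IsR k a) :
    ⇑ha.toModularForm = a := rfl

theorem isR_coe {k : ℤ} (f : ModularForm 𝒮ℒ k) : IsR k ⇑f where
  holo := ModularFormClass.holo f
  inv g := SlashInvariantFormClass.slash_action_eq f _ ⟨g, rfl⟩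
  bdd := ModularFormClass.bdd_at_infty f

theorem isR_iff {k : ℤ} {a : ℍ → ℂ} : IsR k a ↔ ∃ f : ModularForm 𝒮ℒ k, ⇑f = a :=
  ⟨fun ha => ⟨ha.toModularForm, rfl⟩, fun ⟨f, hf⟩ => hf ▸ isR_coe f⟩

theorem isR_E4 : IsR 4 (E₄ : ℍ → ℂ) := isR_iff.2 ⟨_, rfl⟩

theorem isR_E6 : IsR 6 (E₆ : ℍ → ℂ) := isR_iff.2 ⟨_, rfl⟩

theorem isR_disc : IsR 12 Δ := 
  isR_iff.2 ⟨(CuspForm.discriminant : ModularForm 𝒮ℒ 12), rfl⟩

theorem isR_const (c : ℂ) : IsR 0 (fun _ => c : ℍ → ℂ) :=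
  isR_iff.2 ⟨ModularForm.const c, rfl⟩

theorem isR_one : IsR 0 (1 : ℍ → ℂ) := isR_const 1

theorem IsR.eq_zero_of_neg {k : ℤ} {a : ℍ → ℂ} (hk : k < 0) (ha : IsR k a) : a = 0 :=
  ModularFormClass.levelOne_neg_weight_eq_zero hk ha.toModularForm

theorem IsR.eq_const {a : ℍ → ℂ} (ha : IsR 0 a) : ∃ c : ℂ, a = fun _ => c :=
  ModularFormClass.levelOne_weight_zero_const ha.toModularForm

theorem IsR.eq_zero_of_two {a : ℍ → ℂ} (ha : IsR 2 a) : a = 0 := by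
  have h := ModularForm.levelOne_weight_two_rank_zero
  rw [rank_zero_iff] at h
  have : ha.toModularForm = 0 := Subsingleton.elim _ _
  have h2 := congrArg (fun f : ModularForm 𝒮ℒ 2 => (f : ℍ → ℂ)) this
  simpa using h2

theorem IsR.eq_zero_of_odd {k : ℤ} {a : ℍ → ℂ} (hk : Odd k) (ha : IsR k a) : a = 0 := by
  have := ModularForm.levelOne_odd_weight_eq_zero hk ha.toModularForm
  have h2 := congrArg (fun f : ModularForm 𝒮ℒ k => (f : ℍ → ℂ)) this
  simpa using h2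

/-- a level one form tends to the constant term of its `q`-expansion -/
theorem tendsto_coeff_zero {k : ℤ} (f : ModularForm 𝒮ℒ k) :
    Tendsto (f : ℍ → ℂ) atImInfty (𝓝 ((qExpansion 1 f).coeff 0)) := by
  have hanal := ModularFormClass.analyticAt_cuspFunction_zero f one_pos one_mem_strictPeriods_SL
  have hper := SlashInvariantFormClass.periodic_comp_ofComplex f one_mem_strictPeriods_SL
  rw [qExpansion_coeff_zero one_pos hanal hper, ← cuspFunction_apply_zero one_pos hanal hper]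
  exact (hanal.continuousAt.tendsto.comp (qParam_tendsto_atImInfty one_pos)).congr
    (fun τ ↦ SlashInvariantFormClass.eq_cuspFunction f τ one_mem_strictPeriods_SL one_ne_zero)

theorem IsR.exists_tendsto {k : ℤ} {a : ℍ → ℂ} (ha : IsR k a) :
    ∃ c : ℂ, Tendsto a atImInfty (𝓝 c) :=
  ⟨_, tendsto_coeff_zero ha.toModularForm⟩

theorem tendsto_E {k : ℕ} (hk : 3 ≤ k) (hk2 : Even k) :
    Tendsto (ModularForm.E hk : ℍ → ℂ) atImInfty (𝓝 1) := by
  have := tendsto_coeff_zero (ModularForm.E hk)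
  rwa [EisensteinSeries.E_qExpansion_coeff_zero hk hk2] at this

theorem tendsto_E4 : Tendsto (E₄ : ℍ → ℂ) atImInfty (𝓝 1) := tendsto_E _ ⟨2, rfl⟩

theorem tendsto_E6 : Tendsto (E₆ : ℍ → ℂ) atImInfty (𝓝 1) := tendsto_E _ ⟨3, rfl⟩

/-- the level one cusp form attached to `IsR k a` vanishing at `i∞` -/
noncomputable def IsR.toCuspForm {k : ℤ} {a : ℍ → ℂ} (ha : IsR k a) (h0 : IsZeroAtImInfty a) :
    CuspForm 𝒮ℒ k where
  toFun := a
  slash_action_eq' A hA := by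
    obtain ⟨A, rfl⟩ := hA
    exact ha.inv A
  holo' := ha.holo
  zero_at_cusps' hc := by
    rw [OnePoint.isZeroAt_iff_forall_SL2Z hc]
    intro γ _
    rw [ha.inv γ]
    exact h0

/-- a level one cusp form is divisible by `Δ` -/
theorem IsR.exists_eq_disc_mul {k : ℤ} {a : ℍ → ℂ} (ha : IsR k a) (h0 : IsZeroAtImInfty a) :
    ∃ b, IsR (k - 12) b ∧ a = Δ * b :=
  ⟨_, isR_coe (CuspForm.discriminantEquiv (ha.toCuspForm h0)),
    (discriminant_mul_discriminantEquiv (ha.toCuspForm h0)).symm⟩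

/-- a level one cusp form of weight `< 12` vanishes -/
theorem IsR.eq_zero_of_cusp_of_lt {k : ℤ} {a : ℍ → ℂ} (ha : IsR k a) (h0 : IsZeroAtImInfty a)
    (hk : k < 12) : a = 0 := by
  obtain ⟨b, hb, rfl⟩ := ha.exists_eq_disc_mul h0
  rw [hb.eq_zero_of_neg (by omega), mul_zero]

/-- a level one cusp form of weight `12` is a multiple of `Δ` -/
theorem IsR.eq_smul_disc {a : ℍ → ℂ} (ha : IsR 12 a) (h0 : IsZeroAtImInfty a) :
    ∃ c : ℂ, a = c • Δ := by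
  obtain ⟨b, hb, rfl⟩ := ha.exists_eq_disc_mul h0
  obtain ⟨c, rfl⟩ := IsR.eq_const (hb.congr_weight (by norm_num))
  exact ⟨c, by ext z; simp [mul_comm]⟩

theorem exists_isR_tendsto_one {k : ℤ} (hk : Even k) (hk4 : 4 ≤ k) :
    ∃ a, IsR k a ∧ Tendsto a atImInfty (𝓝 1) := by
  obtain ⟨n, rfl⟩ := Int.eq_ofNat_of_zero_le (by omega : 0 ≤ k)
  have hn : 3 ≤ n := by omega
  have hn2 : Even n := by exact_mod_cast hk
  exact ⟨_, isR_coe (ModularForm.E hn), tendsto_E hn hn2⟩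

theorem disc_eq : (Δ : ℍ → ℂ) = (1 / 1728 : ℂ) • ((E₄ : ℍ → ℂ) ^ 3 - (E₆ : ℍ → ℂ) ^ 2) := by
  ext z
  rw [discriminant_eq_E₄_cube_sub_E₆_sq z]
  simp only [Pi.smul_apply, Pi.sub_apply, Pi.pow_apply, smul_eq_mul]
  ring

theorem IsR.decomp {k : ℤ} {a : ℍ → ℂ} (hk : k ≠ 0) (ha : IsR k a) :
    ∃ b c, IsR (k - 4) b ∧ IsR (k - 6) c ∧ a = (E₄ : ℍ → ℂ) * b + (E₆ : ℍ → ℂ) * c := by
  -- the trivial cases
  have triv : a = 0 → ∃ b c, IsR (k - 4) b ∧ IsR (k - 6) c ∧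
      a = (E₄ : ℍ → ℂ) * b + (E₆ : ℍ → ℂ) * c := by
    rintro rfl
    exact ⟨0, 0, isR_zero, isR_zero, by simp⟩
  rcases lt_or_ge k 0 with hneg | hpos
  · exact triv (ha.eq_zero_of_neg hneg)
  rcases Int.even_or_odd k with hev | hodd
  swap
  · exact triv (ha.eq_zero_of_odd hodd)
  rcases eq_or_ne k 2 with rfl | hk2
  · exact triv ha.eq_zero_of_two
  have hk4 : 4 ≤ k := by
    obtain ⟨m, rfl⟩ := hev
    omega
  -- a form `A = E₄ * b₀ + E₆ * c₀` of weight `k` tending to `1`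
  obtain ⟨b₀, c₀, hb₀, hc₀, hA⟩ : ∃ b₀ c₀, IsR (k - 4) b₀ ∧ IsR (k - 6) c₀ ∧
      Tendsto ((E₄ : ℍ → ℂ) * b₀ + (E₆ : ℍ → ℂ) * c₀) atImInfty (𝓝 1) := by
    rcases eq_or_ne k 4 with rfl | hk4'
    · refine ⟨1, 0, isR_one, isR_zero, ?_⟩
      simpa using tendsto_E4
    rcases eq_or_ne k 6 with rfl | hk6'
    · refine ⟨0, 1, isR_zero, isR_one, ?_⟩
      simpa using tendsto_E6
    · have hk8 : 4 ≤ k - 4 := by
        obtain ⟨m, rfl⟩ := hev
        omega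
      obtain ⟨b₀, hb₀, hb₀t⟩ := exists_isR_tendsto_one (hev.sub (by decide : Even (4 : ℤ))) hk8
      refine ⟨b₀, 0, hb₀, isR_zero, ?_⟩
      have := tendsto_E4.mul hb₀t
      simp only [mul_one] at this
      rw [mul_zero, add_zero]
      exact this
  obtain ⟨c, hc⟩ := ha.exists_tendsto
  have hAR : IsR k ((E₄ : ℍ → ℂ) * b₀ + (E₆ : ℍ → ℂ) * c₀) :=
    ((isR_E4.mul hb₀).congr_weight (by ring)).add ((isR_E6.mul hc₀).congr_weight (by ring))
  have hcusp : IsZeroAtImInfty (a - c • ((E₄ : ℍ → ℂ) * b₀ + (E₆ : ℍ → ℂ) * c₀)) := by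
    have := hc.sub (hA.const_smul c)
    simp only [smul_eq_mul, mul_one, sub_self] at this
    exact this
  obtain ⟨b', hb', hab'⟩ := (ha.sub (hAR.smul c)).exists_eq_disc_mul hcusp
  refine ⟨c • b₀ + (1 / 1728 : ℂ) • ((E₄ : ℍ → ℂ) * ((E₄ : ℍ → ℂ) * b')),
    c • c₀ - (1 / 1728 : ℂ) • ((E₆ : ℍ → ℂ) * b'), ?_, ?_, ?_⟩
  · exact (hb₀.smul c).add (((isR_E4.mul (isR_E4.mul hb')).congr_weight (by ring)).smul _)
  · exact (hc₀.smul c).sub (((isR_E6.mul hb').congr_weight (by ring)).smul _)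
  · have h1 : a = c • ((E₄ : ℍ → ℂ) * b₀ + (E₆ : ℍ → ℂ) * c₀) + Δ * b' := by
      rw [← hab']; abel
    rw [h1, disc_eq]
    ext z
    simp only [Pi.add_apply, Pi.smul_apply, Pi.mul_apply, Pi.sub_apply, Pi.pow_apply, smul_eq_mul]
    ring

end Fermat.Agent.S20lib
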