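import Fermat.Agent.S20.Defs

/-!
# S20 library, task T: scalar forms for `Γ` versus vector valued forms on `SL(2,ℤ) ⧸ Γ`
-/

set_option autoImplicit false

open UpperHalfPlane ModularForm MatrixGroups Filter Topology
open scoped Manifold

namespace Fermat.Agent.S20lib

/-- the vector valued function attached to a function `f` on `ℍ`. -/
noncomputable def liftFun (Γ : Subgroup SL(2, ℤ)) (k : ℤ) (f : ℍ → ℂ) (x : SL(2, ℤ) ⧸ Γ) : ℍ → ℂ :=
  f ∣[k] (x.out)⁻¹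

theorem liftFun_mk {Γ : Subgroup SL(2, ℤ)} {k : ℤ} {f : ℍ → ℂ} (hf : ∀ γ ∈ Γ, f ∣[k] γ = f)
    (g : SL(2, ℤ)) : liftFun Γ k f (g : SL(2, ℤ) ⧸ Γ) = f ∣[k] g⁻¹ := by
  obtain ⟨γ, hγ⟩ := QuotientGroup.mk_out_eq_mul Γ g
  rw [liftFun, hγ, mul_inv_rev, SlashAction.slash_mul, hf _ (inv_mem γ.2)]

theorem liftFun_equiv {Γ : Subgroup SL(2, ℤ)} {k : ℤ} {f : ℍ → ℂ} (hf : ∀ γ ∈ Γ, f ∣[k] γ = f)
    (h : SL(2, ℤ)) (x : SL(2, ℤ) ⧸ Γ) : liftFun Γ k f x ∣[k] h = liftFun Γ k f (h⁻¹ • x) := by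
  induction x using QuotientGroup.induction_on with
  | H g =>
    rw [MulAction.Quotient.smul_mk, liftFun_mk hf, liftFun_mk hf, ← SlashAction.slash_mul]
    simp

theorem slash_eq_of_mem {Γ : Subgroup SL(2, ℤ)} {k : ℤ} {F : Type*} [FunLike F ℍ ℂ]
    [SlashInvariantFormClass F (Γ : Subgroup (GL (Fin 2) ℝ)) k] (f : F) :
    ∀ γ ∈ Γ, (f : ℍ → ℂ) ∣[k] γ = f := by
  intro γ hγ
  exact SlashInvariantFormClass.slash_action_eq f _ (Subgroup.mem_map_of_mem _ hγ)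

/-- T1 -/
theorem exists_isV_of_modularForm (Γ : Subgroup SL(2, ℤ)) [Γ.FiniteIndex] {k : ℤ}
    (f : ModularForm (Γ : Subgroup (GL (Fin 2) ℝ)) k) :
    ∃ F : (SL(2, ℤ) ⧸ Γ) → ℍ → ℂ, IsV k F ∧
      ∀ g : SL(2, ℤ), F (g : SL(2, ℤ) ⧸ Γ) = (f : ℍ → ℂ) ∣[k] g⁻¹ := by
  refine ⟨liftFun Γ k f, ⟨fun x => ?_, liftFun_equiv (slash_eq_of_mem f), fun x => ?_⟩,
    liftFun_mk (slash_eq_of_mem f)⟩
  · exact (ModularFormClass.holo f).slash k _
  · exact ModularFormClass.bdd_at_infty_slash f _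

/-- the linear map `f ↦ (gΓ ↦ f ∣[k] g⁻¹)` on cusp forms -/
noncomputable def cuspLift (Γ : Subgroup SL(2, ℤ)) [Γ.FiniteIndex] (k : ℤ) :
    CuspForm (Γ : Subgroup (GL (Fin 2) ℝ)) k →ₗ[ℂ] Smod (SL(2, ℤ) ⧸ Γ) k where
  toFun f := ⟨liftFun Γ k f, ⟨fun x => (CuspFormClass.holo f).slash k _,
    liftFun_equiv (slash_eq_of_mem f), fun x => CuspFormClass.zero_at_infty_slash f _⟩⟩
  map_add' f g := by
    ext x : 2
    simp [liftFun, SlashAction.add_slash]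
  map_smul' c f := by
    ext x : 2
    simp [liftFun, ModularForm.SL_smul_slash]

theorem cuspLift_injective (Γ : Subgroup SL(2, ℤ)) [Γ.FiniteIndex] (k : ℤ) :
    Function.Injective (cuspLift Γ k) := by
  intro f g h
  have h1 := congrFun (congrArg Subtype.val h) ((1 : SL(2, ℤ)) : SL(2, ℤ) ⧸ Γ)
  simp only [cuspLift, LinearMap.coe_mk, AddHom.coe_mk] at h1
  rw [liftFun_mk (slash_eq_of_mem f), liftFun_mk (slash_eq_of_mem g)] at h1
  simp only [inv_one, SlashAction.slash_one] at h1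
  exact DFunLike.coe_injective h1

theorem cuspLift_surjective (Γ : Subgroup SL(2, ℤ)) [Γ.FiniteIndex] (k : ℤ) :
    Function.Surjective (cuspLift Γ k) := by
  rintro ⟨F, hF⟩
  have hF' : IsS k F := hF
  let f : CuspForm (Γ : Subgroup (GL (Fin 2) ℝ)) k :=
    { toFun := F ((1 : SL(2, ℤ)) : SL(2, ℤ) ⧸ Γ)
      slash_action_eq' := by
        rintro _ ⟨γ, hγ, rfl⟩
        have := hF'.equiv γ ((1 : SL(2, ℤ)) : SL(2, ℤ) ⧸ Γ)
        rw [MulAction.Quotient.smul_mk] at this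
        have h2 : ((γ⁻¹ • (1 : SL(2, ℤ)) : SL(2, ℤ)) : SL(2, ℤ) ⧸ Γ) = ((1 : SL(2, ℤ)) : SL(2, ℤ) ⧸ Γ) := by
          rw [QuotientGroup.eq]
          simpa using hγ
        rw [h2] at this
        exact this
      holo' := hF'.holo _
      zero_at_cusps' := by
        intro c hc
        rw [Subgroup.IsArithmetic.isCusp_iff_isCusp_SL2Z] at hc
        rw [OnePoint.isZeroAt_iff_forall_SL2Z hc]
        intro γ _
        show IsZeroAtImInfty (F _ ∣[k] γ)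
        rw [hF'.equiv]
        exact hF'.zero _ }
  refine ⟨f, ?_⟩
  ext x : 2
  induction x using QuotientGroup.induction_on with
  | H g =>
    simp only [cuspLift, LinearMap.coe_mk, AddHom.coe_mk]
    rw [liftFun_mk (slash_eq_of_mem f)]
    show F _ ∣[k] g⁻¹ = _
    rw [hF'.equiv, MulAction.Quotient.smul_mk]
    simp

/-- T2 -/
theorem finrank_cuspForm_eq (Γ : Subgroup SL(2, ℤ)) [Γ.FiniteIndex] (k : ℤ) :
    Module.finrank ℂ (CuspForm (Γ : Subgroup (GL (Fin 2) ℝ)) k) =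
      Module.finrank ℂ (Smod (SL(2, ℤ) ⧸ Γ) k) :=
  (LinearEquiv.ofBijective (cuspLift Γ k)
    ⟨cuspLift_injective Γ k, cuspLift_surjective Γ k⟩).finrank_eq

end Fermat.Agent.S20lib
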