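import Mathlib
import Fermat.Prelude.Def_ModularCurve_GenusNumerics

/-!
# Combinatorics of `SL(2,ℤ) ⧸ Γ₀(N)` : basic tools
-/

set_option autoImplicit false

open scoped MatrixGroups
open CongruenceSubgroup

namespace Fermat.Agent.S20lib

variable {N : ℕ}

/-- Cross product criterion for two elements of `SL(2,ℤ)` to define the same left coset
of `Γ₀(N)`. -/
lemma inv_mul_mem_Gamma0_iff (γ δ : SL(2, ℤ)) :
    γ⁻¹ * δ ∈ Gamma0 N ↔ (N : ℤ) ∣ γ 0 0 * δ 1 0 - γ 1 0 * δ 0 0 := by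
  rw [Gamma0_mem, ZMod.intCast_zmod_eq_zero_iff_dvd]
  have : (γ⁻¹ * δ) 1 0 = γ 0 0 * δ 1 0 - γ 1 0 * δ 0 0 := by
    rw [Matrix.SpecialLinearGroup.coe_mul, Matrix.SpecialLinearGroup.coe_inv,
      Matrix.adjugate_fin_two, Matrix.mul_apply, Fin.sum_univ_two]
    simp
    ring
  rw [this]

lemma mk_eq_mk_iff (γ δ : SL(2, ℤ)) :
    ((γ : SL(2, ℤ) ⧸ Gamma0 N) = δ) ↔ (N : ℤ) ∣ γ 0 0 * δ 1 0 - γ 1 0 * δ 0 0 := by
  rw [QuotientGroup.eq, inv_mul_mem_Gamma0_iff]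

lemma isCoprime_col (γ : SL(2, ℤ)) : IsCoprime (γ 0 0) (γ 1 0) := by
  refine ⟨γ 1 1, -γ 0 1, ?_⟩
  have := γ.det_coe
  rw [Matrix.det_fin_two] at this
  linarith

/-- Every coprime pair is the first column of an element of `SL(2,ℤ)`. -/
lemma exists_col {a c : ℤ} (h : IsCoprime a c) : ∃ γ : SL(2, ℤ), γ 0 0 = a ∧ γ 1 0 = c := by
  obtain ⟨u, v, huv⟩ := h
  refine ⟨⟨!![a, -v; c, u], ?_⟩, rfl, rfl⟩
  rw [Matrix.det_fin_two_of]
  linarith

@[simp] lemma S_mul_col0 (γ : SL(2, ℤ)) : (ModularGroup.S * γ) 0 0 = - γ 1 0 := by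
  rw [Matrix.SpecialLinearGroup.coe_mul, ModularGroup.coe_S, Matrix.mul_apply, Fin.sum_univ_two]
  simp

@[simp] lemma S_mul_col1 (γ : SL(2, ℤ)) : (ModularGroup.S * γ) 1 0 = γ 0 0 := by
  rw [Matrix.SpecialLinearGroup.coe_mul, ModularGroup.coe_S, Matrix.mul_apply, Fin.sum_univ_two]
  simp

@[simp] lemma T_zpow_mul_col0 (k : ℤ) (γ : SL(2, ℤ)) :
    (ModularGroup.T ^ k * γ) 0 0 = γ 0 0 + k * γ 1 0 := by
  rw [Matrix.SpecialLinearGroup.coe_mul, ModularGroup.coe_T_zpow, Matrix.mul_apply,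
    Fin.sum_univ_two]
  simp

@[simp] lemma T_zpow_mul_col1 (k : ℤ) (γ : SL(2, ℤ)) :
    (ModularGroup.T ^ k * γ) 1 0 = γ 1 0 := by
  rw [Matrix.SpecialLinearGroup.coe_mul, ModularGroup.coe_T_zpow, Matrix.mul_apply,
    Fin.sum_univ_two]
  simp

@[simp] lemma T_mul_col0 (γ : SL(2, ℤ)) :
    (ModularGroup.T * γ) 0 0 = γ 0 0 + γ 1 0 := by
  simpa using T_zpow_mul_col0 1 γ

@[simp] lemma T_mul_col1 (γ : SL(2, ℤ)) :
    (ModularGroup.T * γ) 1 0 = γ 1 0 := by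
  simpa using T_zpow_mul_col1 1 γ

/-- Counting cosets by a complete invariant. -/
lemma card_quotient_eq_card_range {G Z : Type*} [Group G] (Γ : Subgroup G) (inv : G → Z)
    (h : ∀ γ δ, inv γ = inv δ ↔ γ⁻¹ * δ ∈ Γ) :
    Nat.card (G ⧸ Γ) = Nat.card (Set.range inv) := by
  let f : G ⧸ Γ → Set.range inv :=
    Quotient.lift (fun γ => (⟨inv γ, γ, rfl⟩ : Set.range inv)) (by
      intro γ δ hγδ
      apply Subtype.ext
      exact (h γ δ).2 (QuotientGroup.leftRel_apply.mp hγδ))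
  apply Nat.card_congr (Equiv.ofBijective f ⟨?_, ?_⟩)
  · intro x y
    induction x using QuotientGroup.induction_on with | _ γ => ?_
    induction y using QuotientGroup.induction_on with | _ δ => ?_
    intro hxy
    have : inv γ = inv δ := congrArg Subtype.val hxy
    exact QuotientGroup.eq.mpr ((h γ δ).1 this)
  · rintro ⟨_, γ, rfl⟩
    exact ⟨(γ : G ⧸ Γ), rfl⟩

end Fermat.Agent.S20lib
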