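import Fermat.Agent.S20.GoodBasis

/-!
# S20 library, tasks H1, H2
-/

set_option autoImplicit false

open UpperHalfPlane hiding I
open ModularForm MatrixGroups Filter Topology Complex ModularGroup
open scoped Manifold Real

namespace Fermat.Agent.S20lib

local notation "Δ" => ModularForm.discriminant

/-- the determinant of a matrix with holomorphic entries is holomorphic -/
theorem mdiff_det_count {n : Type} [Fintype n] [DecidableEq n] (M : ℍ → Matrix n n ℂ)
    (h : ∀ i j, MDiff (fun z => M z i j)) : MDiff (fun z => (M z).det) := by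
  have h1 : (fun z => (M z).det) =
      ∑ σ : Equiv.Perm n, ((Equiv.Perm.sign σ : ℤ) : ℂ) • ∏ i, fun z => M z (σ i) i := by
    ext z
    rw [Matrix.det_apply]
    simp [Finset.sum_apply, Finset.prod_apply, Units.smul_def, zsmul_eq_mul]
  rw [h1]
  exact MDifferentiable.sum fun σ _ =>
    MDifferentiable.const_smul _ (MDifferentiable.prod fun i _ => h _ _)

namespace GoodBasis

variable {X : Type} [Fintype X] [DecidableEq X] [MulAction SL(2, ℤ) X] (B : GoodBasis X)

/-! ### H1: expansion of an arbitrary form in the basis -/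

/-- the `j`-th coefficient of `H` in the basis -/
noncomputable def coeff (H : X → ℍ → ℂ) (j : X) : ℍ → ℂ :=
  fun z => ∑ x, (B.mat z)⁻¹ j x * H x z

theorem mdiff_mat (x j : X) : MDiff (fun z => B.mat z x j) := (B.isV j).holo x

/-- entries of the inverse matrix are holomorphic -/
theorem mdiff_inv (j x : X) : MDiff (fun z => (B.mat z)⁻¹ j x) := by
  have h1 : (fun z => (B.mat z)⁻¹ j x) =
      (fun z => (B.mat z).det)⁻¹ * fun z => ((B.mat z).updateRow x (Pi.single j 1)).det := by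
    ext z
    rw [Matrix.inv_def, Matrix.smul_apply, Matrix.adjugate_apply, Ring.inverse_eq_inv']
    simp
  rw [h1]
  refine MDifferentiable.mul (MDifferentiable.inv (mdiff_det_count _ fun i j => B.mdiff_mat i j)
    B.det_mat_ne) (mdiff_det_count _ fun i k => ?_)
  by_cases hi : i = x
  · subst hi
    simp only [Matrix.updateRow_self]
    exact mdifferentiable_const
  · simp only [Matrix.updateRow_ne hi]
    exact B.mdiff_mat i k

theorem isUnit_det_mat (z : ℍ) : IsUnit (B.mat z).det := isUnit_iff_ne_zero.2 (B.det_mat_ne z)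

theorem inv_mul_mat (z : ℍ) : (B.mat z)⁻¹ * B.mat z = 1 :=
  Matrix.nonsing_inv_mul _ (B.isUnit_det_mat z)

theorem mat_mul_inv (z : ℍ) : B.mat z * (B.mat z)⁻¹ = 1 :=
  Matrix.mul_nonsing_inv _ (B.isUnit_det_mat z)

/-- transformation law of the inverse matrix -/
theorem inv_apply_smul (g : SL(2, ℤ)) (z : ℍ) (j x : X) :
    (B.mat (g • z))⁻¹ j x = denom g z ^ (-(B.wt j)) * (B.mat z)⁻¹ j (g⁻¹ • x) := by
  have hd : denom g z ≠ 0 := denom_ne_zero g z
  have key : (Matrix.of fun j x => denom g z ^ (-(B.wt j)) * (B.mat z)⁻¹ j (g⁻¹ • x)) *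
      B.mat (g • z) = 1 := by
    ext j l
    rw [Matrix.mul_apply]
    simp only [Matrix.of_apply, mat_apply]
    have h2 : ∀ x, denom g z ^ (-(B.wt j)) * (B.mat z)⁻¹ j (g⁻¹ • x) * B.F l x (g • z) =
        denom g z ^ (-(B.wt j)) * denom g z ^ (B.wt l) *
          ((B.mat z)⁻¹ j (g⁻¹ • x) * B.mat z (g⁻¹ • x) l) := by
      intro x
      rw [(B.isV l).apply_smul g x z, mat_apply]
      ring
    simp_rw [h2]
    rw [← Finset.mul_sum]
    have h3 : ∑ x, (B.mat z)⁻¹ j (g⁻¹ • x) * B.mat z (g⁻¹ • x) l =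
        ∑ x, (B.mat z)⁻¹ j x * B.mat z x l :=
      Equiv.sum_comp (MulAction.toPerm g⁻¹) fun x => (B.mat z)⁻¹ j x * B.mat z x l
    rw [h3, ← Matrix.mul_apply, B.inv_mul_mat z]
    by_cases hjl : j = l
    · subst hjl
      rw [Matrix.one_apply_eq, mul_one, ← zpow_add₀ hd]
      simp
    · rw [Matrix.one_apply_ne hjl, mul_zero]
  rw [Matrix.inv_eq_left_inv key]
  rfl

theorem eq_sum_coeff (H : X → ℍ → ℂ) : H = ∑ j, B.coeff H j • B.F j := by
  ext x z
  simp only [Finset.sum_apply, Pi.smul_apply, smul_eq_mul, Pi.mul_apply, coeff]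
  have h1 : ∀ j, (∑ y, (B.mat z)⁻¹ j y * H y z) * B.F j x z =
      ∑ y, B.mat z x j * (B.mat z)⁻¹ j y * H y z := by
    intro j
    rw [Finset.sum_mul]
    refine Finset.sum_congr rfl fun y _ => ?_
    rw [mat_apply]; ring
  simp_rw [h1]
  rw [Finset.sum_comm]
  have h2 : ∀ y, ∑ j, B.mat z x j * (B.mat z)⁻¹ j y * H y z = (if x = y then 1 else 0) * H y z := by
    intro y
    rw [← Finset.sum_mul, ← Matrix.mul_apply, B.mat_mul_inv z, Matrix.one_apply]
  simp_rw [h2]
  simp

theorem coeff_isR {k : ℤ} {H : X → ℍ → ℂ} (hH : IsV k H) (j : X) :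
    IsR (k - B.wt j) (B.coeff H j) := by
  refine ⟨?_, ?_, ?_⟩
  · have : B.coeff H j = ∑ x, (fun z => (B.mat z)⁻¹ j x) * H x := by
      ext z; simp [coeff, Finset.sum_apply]
    rw [this]
    exact MDifferentiable.sum fun x _ => (B.mdiff_inv j x).mul (hH.holo x)
  · intro g
    ext z
    rw [ModularForm.SL_slash_apply]
    have hd : denom g z ≠ 0 := denom_ne_zero g z
    simp only [coeff]
    have h2 : ∀ x, (B.mat (g • z))⁻¹ j x * H x (g • z) =
        denom g z ^ (k - B.wt j) * ((B.mat z)⁻¹ j (g⁻¹ • x) * H (g⁻¹ • x) z) := by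
      intro x
      rw [B.inv_apply_smul, hH.apply_smul, sub_eq_add_neg, zpow_add₀ hd]
      ring
    simp_rw [h2]
    have h3 : ∑ x, (B.mat z)⁻¹ j (g⁻¹ • x) * H (g⁻¹ • x) z = ∑ x, (B.mat z)⁻¹ j x * H x z :=
      Equiv.sum_comp (MulAction.toPerm g⁻¹) fun x => (B.mat z)⁻¹ j x * H x z
    rw [← Finset.mul_sum, h3, mul_right_comm, ← zpow_add₀ hd]
    simp
  · exact B.coeff_bdd k H hH j

/-- freeness -/
theorem eq_zero_of_sum_eq_zero (a : X → ℍ → ℂ) (h : ∑ j, a j • B.F j = 0) : a = 0 := by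
  ext j z
  have h1 : ∀ x, ∑ l, B.mat z x l * a l z = 0 := by
    intro x
    have := congrFun (congrFun h x) z
    simp only [Finset.sum_apply, Pi.smul_apply, smul_eq_mul, Pi.mul_apply, Pi.zero_apply] at this
    rw [← this]
    exact Finset.sum_congr rfl fun l _ => by rw [mat_apply]; ring
  have h2 : (B.mat z).mulVec (fun l => a l z) = 0 := by
    ext x; simpa [Matrix.mulVec, dotProduct] using h1 x
  have h3 := congrArg ((B.mat z)⁻¹).mulVec h2
  rw [Matrix.mulVec_mulVec, B.inv_mul_mat z, Matrix.one_mulVec, Matrix.mulVec_zero] at h3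
  exact congrFun h3 j

/-! ### H2: the weights are even, nonnegative, and exactly one of them is `0` -/

theorem F_ne_zero (j : X) : B.F j ≠ 0 := by
  intro h
  apply B.det_mat_ne UpperHalfPlane.I
  apply Matrix.det_eq_zero_of_column_eq_zero j
  intro x
  rw [mat_apply, h]
  rfl

theorem wt_nonneg [MulAction.IsPretransitive SL(2, ℤ) X] (j : X) : 0 ≤ B.wt j := by
  by_contra h
  exact B.F_ne_zero j ((B.isV j).eq_zero_of_neg (not_le.1 h))

theorem wt_even (hneg : ∀ x : X, (-1 : SL(2, ℤ)) • x = x) (j : X) : Even (B.wt j) := by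
  by_contra h
  exact B.F_ne_zero j ((B.isV j).eq_zero_of_odd hneg (Int.not_even_iff_odd.1 h))

theorem card_wt_zero [MulAction.IsPretransitive SL(2, ℤ) X] [Nonempty X] :
    Fintype.card {j : X // B.wt j = 0} = 1 := by
  have hex : ∃ j, B.wt j = 0 := by
    by_contra hno
    push Not at hno
    have h1 := B.eq_sum_coeff (fun _ _ => (1 : ℂ))
    have h2 : ∀ j, B.coeff (fun _ _ => (1 : ℂ)) j = 0 := fun j =>
      (B.coeff_isR (isV_const 1) j).eq_zero_of_neg (by
        have h3 := B.wt_nonneg j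
        have h4 := hno j
        omega)
    simp only [h2, zero_smul, Finset.sum_const_zero] at h1
    obtain ⟨x⟩ := ‹Nonempty X›
    have h5 := congrFun (congrFun h1 x) UpperHalfPlane.I
    simp at h5
  obtain ⟨j0, hj0⟩ := hex
  rw [Fintype.card_eq_one_iff]
  refine ⟨⟨j0, hj0⟩, fun ⟨l, hl⟩ => ?_⟩
  by_contra hne
  have hne' : j0 ≠ l := fun h => hne (Subtype.ext h.symm)
  obtain ⟨c, hc⟩ := (hj0 ▸ B.isV j0 : IsV 0 (B.F j0)).eq_const
  obtain ⟨d, hd⟩ := (hl ▸ B.isV l : IsV 0 (B.F l)).eq_const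
  have h0 := B.eq_zero_of_sum_eq_zero
    (fun j _ => if j = j0 then d else if j = l then -c else 0) (by
      rw [Fintype.sum_eq_add j0 l hne' (by
        rintro j ⟨h1, h2⟩
        ext x z
        simp [h1, h2])]
      ext x z
      simp [hc, hd, hne'.symm]
      ring)
  have h1 := congrFun (congrFun h0 j0) UpperHalfPlane.I
  simp only [if_true, Pi.zero_apply] at h1
  apply B.F_ne_zero l
  rw [hd, h1]
  rfl

end GoodBasis

end Fermat.Agent.S20lib
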