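import Fermat.Agent.S20.Count1

/-!
# S20 library, task H3
-/

set_option autoImplicit false

open UpperHalfPlane hiding I
open ModularForm MatrixGroups Filter Topology Complex ModularGroup
open scoped Manifold Real

namespace Fermat.Agent.S20lib

local notation "Δ" => ModularForm.discriminant

namespace GoodBasis

variable {X : Type} [Fintype X] [DecidableEq X] [MulAction SL(2, ℤ) X] (B : GoodBasis X)

/-! ### H3: the dual basis, consisting of cusp forms of weights `12 - wt j` -/

/-- the dual basis -/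
noncomputable def dual (j : X) : X → ℍ → ℂ := fun x z => Δ z * (B.mat z)⁻¹ j x

theorem dual_isS (j : X) : IsS (12 - B.wt j) (B.dual j) := by
  refine ⟨fun x => ?_, fun g x => ?_, fun x => B.inv_zero j x⟩
  · exact isR_disc.holo.mul (B.mdiff_inv j x)
  · ext z
    have hd : denom g z ≠ 0 := denom_ne_zero g z
    have h12 : Δ (g • z) = Δ z * denom g z ^ (12 : ℤ) := by
      have h := congrFun (isR_disc.inv g) z
      rw [ModularForm.SL_slash_apply] at h
      rw [← h, mul_assoc, ← zpow_add₀ hd]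
      simp
    rw [ModularForm.SL_slash_apply]
    simp only [dual]
    rw [B.inv_apply_smul, h12]
    have h3 : denom g z ^ (12 : ℤ) * denom g z ^ (-(B.wt j)) * denom g z ^ (-(12 - B.wt j)) = 1 := by
      rw [← zpow_add₀ hd, ← zpow_add₀ hd]
      have h4 : (12 : ℤ) + -B.wt j + -(12 - B.wt j) = 0 := by ring
      rw [h4, zpow_zero]
    linear_combination (Δ z * (B.mat z)⁻¹ j (g⁻¹ • x)) * h3

theorem dual_ne_zero (j : X) : B.dual j ≠ 0 := by
  intro h
  have h1 : ∀ x, (B.mat UpperHalfPlane.I)⁻¹ j x = 0 := by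
    intro x
    have h2 := congrFun (congrFun h x) UpperHalfPlane.I
    simp only [dual, Pi.zero_apply, mul_eq_zero] at h2
    exact h2.resolve_left (discriminant_ne_zero _)
  have h3 := congrFun (congrFun (B.inv_mul_mat UpperHalfPlane.I) j) j
  rw [Matrix.mul_apply, Matrix.one_apply_eq] at h3
  simp [h1] at h3

theorem wt_lt_twelve [MulAction.IsPretransitive SL(2, ℤ) X] (j : X) : B.wt j < 12 := by
  by_contra h
  exact B.dual_ne_zero j ((B.dual_isS j).eq_zero_of_nonpos (by omega))

theorem dual_mem (j : {j : X // B.wt j = 10}) : B.dual j.1 ∈ Smod X 2 := by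
  have h := B.dual_isS j.1
  rw [j.2] at h
  exact (by norm_num : (12 : ℤ) - 10 = 2) ▸ h

theorem linearIndependent_dual :
    LinearIndependent ℂ (fun j : {j : X // B.wt j = 10} => (⟨B.dual j.1, B.dual_mem j⟩ : Smod X 2)) := by
  rw [Fintype.linearIndependent_iff]
  intro g hg i0
  have h1 : ∑ i : {j : X // B.wt j = 10}, g i • B.dual i.1 = 0 := by
    have := congrArg Subtype.val hg
    simpa using this
  set z := UpperHalfPlane.I
  have h2 : ∀ x, ∑ i : {j : X // B.wt j = 10}, g i * (B.mat z)⁻¹ i.1 x = 0 := by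
    intro x
    have h3 := congrFun (congrFun h1 x) z
    simp only [Finset.sum_apply, Pi.smul_apply, smul_eq_mul, dual, Pi.zero_apply] at h3
    have h4 : Δ z * ∑ i : {j : X // B.wt j = 10}, g i * (B.mat z)⁻¹ i.1 x = 0 := by
      rw [← h3, Finset.mul_sum]
      exact Finset.sum_congr rfl fun i _ => by ring
    exact (mul_eq_zero.1 h4).resolve_left (discriminant_ne_zero _)
  have h5 : ∑ x, (∑ i : {j : X // B.wt j = 10}, g i * (B.mat z)⁻¹ i.1 x) * B.mat z x i0.1 = 0 := by
    simp [h2]
  simp_rw [Finset.sum_mul] at h5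
  rw [Finset.sum_comm] at h5
  have h6 : ∀ i : {j : X // B.wt j = 10}, ∑ x, g i * (B.mat z)⁻¹ i.1 x * B.mat z x i0.1 =
      g i * (if i = i0 then 1 else 0) := by
    intro i
    simp_rw [mul_assoc]
    rw [← Finset.mul_sum, ← Matrix.mul_apply, B.inv_mul_mat z, Matrix.one_apply]
    simp [Subtype.ext_iff]
  simp_rw [h6] at h5
  simpa using h5

theorem span_dual [MulAction.IsPretransitive SL(2, ℤ) X]
    (hneg : ∀ x : X, (-1 : SL(2, ℤ)) • x = x) :
    ⊤ ≤ Submodule.span ℂ (Set.range
      (fun j : {j : X // B.wt j = 10} => (⟨B.dual j.1, B.dual_mem j⟩ : Smod X 2))) := by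
  rintro ⟨f, hf⟩ -
  have hf' : IsS 2 f := hf
  -- the pairings
  have hb : ∀ j, ∃ c : ℂ, (∑ x, f x * B.F j x) = c • (Δ : ℍ → ℂ) ∧ (B.wt j ≠ 10 → c = 0) := by
    intro j
    obtain ⟨h1, h2⟩ := hf'.pairing (B.isV j)
    by_cases h10 : B.wt j = 10
    · rw [h10] at h1
      obtain ⟨c, hc⟩ := IsR.eq_smul_disc ((by norm_num : (2 : ℤ) + 10 = 12) ▸ h1) h2
      exact ⟨c, hc, fun h => absurd h10 h⟩
    · refine ⟨0, ?_, fun _ => rfl⟩
      rw [zero_smul]
      refine h1.eq_zero_of_cusp_of_lt h2 ?_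
      have h3 := B.wt_lt_twelve j
      obtain ⟨m, hm⟩ := B.wt_even hneg j
      omega
  choose c hc hc0 using hb
  have hfx : f = ∑ i : {j : X // B.wt j = 10}, c i.1 • B.dual i.1 := by
    ext x z
    have h1 : ∑ j, (∑ y, f y z * B.mat z y j) * (B.mat z)⁻¹ j x = f x z := by
      simp_rw [Finset.sum_mul]
      rw [Finset.sum_comm]
      simp_rw [mul_assoc]
      simp_rw [← Finset.mul_sum, ← Matrix.mul_apply, B.mat_mul_inv z, Matrix.one_apply]
      simp
    have h2 : ∀ j, (∑ y, f y z * B.mat z y j) = c j * Δ z := by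
      intro j
      have := congrFun (hc j) z
      simpa [Finset.sum_apply, mat_apply] using this
    simp_rw [h2] at h1
    rw [← h1]
    simp only [Finset.sum_apply, Pi.smul_apply, smul_eq_mul, dual]
    have h3 : ∀ j, c j * Δ z * (B.mat z)⁻¹ j x =
        if B.wt j = 10 then c j * (Δ z * (B.mat z)⁻¹ j x) else 0 := by
      intro j
      split_ifs with h
      · ring
      · rw [hc0 j h]; ring
    simp_rw [h3]
    rw [← Finset.sum_filter, Finset.sum_subtype (p := fun j => B.wt j = 10)
      (Finset.univ.filter fun j => B.wt j = 10)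
      (by simp) fun j => c j * (Δ z * (B.mat z)⁻¹ j x)]
  have : (⟨f, hf⟩ : Smod X 2) = ∑ i : {j : X // B.wt j = 10},
      c i.1 • (⟨B.dual i.1, B.dual_mem i⟩ : Smod X 2) := by
    apply Subtype.ext
    simpa using hfx
  rw [this]
  exact Submodule.sum_mem _ fun i _ => Submodule.smul_mem _ _ (Submodule.subset_span ⟨i, rfl⟩)

theorem finrank_S2 [MulAction.IsPretransitive SL(2, ℤ) X]
    (hneg : ∀ x : X, (-1 : SL(2, ℤ)) • x = x) :
    Module.finrank ℂ (Smod X 2) = Fintype.card {j : X // B.wt j = 10} :=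
  Module.finrank_eq_card_basis (Module.Basis.mk B.linearIndependent_dual (B.span_dual hneg))

end GoodBasis

end Fermat.Agent.S20lib
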