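import Mathlib

/-!
# S20 library: basic definitions

Vector valued modular forms for `SL(2,ℤ)` attached to a finite `SL(2,ℤ)`-set `X`.
-/

set_option autoImplicit false

open UpperHalfPlane ModularForm MatrixGroups
open scoped Manifold

namespace Fermat.Agent.S20lib

/-- `a : ℍ → ℂ` is (the underlying function of) a level one modular form of weight `k`. -/
structure IsR (k : ℤ) (a : ℍ → ℂ) : Prop where
  holo : MDiff a
  inv : ∀ g : SL(2, ℤ), a ∣[k] g = a
  bdd : IsBoundedAtImInfty a

/-- `F : X → ℍ → ℂ` is a vector valued modular form of weight `k` for the permutation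
representation of `SL(2,ℤ)` on `X`. -/
structure IsV {X : Type} [MulAction SL(2, ℤ) X] (k : ℤ) (F : X → ℍ → ℂ) : Prop where
  holo : ∀ x, MDiff (F x)
  equiv : ∀ (g : SL(2, ℤ)) (x : X), F x ∣[k] g = F (g⁻¹ • x)
  bdd : ∀ x, IsBoundedAtImInfty (F x)

/-- Cuspidal vector valued modular forms. -/
structure IsS {X : Type} [MulAction SL(2, ℤ) X] (k : ℤ) (F : X → ℍ → ℂ) : Prop where
  holo : ∀ x, MDiff (F x)
  equiv : ∀ (g : SL(2, ℤ)) (x : X), F x ∣[k] g = F (g⁻¹ • x)
  zero : ∀ x, IsZeroAtImInfty (F x)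

/-- number of orbits of `T` on `X` ("number of cusps") -/
noncomputable def numCusps (X : Type) [MulAction SL(2, ℤ) X] : ℕ :=
  Nat.card (MulAction.orbitRel.Quotient (Subgroup.zpowers ModularGroup.T) X)

section basic

variable {X : Type} [MulAction SL(2, ℤ) X] {k l : ℤ}

theorem IsS.isV {F : X → ℍ → ℂ} (h : IsS k F) : IsV k F :=
  ⟨h.holo, h.equiv, fun x => (h.zero x).boundedAtFilter⟩

theorem IsR.add {a b : ℍ → ℂ} (ha : IsR k a) (hb : IsR k b) : IsR k (a + b) where
  holo := ha.holo.add hb.holo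
  inv g := by rw [SlashAction.add_slash, ha.inv, hb.inv]
  bdd := ha.bdd.add hb.bdd

theorem IsR.smul {a : ℍ → ℂ} (c : ℂ) (ha : IsR k a) : IsR k (c • a) where
  holo := ha.holo.const_smul c
  inv g := by rw [ModularForm.SL_smul_slash, ha.inv]
  bdd := ha.bdd.const_smul_left c

theorem isR_zero : IsR k 0 where
  holo := mdifferentiable_const
  inv _ := SlashAction.zero_slash _ _
  bdd := Filter.const_boundedAtFilter _ 0

theorem IsR.neg {a : ℍ → ℂ} (ha : IsR k a) : IsR k (-a) := by
  simpa using ha.smul (-1)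

theorem IsR.sub {a b : ℍ → ℂ} (ha : IsR k a) (hb : IsR k b) : IsR k (a - b) := by
  simpa [sub_eq_add_neg] using ha.add hb.neg

theorem IsR.mul {a b : ℍ → ℂ} (ha : IsR k a) (hb : IsR l b) : IsR (k + l) (a * b) where
  holo := ha.holo.mul hb.holo
  inv g := by rw [ModularForm.mul_slash_SL2, ha.inv, hb.inv]
  bdd := ha.bdd.mul hb.bdd

theorem IsV.add {F G : X → ℍ → ℂ} (hF : IsV k F) (hG : IsV k G) : IsV k (F + G) where
  holo x := (hF.holo x).add (hG.holo x)
  equiv g x := by simp only [Pi.add_apply, SlashAction.add_slash, hF.equiv, hG.equiv]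
  bdd x := (hF.bdd x).add (hG.bdd x)

theorem IsV.smul {F : X → ℍ → ℂ} (c : ℂ) (hF : IsV k F) : IsV k (c • F) where
  holo x := (hF.holo x).const_smul c
  equiv g x := by simp only [Pi.smul_apply, ModularForm.SL_smul_slash, hF.equiv]
  bdd x := (hF.bdd x).const_smul_left c

theorem isV_zero : IsV k (0 : X → ℍ → ℂ) where
  holo _ := mdifferentiable_const
  equiv _ _ := SlashAction.zero_slash _ _
  bdd _ := Filter.const_boundedAtFilter _ 0

theorem IsV.neg {F : X → ℍ → ℂ} (hF : IsV k F) : IsV k (-F) := by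
  simpa using hF.smul (-1)

theorem IsV.sub {F G : X → ℍ → ℂ} (hF : IsV k F) (hG : IsV k G) : IsV k (F - G) := by
  simpa [sub_eq_add_neg] using hF.add hG.neg

/-- multiplication of a vector valued form by a level one form; note `a • F = fun x => a * F x`. -/
theorem IsV.rsmul {a : ℍ → ℂ} {F : X → ℍ → ℂ} (ha : IsR k a) (hF : IsV l F) :
    IsV (k + l) (a • F) where
  holo x := ha.holo.mul (hF.holo x)
  equiv g x := by
    simp only [Pi.smul_apply, smul_eq_mul, ModularForm.mul_slash_SL2, ha.inv, hF.equiv]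
  bdd x := ha.bdd.mul (hF.bdd x)

theorem IsS.add {F G : X → ℍ → ℂ} (hF : IsS k F) (hG : IsS k G) : IsS k (F + G) where
  holo x := (hF.holo x).add (hG.holo x)
  equiv g x := by simp only [Pi.add_apply, SlashAction.add_slash, hF.equiv, hG.equiv]
  zero x := (hF.zero x).add (hG.zero x)

theorem IsS.smul {F : X → ℍ → ℂ} (c : ℂ) (hF : IsS k F) : IsS k (c • F) where
  holo x := (hF.holo x).const_smul c
  equiv g x := by simp only [Pi.smul_apply, ModularForm.SL_smul_slash, hF.equiv]
  zero x := (hF.zero x).smul c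

theorem isS_zero : IsS k (0 : X → ℍ → ℂ) where
  holo _ := mdifferentiable_const
  equiv _ _ := SlashAction.zero_slash _ _
  zero _ := Filter.zero_zeroAtFilter _

theorem IsR.congr_weight {a : ℍ → ℂ} (h : k = l) (ha : IsR k a) : IsR l a := h ▸ ha

theorem IsV.congr_weight {F : X → ℍ → ℂ} (h : k = l) (hF : IsV k F) : IsV l F := h ▸ hF

end basic

/-- level one forms of weight `k`, as a subspace of all functions -/
def Rmod (k : ℤ) : Submodule ℂ (ℍ → ℂ) where
  carrier := {a | IsR k a}
  add_mem' := IsR.add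
  zero_mem' := isR_zero
  smul_mem' c _ h := IsR.smul c h

/-- vector valued forms of weight `k`, as a subspace of all functions -/
def Vmod (X : Type) [MulAction SL(2, ℤ) X] (k : ℤ) : Submodule ℂ (X → ℍ → ℂ) where
  carrier := {F | IsV k F}
  add_mem' := IsV.add
  zero_mem' := isV_zero
  smul_mem' c _ h := IsV.smul c h

/-- cuspidal vector valued forms of weight `k`, as a subspace of all functions -/
def Smod (X : Type) [MulAction SL(2, ℤ) X] (k : ℤ) : Submodule ℂ (X → ℍ → ℂ) where
  carrier := {F | IsS k F}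
  add_mem' := IsS.add
  zero_mem' := isS_zero
  smul_mem' c _ h := IsS.smul c h

@[simp] theorem mem_Rmod {k : ℤ} {a : ℍ → ℂ} : a ∈ Rmod k ↔ IsR k a := Iff.rfl
@[simp] theorem mem_Vmod {X : Type} [MulAction SL(2, ℤ) X] {k : ℤ} {F : X → ℍ → ℂ} :
    F ∈ Vmod X k ↔ IsV k F := Iff.rfl
@[simp] theorem mem_Smod {X : Type} [MulAction SL(2, ℤ) X] {k : ℤ} {F : X → ℍ → ℂ} :
    F ∈ Smod X k ↔ IsS k F := Iff.rfl

end Fermat.Agent.S20lib
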