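import Mathlib

/-!
# S20 library, task P: diagonalising a permutation matrix (discrete Fourier transform on orbits)
-/

set_option autoImplicit false

namespace Fermat.Agent.S20lib

open Complex

/-- The DFT matrix on `ZMod h`. -/
noncomputable def dftMat (h : ℕ) [NeZero h] : Matrix (ZMod h) (ZMod h) ℂ :=
  Matrix.of fun r i => ZMod.stdAddChar (r * i)

/-- The (normalised) inverse DFT matrix on `ZMod h`. -/
noncomputable def dftMatInv (h : ℕ) [NeZero h] : Matrix (ZMod h) (ZMod h) ℂ :=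
  Matrix.of fun i r => (h : ℂ)⁻¹ * ZMod.stdAddChar (-(i * r))

lemma dftMat_mul_dftMatInv (h : ℕ) [NeZero h] : dftMat h * dftMatInv h = 1 := by
  ext r r'
  simp only [dftMat, dftMatInv, Matrix.mul_apply, Matrix.of_apply]
  have h1 : ∀ i : ZMod h, (ZMod.stdAddChar (r * i) : ℂ) * ((h : ℂ)⁻¹ * ZMod.stdAddChar (-(i * r')))
      = (h : ℂ)⁻¹ * ZMod.stdAddChar (i * (r - r')) := by
    intro i
    rw [show i * (r - r') = r * i + -(i * r') by ring, AddChar.map_add_eq_mul]
    ring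
  simp_rw [h1]
  rw [← Finset.mul_sum, AddChar.sum_mulShift (r - r') (ZMod.isPrimitive_stdAddChar h)]
  have hh : (h : ℂ) ≠ 0 := Nat.cast_ne_zero.mpr (NeZero.ne h)
  by_cases hr : r = r'
  · subst hr
    simp [hh]
  · have : r - r' ≠ 0 := sub_ne_zero.mpr hr
    simp [this, Matrix.one_apply_ne hr]

lemma dftMat_apply_add_one (h : ℕ) [NeZero h] (r i : ZMod h) :
    dftMat h r (i + 1) =
      Complex.exp (2 * Real.pi * Complex.I * (((r.val : ℝ) / (h : ℝ) : ℝ) : ℂ)) * dftMat h r i := by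
  simp only [dftMat, Matrix.of_apply]
  rw [mul_add, mul_one, AddChar.map_add_eq_mul, mul_comm]
  congr 1
  have : (r : ZMod h) = ((r.val : ℤ) : ZMod h) := by simp
  conv_lhs => rw [this]
  rw [ZMod.stdAddChar_coe]
  congr 1
  push_cast
  ring

lemma sum_val_zmod (h : ℕ) [NeZero h] :
    ∑ r : ZMod h, ((r.val : ℝ) / (h : ℝ)) = ((h : ℝ) - 1) / 2 := by
  obtain ⟨n, rfl⟩ : ∃ n, h = n + 1 := ⟨h - 1, by have := NeZero.pos h; omega⟩
  rw [← Finset.sum_div]
  have h1 : ∑ r : ZMod (n + 1), (r.val : ℝ) = ∑ i ∈ Finset.range (n + 1), (i : ℝ) :=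
    Fin.sum_univ_eq_sum_range (fun i => (i : ℝ)) (n + 1)
  rw [h1]
  have h2 := Finset.sum_range_id_mul_two (n + 1)
  have h3 : (∑ i ∈ Finset.range (n + 1), (i : ℝ)) * 2 = ((n : ℝ) + 1) * n := by
    have := congrArg (fun m : ℕ => (m : ℝ)) h2
    push_cast at this
    simpa using this
  have h4 : ((n : ℝ) + 1) ≠ 0 := by positivity
  push_cast
  field_simp
  linarith

/-- Abstract version on a disjoint union of cycles. -/
theorem exists_perm_diag_sigma {Ω : Type} [Fintype Ω] [DecidableEq Ω] (h : Ω → ℕ)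
    [∀ ω, NeZero (h ω)] :
    ∃ (U V : Matrix (Σ ω, ZMod (h ω)) (Σ ω, ZMod (h ω)) ℂ) (lam : (Σ ω, ZMod (h ω)) → ℝ),
      U * V = 1 ∧ (∀ x, 0 ≤ lam x) ∧ (∀ x, lam x < 1) ∧
      (∀ x (ω : Ω) (i : ZMod (h ω)), U x ⟨ω, i + 1⟩ =
        Complex.exp (2 * Real.pi * Complex.I * lam x) * U x ⟨ω, i⟩) ∧
      ∑ x, lam x = ((∑ ω, (h ω : ℝ)) - Fintype.card Ω) / 2 := by
  refine ⟨Matrix.blockDiagonal' fun ω => dftMat (h ω),
    Matrix.blockDiagonal' fun ω => dftMatInv (h ω),
    fun x => (x.2.val : ℝ) / (h x.1 : ℝ), ?_, ?_, ?_, ?_, ?_⟩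
  · rw [← Matrix.blockDiagonal'_mul]
    simp_rw [dftMat_mul_dftMatInv]
    exact Matrix.blockDiagonal'_one
  · intro x
    positivity
  · intro x
    have hpos : (0 : ℝ) < h x.1 := by exact_mod_cast NeZero.pos (h x.1)
    rw [div_lt_one hpos]
    exact_mod_cast ZMod.val_lt x.2
  · rintro ⟨ω', r⟩ ω i
    by_cases hω : ω' = ω
    · subst hω
      rw [Matrix.blockDiagonal'_apply_eq, Matrix.blockDiagonal'_apply_eq, dftMat_apply_add_one]
    · rw [Matrix.blockDiagonal'_apply_ne _ _ _ hω, Matrix.blockDiagonal'_apply_ne _ _ _ hω,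
        mul_zero]
  · rw [Fintype.sum_sigma]
    simp_rw [sum_val_zmod]
    rw [← Finset.sum_div, Finset.sum_sub_distrib]
    simp

/-- Task P. Let `t` act on the finite set `X`.  There is an invertible matrix `U` whose rows are
eigen-functionals for the permutation `y ↦ t • y`, with eigenvalues `exp (2πi lam x)`,
`lam x ∈ [0,1)` and `∑ lam = (|X| - #orbits)/2`.
(On an orbit `{y₀, t y₀, …, t^(h-1) y₀}` take the rows `U_r (t^i y₀) = ζ_h^(r i)`, `lam = r/h`,
`r = 0, …, h-1`.) -/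
theorem exists_perm_diag {Gp : Type} [Group Gp] {X : Type} [Fintype X] [DecidableEq X]
    [MulAction Gp X] (t : Gp) :
    ∃ (U : Matrix X X ℂ) (lam : X → ℝ), IsUnit U.det ∧ (∀ x, 0 ≤ lam x) ∧ (∀ x, lam x < 1) ∧
      (∀ x y, U x (t • y) = Complex.exp (2 * Real.pi * Complex.I * lam x) * U x y) ∧
      ∑ x, lam x = ((Fintype.card X : ℝ) -
        Nat.card (MulAction.orbitRel.Quotient (Subgroup.zpowers t) X)) / 2 := by
  classical
  let Ω := MulAction.orbitRel.Quotient (Subgroup.zpowers t) X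
  have : Fintype Ω := Fintype.ofFinite _
  let h : Ω → ℕ := fun ω => Function.minimalPeriod (t • ·) ω.out
  have hne : ∀ ω, NeZero (h ω) := by
    intro ω
    refine ⟨?_⟩
    have : Fintype (MulAction.orbit (Subgroup.zpowers t) ω.out) := Fintype.ofFinite _
    have : Nonempty (MulAction.orbit (Subgroup.zpowers t) ω.out) :=
      ⟨⟨ω.out, MulAction.mem_orbit_self _⟩⟩
    show Function.minimalPeriod (t • ·) ω.out ≠ 0
    rw [MulAction.minimalPeriod_eq_card]
    exact Fintype.card_ne_zero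
  let e : X ≃ Σ ω : Ω, ZMod (h ω) :=
    (MulAction.selfEquivSigmaOrbits (Subgroup.zpowers t) X).trans
      (Equiv.sigmaCongrRight fun ω => MulAction.orbitZPowersEquiv t ω.out)
  have he_symm : ∀ (ω : Ω) (i : ZMod (h ω)), e.symm ⟨ω, i + 1⟩ = t • e.symm ⟨ω, i⟩ := by
    intro ω i
    have h1 : ∀ j : ZMod (h ω), e.symm ⟨ω, j⟩ =
        ((MulAction.orbitZPowersEquiv t ω.out).symm j : X) := fun j => rfl
    rw [h1, h1]
    obtain ⟨k, rfl⟩ : ∃ k : ℤ, (k : ZMod (h ω)) = i := ⟨(i.val : ℤ), by simp⟩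
    have h2 : ((k : ZMod (h ω)) + 1) = ((k + 1 : ℤ) : ZMod (h ω)) := by push_cast; rfl
    rw [h2, MulAction.orbitZPowersEquiv_symm_apply', MulAction.orbitZPowersEquiv_symm_apply']
    show (t ^ (k + 1)) • ω.out = t • (t ^ k • ω.out)
    rw [add_comm, zpow_add, zpow_one, mul_smul]
  have he : ∀ y : X, e (t • y) = ⟨(e y).1, (e y).2 + 1⟩ := by
    intro y
    apply e.symm.injective
    rw [Equiv.symm_apply_apply, he_symm]
    congr 1
    exact (e.symm_apply_apply y).symm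
  obtain ⟨U, V, lam, hUV, h0, h1, hshift, hsum⟩ := exists_perm_diag_sigma h
  refine ⟨U.submatrix e e, fun x => lam (e x), ?_, fun x => h0 _, fun x => h1 _, ?_, ?_⟩
  · apply Matrix.isUnit_det_of_right_inverse (B := V.submatrix e e)
    rw [Matrix.submatrix_mul_equiv, hUV, Matrix.submatrix_one_equiv]
  · intro x y
    rw [Matrix.submatrix_apply, Matrix.submatrix_apply, he, hshift]
  · rw [Equiv.sum_comp e lam, hsum]
    congr 2
    · have : Fintype.card X = ∑ ω, h ω := by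
        rw [Fintype.card_congr e, Fintype.card_sigma]
        simp
      rw [this]
      push_cast
      rfl
    · rw [Nat.card_eq_fintype_card]

end Fermat.Agent.S20lib
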