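import Fermat.Agent.S20.VBasic
import Fermat.Agent.S20.PermDiag

/-!
# S20 library: the "leading coefficient" map `ev`
-/

set_option autoImplicit false

open UpperHalfPlane hiding I
open ModularForm MatrixGroups Filter Topology Complex ModularGroup
open scoped Manifold Real

namespace Fermat.Agent.S20lib

local notation "Δ" => ModularForm.discriminant

/-- diagonalisation data for the action of `T` on `X` -/
structure DiagData (X : Type) [Fintype X] [DecidableEq X] [MulAction SL(2, ℤ) X] where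
  U : Matrix X X ℂ
  lam : X → ℝ
  unit : IsUnit U.det
  lam_nonneg : ∀ x, 0 ≤ lam x
  lam_lt_one : ∀ x, lam x < 1
  eigen : ∀ x y, U x (T • y) = cexp (2 * π * I * lam x) * U x y
  sum_lam : ∑ x, lam x = ((Fintype.card X : ℝ) - numCusps X) / 2

theorem exists_diagData (X : Type) [Fintype X] [DecidableEq X] [MulAction SL(2, ℤ) X] :
    Nonempty (DiagData X) := by
  obtain ⟨U, lam, h1, h2, h3, h4, h5⟩ := exists_perm_diag (X := X) T
  exact ⟨⟨U, lam, h1, h2, h3, h4, h5⟩⟩

/-- the part of the definition of a vector valued form which only concerns `T` -/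
structure IsT {X : Type} [MulAction SL(2, ℤ) X] (F : X → ℍ → ℂ) : Prop where
  holo : ∀ x, MDiff (F x)
  shift : ∀ x z, F x ((1 : ℝ) +ᵥ z) = F (T⁻¹ • x) z
  bdd : ∀ x, IsBoundedAtImInfty (F x)

theorem IsV.isT {X : Type} [MulAction SL(2, ℤ) X] {k : ℤ} {F : X → ℍ → ℂ} (h : IsV k F) : IsT F :=
  ⟨h.holo, h.shift, h.bdd⟩

theorem IsT.add {X : Type} [MulAction SL(2, ℤ) X] {F G : X → ℍ → ℂ} (hF : IsT F) (hG : IsT G) : IsT (F + G) where
  holo x := (hF.holo x).add (hG.holo x)
  shift x z := by simp [hF.shift, hG.shift]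
  bdd x := (hF.bdd x).add (hG.bdd x)

theorem IsT.smul {X : Type} [MulAction SL(2, ℤ) X] {F : X → ℍ → ℂ} (c : ℂ) (hF : IsT F) : IsT (c • F) where
  holo x := (hF.holo x).const_smul c
  shift x z := by simp [hF.shift]
  bdd x := (hF.bdd x).const_smul_left c

namespace DiagData

variable {X : Type} [Fintype X] [DecidableEq X] [MulAction SL(2, ℤ) X] (D : DiagData X)

/-- `U F` -/
noncomputable def tw (F : X → ℍ → ℂ) (x : X) (z : ℍ) : ℂ := ∑ y, D.U x y * F y z

/-- `exp(-2πi lam z) U F` -/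
noncomputable def Phi (F : X → ℍ → ℂ) (x : X) (z : ℍ) : ℂ :=
  cexp (-(2 * π * I * D.lam x * z)) * D.tw F x z

theorem tw_shift {F : X → ℍ → ℂ} (hF : IsT F) (x : X) (z : ℍ) :
    D.tw F x ((1 : ℝ) +ᵥ z) = cexp (2 * π * I * D.lam x) * D.tw F x z := by
  simp only [tw, hF.shift, Finset.mul_sum]
  rw [← Equiv.sum_comp (MulAction.toPerm (T : SL(2, ℤ)))]
  refine Finset.sum_congr rfl fun y _ => ?_
  simp only [MulAction.toPerm_apply, inv_smul_smul, D.eigen, mul_assoc]

theorem mdiff_tw {F : X → ℍ → ℂ} (hF : IsT F) (x : X) : MDiff (D.tw F x) := by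
  have : D.tw F x = ∑ y, (D.U x y) • F y := by
    ext z; simp [tw]
  rw [this]
  exact MDifferentiable.sum fun y _ => (hF.holo y).const_smul _

theorem bdd_tw {F : X → ℍ → ℂ} (hF : IsT F) (x : X) : IsBoundedAtImInfty (D.tw F x) := by
  have : D.tw F x = ∑ y, (D.U x y) • F y := by
    ext z; simp [tw]
  rw [this]
  exact (Filter.boundedFilterSubmodule ℂ atImInfty).sum_mem
    fun y _ => (hF.bdd y).const_smul_left _

theorem exists_tendsto_Phi {F : X → ℍ → ℂ} (hF : IsT F) (x : X) :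
    ∃ c : ℂ, Tendsto (D.Phi F x) atImInfty (𝓝 c) :=
  exists_tendsto_of_twisted (D.mdiff_tw hF x) (D.bdd_tw hF x) (D.lam_nonneg x) (D.lam_lt_one x)
    (D.tw_shift hF x)

/-- the leading coefficient vector -/
noncomputable def ev (F : X → ℍ → ℂ) (x : X) : ℂ := limUnder atImInfty (D.Phi F x)

theorem tendsto_Phi {F : X → ℍ → ℂ} (hF : IsT F) (x : X) :
    Tendsto (D.Phi F x) atImInfty (𝓝 (D.ev F x)) :=
  tendsto_nhds_limUnder (D.exists_tendsto_Phi hF x)

theorem Phi_add (F G : X → ℍ → ℂ) (x : X) (z : ℍ) :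
    D.Phi (F + G) x z = D.Phi F x z + D.Phi G x z := by
  simp [Phi, tw, mul_add, Finset.sum_add_distrib]

theorem Phi_smul (c : ℂ) (F : X → ℍ → ℂ) (x : X) (z : ℍ) :
    D.Phi (c • F) x z = c * D.Phi F x z := by
  simp only [Phi, tw, Pi.smul_apply, smul_eq_mul, Finset.mul_sum]
  refine Finset.sum_congr rfl fun y _ => ?_
  ring

theorem Phi_rsmul (a : ℍ → ℂ) (F : X → ℍ → ℂ) (x : X) (z : ℍ) :
    D.Phi (a • F) x z = a z * D.Phi F x z := by
  simp only [Phi, tw, Pi.smul_apply, smul_eq_mul, Finset.mul_sum, Pi.mul_apply]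
  refine Finset.sum_congr rfl fun y _ => ?_
  ring

theorem ev_add {F G : X → ℍ → ℂ} (hF : IsT F) (hG : IsT G) : D.ev (F + G) = D.ev F + D.ev G := by
  ext x
  refine Tendsto.limUnder_eq ?_
  have := (D.tendsto_Phi hF x).add (D.tendsto_Phi hG x)
  refine this.congr fun z => ?_
  rw [Phi_add]

theorem ev_smul (c : ℂ) {F : X → ℍ → ℂ} (hF : IsT F) : D.ev (c • F) = c • D.ev F := by
  ext x
  refine Tendsto.limUnder_eq ?_
  have := (D.tendsto_Phi hF x).const_mul c
  refine this.congr fun z => ?_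
  rw [Phi_smul]

theorem ev_rsmul {a : ℍ → ℂ} {c : ℂ} (ha : Tendsto a atImInfty (𝓝 c)) {F : X → ℍ → ℂ}
    (hF : IsT F) : D.ev (a • F) = c • D.ev F := by
  ext x
  refine Tendsto.limUnder_eq ?_
  have := ha.mul (D.tendsto_Phi hF x)
  refine this.congr fun z => ?_
  rw [Phi_rsmul]

theorem ev_zero : D.ev (0 : X → ℍ → ℂ) = 0 := by
  ext x
  refine Tendsto.limUnder_eq ?_
  have : D.Phi (0 : X → ℍ → ℂ) x = fun _ => 0 := by
    ext z; simp [Phi, tw]
  rw [this]
  exact tendsto_const_nhds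

theorem mdiff_Phi {F : X → ℍ → ℂ} (hF : IsT F) (x : X) : MDiff (D.Phi F x) := by
  have h1 : MDiff (fun z : ℍ => cexp (-(2 * π * I * D.lam x * z))) := by
    rw [UpperHalfPlane.mdifferentiable_iff]
    have : DifferentiableOn ℂ (fun w : ℂ => cexp (-(2 * π * I * D.lam x * w)))
        upperHalfPlaneSet := by fun_prop
    refine this.congr fun w hw => ?_
    simp [Function.comp_apply, ofComplex_apply_of_im_pos hw]
  exact h1.mul (D.mdiff_tw hF x)

theorem Phi_shift {F : X → ℍ → ℂ} (hF : IsT F) (x : X) (z : ℍ) :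
    D.Phi F x ((1 : ℝ) +ᵥ z) = D.Phi F x z := by
  simp only [Phi, D.tw_shift hF, ← mul_assoc, ← Complex.exp_add]
  congr 2
  simp only [UpperHalfPlane.coe_vadd]
  push_cast
  ring

/-- `F = U⁻¹ (U F)` -/
theorem eq_sum_inv_tw (F : X → ℍ → ℂ) (y : X) (z : ℍ) :
    F y z = ∑ x, (D.U⁻¹) y x * D.tw F x z := by
  have h : D.U⁻¹ * D.U = 1 := Matrix.nonsing_inv_mul _ D.unit
  have : (fun x => D.tw F x z) = D.U.mulVec (fun y => F y z) := by
    ext x; simp [tw, Matrix.mulVec, dotProduct]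
  have h2 : (D.U⁻¹).mulVec (fun x => D.tw F x z) = fun y => F y z := by
    rw [this, Matrix.mulVec_mulVec, h, Matrix.one_mulVec]
  have := congrFun h2 y
  simpa [Matrix.mulVec, dotProduct] using this.symm

theorem tw_eq (F : X → ℍ → ℂ) (x : X) (z : ℍ) :
    D.tw F x z = cexp (2 * π * I * D.lam x * z) * D.Phi F x z := by
  rw [Phi, ← mul_assoc, ← Complex.exp_add]
  simp

theorem isBigO_of_ev_eq_zero {F : X → ℍ → ℂ} (hF : IsT F) (h : D.ev F = 0) (y : X) :
    F y =O[atImInfty] fun z : ℍ => Real.exp (-2 * π * z.im) := by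
  have h1 : ∀ x, D.Phi F x =O[atImInfty] fun z : ℍ => Real.exp (-2 * π * z.im) := fun x =>
    isBigO_of_periodic_of_tendsto_zero (D.mdiff_Phi hF x) (D.Phi_shift hF x)
      (by simpa [h] using D.tendsto_Phi hF x)
  have h2 : ∀ x, D.tw F x =O[atImInfty] fun z : ℍ => Real.exp (-2 * π * z.im) := by
    intro x
    refine Asymptotics.IsBigO.trans (Asymptotics.IsBigO.of_bound 1 ?_) (h1 x)
    refine Filter.Eventually.of_forall fun z => ?_
    rw [D.tw_eq, norm_mul, one_mul, Complex.norm_exp]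
    have : (2 * π * I * D.lam x * z : ℂ).re = -(2 * π * D.lam x * z.im) := by
      simp [mul_assoc]
    rw [this]
    have h3 : Real.exp (-(2 * π * D.lam x * z.im)) ≤ 1 := by
      rw [Real.exp_le_one_iff]
      have := D.lam_nonneg x
      have := z.im_pos
      have := Real.pi_pos
      simp only [Left.neg_nonpos_iff]
      positivity
    exact mul_le_of_le_one_left (norm_nonneg _) h3
  have h3 : F y = fun z => ∑ x, (D.U⁻¹) y x * D.tw F x z := by
    ext z; exact D.eq_sum_inv_tw F y z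
  rw [h3]
  exact Asymptotics.IsBigO.fun_sum fun x _ => (h2 x).const_mul_left _

end DiagData

end Fermat.Agent.S20lib
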