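import Fermat.Agent.S20.Ev

/-!
# S20 library: homogeneous free bases of the module of vector valued forms over `ℂ[E₄,E₆]`
-/

set_option autoImplicit false

open UpperHalfPlane hiding I
open ModularForm MatrixGroups Filter Topology Complex ModularGroup
open scoped Manifold Real

namespace Fermat.Agent.S20lib

/-- a homogeneous free basis of `⨁ₖ V_k` over `⨁ₖ R_k` -/
structure FreeBasis (X : Type) [MulAction SL(2, ℤ) X] (ι : Type) [Fintype ι] where
  wt : ι → ℤ
  F : ι → X → ℍ → ℂ
  wt_nonneg : ∀ j, 0 ≤ wt j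
  isV : ∀ j, IsV (wt j) (F j)
  gen : ∀ (k : ℤ) (H : X → ℍ → ℂ), IsV k H →
    ∃ a : ι → ℍ → ℂ, (∀ j, IsR (k - wt j) (a j)) ∧ H = ∑ j, a j • F j
  free : ∀ (k : ℤ) (a : ι → ℍ → ℂ), (∀ j, IsR (k - wt j) (a j)) → ∑ j, a j • F j = 0 → ∀ j, a j = 0

/-- reindexing -/
def FreeBasis.reindex {X : Type} [MulAction SL(2, ℤ) X] {ι κ : Type} [Fintype ι] [Fintype κ]
    (B : FreeBasis X ι) (e : κ ≃ ι) : FreeBasis X κ where
  wt j := B.wt (e j)
  F j := B.F (e j)
  wt_nonneg j := B.wt_nonneg _
  isV j := B.isV _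
  gen k H hH := by
    obtain ⟨a, ha, h⟩ := B.gen k H hH
    refine ⟨fun j => a (e j), fun j => ha _, ?_⟩
    rw [h]
    exact (Equiv.sum_comp e (fun j => a j • B.F j)).symm
  free k a ha h := by
    have := B.free k (fun j => a (e.symm j)) (fun j => by simpa using ha (e.symm j))
      (by
        rw [← h]
        rw [← Equiv.sum_comp e]
        simp)
    intro j
    simpa using this (e j)

end Fermat.Agent.S20lib
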