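import Fermat.Agent.S20.VBasic

/-!
# S20 library: the notion of a good basis
-/

set_option autoImplicit false

open UpperHalfPlane hiding I
open ModularForm MatrixGroups Filter Topology Complex ModularGroup
open scoped Manifold Real

namespace Fermat.Agent.S20lib

/-- A "good basis" of the bundle of vector valued modular forms on the finite `SL(2,ℤ)`-set `X`:
`|X|` homogeneous forms `F j` of weights `wt j` whose matrix `(F j x z)_{x,j}` is invertible at
every point of `ℍ` and "at `i∞`". -/
structure GoodBasis (X : Type) [Fintype X] [DecidableEq X] [MulAction SL(2, ℤ) X] where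
  wt : X → ℤ
  F : X → X → ℍ → ℂ
  isV : ∀ j, IsV (wt j) (F j)
  det_ne : ∀ z : ℍ, (Matrix.of fun x j => F j x z).det ≠ 0
  sum_wt : (∑ j, wt j : ℤ) = 6 * ((Fintype.card X : ℤ) - (numCusps X : ℤ))
  coeff_bdd : ∀ (k : ℤ) (H : X → ℍ → ℂ), IsV k H → ∀ j,
    IsBoundedAtImInfty (fun z => ∑ x, (Matrix.of fun x j => F j x z)⁻¹ j x * H x z)
  inv_zero : ∀ j x, IsZeroAtImInfty
    (fun z => ModularForm.discriminant z * (Matrix.of fun x j => F j x z)⁻¹ j x)

namespace GoodBasis

variable {X : Type} [Fintype X] [DecidableEq X] [MulAction SL(2, ℤ) X] (B : GoodBasis X)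

/-- the matrix of the basis at the point `z` -/
def mat (z : ℍ) : Matrix X X ℂ := Matrix.of fun x j => B.F j x z

theorem mat_apply (z : ℍ) (x j : X) : B.mat z x j = B.F j x z := rfl

theorem det_mat_ne (z : ℍ) : (B.mat z).det ≠ 0 := B.det_ne z

end GoodBasis

end Fermat.Agent.S20lib
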