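import Mathlib

/-!
# S20 library, task J: Jacobi's formula for the derivative of a determinant
-/

set_option autoImplicit false

open UpperHalfPlane
open scoped Manifold

namespace Fermat.Agent.S20lib

/-- derivative of a determinant, column by column -/
theorem hasDerivAt_det_aux {n : Type} [Fintype n] [DecidableEq n] (m : ℂ → Matrix n n ℂ)
    (m' : Matrix n n ℂ) (w : ℂ) (h : ∀ i j, HasDerivAt (fun t => m t i j) (m' i j) w) :
    HasDerivAt (fun t => (m t).det)
      (∑ j, ((m w).updateCol j (fun i => m' i j)).det) w := by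
  have h1 : ∀ σ : Equiv.Perm n, HasDerivAt (fun t => ∏ i, m t (σ i) i)
      (∑ i, (∏ k ∈ Finset.univ.erase i, m w (σ k) k) • m' (σ i) i) w := fun σ =>
    HasDerivAt.fun_finsetProd (u := Finset.univ) (f := fun i t => m t (σ i) i)
      (f' := fun i => m' (σ i) i) (fun i _ => h (σ i) i)
  have h2 : HasDerivAt (fun t => ∑ σ : Equiv.Perm n, ((Equiv.Perm.sign σ : ℤ) : ℂ) * ∏ i, m t (σ i) i)
      (∑ σ : Equiv.Perm n, ((Equiv.Perm.sign σ : ℤ) : ℂ) *
        ∑ i, (∏ k ∈ Finset.univ.erase i, m w (σ k) k) • m' (σ i) i) w :=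
    HasDerivAt.fun_sum (fun σ _ => (h1 σ).const_mul _)
  have e1 : (fun t => (m t).det)
      = fun t => ∑ σ : Equiv.Perm n, ((Equiv.Perm.sign σ : ℤ) : ℂ) * ∏ i, m t (σ i) i := by
    funext t
    rw [Matrix.det_apply']
  rw [e1]
  convert h2 using 1
  simp only [Matrix.det_apply', Finset.mul_sum]
  rw [Finset.sum_comm]
  refine Finset.sum_congr rfl (fun σ _ => Finset.sum_congr rfl (fun j _ => ?_))
  congr 1
  rw [← Finset.mul_prod_erase Finset.univ _ (Finset.mem_univ j), smul_eq_mul, mul_comm]
  congr 1
  · refine Finset.prod_congr rfl (fun k hk => ?_)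
    rw [Matrix.updateCol_ne (Finset.ne_of_mem_erase hk)]
  · rw [Matrix.updateCol_self]

open Derivative in
/-- Task J. If `D M = M * B` entrywise then `D (det M) = trace B * det M`, where
`D = (2πi)⁻¹ d/dz` is `Derivative.normalizedDerivOfComplex`. -/
theorem normalizedDeriv_det {n : Type} [Fintype n] [DecidableEq n]
    (M B : ℍ → Matrix n n ℂ) (hM : ∀ i j, MDiff (fun z => M z i j))
    (hD : ∀ i j z, normalizedDerivOfComplex (fun z => M z i j) z = (M z * B z) i j) (z : ℍ) :
    normalizedDerivOfComplex (fun z => (M z).det) z = (B z).trace * (M z).det := by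
  set c : ℂ := 2 * Real.pi * Complex.I with hc
  have hc0 : c ≠ 0 := by
    simp [hc, Real.pi_ne_zero]
  have hentry : ∀ i j, HasDerivAt (fun t : ℂ => M (ofComplex t) i j) (c * (M z * B z) i j) z := by
    intro i j
    have hd := (UpperHalfPlane.mdifferentiableAt_iff.mp (hM i j z)).hasDerivAt
    have := hD i j z
    unfold normalizedDerivOfComplex at this
    rw [← this, ← hc, mul_inv_cancel_left₀ hc0]
    exact hd
  have hdet := hasDerivAt_det_aux (fun t => M (ofComplex t)) (Matrix.of fun i j => c * (M z * B z) i j)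
    z hentry
  unfold normalizedDerivOfComplex
  have e : ((fun z => (M z).det) ∘ ofComplex) = fun t : ℂ => (M (ofComplex t)).det := rfl
  rw [e, hdet.deriv, ← hc, ofComplex_apply]
  have hcol : ∀ j, ((M z).updateCol j (fun i => (Matrix.of fun i j => c * (M z * B z) i j) i j)).det
      = c * ((M z).det * B z j j) := by
    intro j
    have e2 : (fun i => (Matrix.of fun i j => c * (M z * B z) i j) i j)
        = c • ((M z).mulVec (fun k => B z k j)) := by
      funext i
      simp [Matrix.mul_apply, Matrix.mulVec, dotProduct]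
    rw [e2, Matrix.det_updateCol_smul, ← Matrix.cramer_apply, Matrix.cramer_eq_adjugate_mulVec,
      Matrix.mulVec_mulVec, Matrix.adjugate_mul, Matrix.smul_mulVec, Matrix.one_mulVec]
    simp
  simp only [hcol]
  rw [← Finset.mul_sum, ← Finset.mul_sum, inv_mul_cancel_left₀ hc0, Matrix.trace, mul_comm]
  rfl

/-- entries holomorphic ⇒ determinant holomorphic -/
theorem mdiff_det {n : Type} [Fintype n] [DecidableEq n]
    (M : ℍ → Matrix n n ℂ) (hM : ∀ i j, MDiff (fun z => M z i j)) :
    MDiff (fun z => (M z).det) := by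
  intro z
  rw [UpperHalfPlane.mdifferentiableAt_iff]
  have hentry : ∀ i j, HasDerivAt (fun t : ℂ => M (ofComplex t) i j)
      (deriv (fun t : ℂ => M (ofComplex t) i j) z) z := fun i j =>
    (UpperHalfPlane.mdifferentiableAt_iff.mp (hM i j z)).hasDerivAt
  exact (hasDerivAt_det_aux (fun t => M (ofComplex t))
    (Matrix.of fun i j => deriv (fun t : ℂ => M (ofComplex t) i j) z) z hentry).differentiableAt

end Fermat.Agent.S20lib
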