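import Fermat.Agent.S20.Defs

/-!
# S20 library, task Q: analytic lemmas on (twisted-)periodic holomorphic functions on `ℍ`
-/

set_option autoImplicit false

open UpperHalfPlane hiding I
open ModularForm MatrixGroups Filter Topology Complex
open scoped Manifold Real

namespace Fermat.Agent.S20lib

theorem periodic_comp_ofComplex_of_vadd {ψ : ℍ → ℂ}
    (hper : ∀ z : ℍ, ψ ((1 : ℝ) +ᵥ z) = ψ z) :
    Function.Periodic (ψ ∘ ofComplex) (1 : ℝ) := by
  intro w
  by_cases hw : 0 < im w
  · have h2 : 0 < im (w + (1 : ℝ)) := by simp [hw]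
    simp only [Function.comp_apply, ofComplex_apply_of_im_pos h2, ofComplex_apply_of_im_pos hw]
    rw [← hper ⟨w, hw⟩]
    congr 1
    ext
    simp [add_comm]
  · have hw' : im w ≤ 0 := not_lt.mp hw
    have h2 : im (w + (1 : ℝ)) ≤ 0 := by simpa using hw'
    simp only [Function.comp_apply]
    rw [ofComplex_apply_of_im_nonpos h2, ofComplex_apply_of_im_nonpos hw']

/-- Q1 -/
theorem isBigO_of_periodic_of_tendsto_zero {ψ : ℍ → ℂ} (hol : MDiff ψ)
    (hper : ∀ z : ℍ, ψ ((1 : ℝ) +ᵥ z) = ψ z) (h0 : Tendsto ψ atImInfty (𝓝 0)) :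
    ψ =O[atImInfty] fun z : ℍ => Real.exp (-2 * π * z.im) := by
  have h0' : IsZeroAtImInfty ψ := h0
  have := UpperHalfPlane.IsZeroAtImInfty.exp_decay_atImInfty h0' one_pos
    (periodic_comp_ofComplex_of_vadd hper) hol h0'.boundedAtFilter
  simpa using this

/-- Q2 -/
theorem exists_tendsto_of_periodic_of_bounded {ψ : ℍ → ℂ} (hol : MDiff ψ)
    (hper : ∀ z : ℍ, ψ ((1 : ℝ) +ᵥ z) = ψ z) (hb : IsBoundedAtImInfty ψ) :
    ∃ c : ℂ, Tendsto ψ atImInfty (𝓝 c) := by
  have hp := periodic_comp_ofComplex_of_vadd hper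
  have han := UpperHalfPlane.analyticAt_cuspFunction_zero one_pos hp hol hb
  refine ⟨UpperHalfPlane.cuspFunction 1 ψ 0, ?_⟩
  have h2 : (UpperHalfPlane.cuspFunction 1 ψ ∘ fun τ : ℍ ↦ Function.Periodic.qParam 1 τ : ℍ → ℂ) = ψ := by
    funext τ
    simpa using UpperHalfPlane.eq_cuspFunction τ one_ne_zero hp
  simpa [h2] using han.continuousAt.tendsto.comp (UpperHalfPlane.qParam_tendsto_atImInfty one_pos)

/-- composition of an entire function with the inclusion `ℍ → ℂ` is holomorphic -/
theorem mdiff_comp_coe {g : ℂ → ℂ} (hg : Differentiable ℂ g) : MDiff (fun z : ℍ => g z) := by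
  intro z
  exact (hg (z : ℂ)).mdifferentiableAt.comp z (mdifferentiable_coe z)

theorem mdiff_cexp_mul (c : ℂ) : MDiff (fun z : ℍ => cexp (c * z)) :=
  mdiff_comp_coe (g := fun w => cexp (c * w)) (by fun_prop)

theorem norm_cexp_I_mul (c : ℝ) (z : ℍ) : ‖cexp (2 * π * I * c * z)‖ = Real.exp (-2 * π * c * z.im) := by
  rw [Complex.norm_exp]
  congr 1
  have : (2 * (π : ℂ) * I * c * z) = ((2 * π * c : ℝ) : ℂ) * (I * z) := by push_cast; ring
  rw [this, Complex.re_ofReal_mul]
  simp

/-- Q3 -/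
theorem exists_tendsto_of_twisted {φ : ℍ → ℂ} (hol : MDiff φ) (hb : IsBoundedAtImInfty φ)
    {lam : ℝ} (h0 : 0 ≤ lam) (h1 : lam < 1)
    (hper : ∀ z : ℍ, φ ((1 : ℝ) +ᵥ z) = cexp (2 * π * I * lam) * φ z) :
    ∃ c : ℂ, Tendsto (fun z : ℍ => cexp (-(2 * π * I * lam * z)) * φ z) atImInfty (𝓝 c) := by
  set ψ : ℍ → ℂ := fun z : ℍ => cexp (-(2 * π * I * lam * z)) * φ z with hψ
  have hψhol : MDiff ψ := by
    have : MDiff (fun z : ℍ => cexp ((-(2 * π * I * lam)) * z)) := mdiff_cexp_mul _
    have h2 := this.mul hol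
    have h3 : ψ = (fun z : ℍ => cexp (-(2 * ↑π * I * ↑lam) * ↑z)) * φ := by
      funext z
      simp [hψ, neg_mul]
    rw [h3]
    exact h2
  have hψper : ∀ z : ℍ, ψ ((1 : ℝ) +ᵥ z) = ψ z := by
    intro z
    simp only [hψ, hper z, coe_vadd]
    rw [← mul_assoc, ← Complex.exp_add]
    congr 2
    push_cast
    ring
  -- χ = exp(2πiz) ψ
  set χ : ℍ → ℂ := fun z : ℍ => cexp (2 * π * I * z) * ψ z with hχ
  have hχhol : MDiff χ := (mdiff_cexp_mul (2 * π * I)).mul hψhol
  have hχper : ∀ z : ℍ, χ ((1 : ℝ) +ᵥ z) = χ z := by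
    intro z
    simp only [hχ, hψper z, coe_vadd]
    congr 1
    have : 2 * (π : ℂ) * I * (((1 : ℝ) : ℂ) + z) = 2 * π * I * z + 2 * π * I := by push_cast; ring
    rw [this, Complex.exp_add, Complex.exp_two_pi_mul_I, mul_one]
  have hχeq : ∀ z : ℍ, χ z = cexp (2 * π * I * ((1 - lam : ℝ) : ℂ) * z) * φ z := by
    intro z
    simp only [hχ, hψ]
    rw [← mul_assoc, ← Complex.exp_add]
    congr 2
    push_cast
    ring
  have hχ0 : Tendsto χ atImInfty (𝓝 0) := by
    have hexp : Tendsto (fun z : ℍ => cexp (2 * π * I * ((1 - lam : ℝ) : ℂ) * z)) atImInfty (𝓝 0) := by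
      rw [tendsto_zero_iff_norm_tendsto_zero]
      simp only [norm_cexp_I_mul]
      have hc : 0 < 2 * π * (1 - lam) := by have := Real.pi_pos; have : 0 < 1 - lam := by linarith
                                            positivity
      have : Tendsto (fun z : ℍ => -2 * π * (1 - lam) * z.im) atImInfty atBot := by
        have h3 : Tendsto (fun z : ℍ => z.im) atImInfty atTop := tendsto_comap
        have := h3.const_mul_atTop_of_neg (r := -(2 * π * (1 - lam))) (by linarith)
        refine this.congr fun z => by ring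
      exact Real.tendsto_exp_atBot.comp this
    have hz : IsZeroAtImInfty (fun z : ℍ => cexp (2 * π * I * ((1 - lam : ℝ) : ℂ) * z)) := hexp
    have := hz.mul_boundedAtFilter hb
    refine Tendsto.congr (fun z => ?_) this
    simp [hχeq z]
  have hO := isBigO_of_periodic_of_tendsto_zero hχhol hχper hχ0
  have hψb : IsBoundedAtImInfty ψ := by
    rw [IsBoundedAtImInfty, BoundedAtFilter]
    have h4 : ψ = fun z : ℍ => cexp (-(2 * π * I * z)) * χ z := by
      funext z
      simp only [hχ]
      rw [← mul_assoc, ← Complex.exp_add]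
      simp
    have h5 : (fun z : ℍ => cexp (-(2 * π * I * z))) =O[atImInfty] fun z : ℍ => Real.exp (2 * π * z.im) := by
      apply Asymptotics.IsBigO.of_norm_le
      intro z
      have := norm_cexp_I_mul (-1) z
      simp only [ofReal_neg, ofReal_one, mul_neg, mul_one, neg_mul, neg_neg] at this
      rw [this]
    have h6 := h5.mul hO
    rw [h4]
    refine h6.trans (Asymptotics.IsBigO.of_norm_le fun z => ?_)
    rw [← Real.exp_add]
    simp
  exact exists_tendsto_of_periodic_of_bounded hψhol hψper hψb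

/-- Q4 (Cauchy estimate) -/
theorem isBoundedAtImInfty_normalizedDeriv {f : ℍ → ℂ} (hol : MDiff f)
    (hb : IsBoundedAtImInfty f) : IsBoundedAtImInfty (Derivative.normalizedDerivOfComplex f) := by
  rw [isBoundedAtImInfty_iff] at hb ⊢
  obtain ⟨M, A, h⟩ := hb
  rw [UpperHalfPlane.mdifferentiable_iff] at hol
  refine ⟨‖(2 * π * I : ℂ)⁻¹‖ * (M / 1), max A 0 + 2, fun z hz => ?_⟩
  rw [Derivative.normalizedDerivOfComplex, norm_mul]
  refine mul_le_mul_of_nonneg_left ?_ (norm_nonneg _)
  have him : ∀ w ∈ Metric.closedBall (z : ℂ) 1, max A 0 + 1 ≤ w.im := by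
    intro w hw
    have h1 : |(w - z).im| ≤ 1 := (Complex.abs_im_le_norm _).trans (by simpa [dist_eq_norm] using hw)
    have h2 := (abs_le.mp h1).1
    simp only [Complex.sub_im, coe_im] at h2
    linarith
  apply Complex.norm_deriv_le_of_forall_mem_sphere_norm_le one_pos
  · apply hol.diffContOnCl_ball
    intro w hw
    have := him w hw
    have h3 : 0 ≤ max A 0 := le_max_right _ _
    show 0 < w.im
    linarith
  · intro w hw
    have h1 := him w (Metric.sphere_subset_closedBall hw)
    have h3 : 0 ≤ max A 0 := le_max_right _ _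
    have h4 : A ≤ max A 0 := le_max_left _ _
    have hpos : 0 < w.im := by linarith
    simp only [Function.comp_apply, ofComplex_apply_of_im_pos hpos]
    apply h
    show A ≤ w.im
    linarith

/-- Q5: `E2` is bounded at `i∞`. -/
theorem isBoundedAtImInfty_E2 : IsBoundedAtImInfty EisensteinSeries.E2 :=
  EisensteinSeries.isBoundedAtImInfty_E2


theorem tendsto_tprod_one_sub_eta_q :
    Tendsto (fun x : ℍ ↦ ∏' (n : ℕ), (1 - eta_q n x)) atImInfty (𝓝 1) := by
  have htprod : Tendsto (fun q : ℂ ↦ ∏' (n : ℕ), (1 - q ^ (n + 1))) (𝓝 0) (𝓝 1) := by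
    have := tendsto_tprod_one_add_of_dominated_convergence (𝓕 := 𝓝 0) (g := 0)
      (f := fun (q : ℂ) (n : ℕ) ↦ -q ^ (n + 1)) (bound := fun n ↦ (1 / 2 : ℝ) ^ (n + 1))
    simp only [Pi.zero_apply, norm_neg, norm_pow, add_zero, tprod_one] at this
    simp_rw [sub_eq_add_neg]
    refine this
      (by simpa only [pow_succ'] using (summable_geometric_of_abs_lt_one (by norm_num)).mul_left _)
      (fun k ↦ by simpa using ((continuous_pow (M := ℂ) (k + 1)).tendsto 0).neg) ?_
    filter_upwards [Metric.ball_mem_nhds (0 : ℂ) (by norm_num : (0 : ℝ) < 1 / 2)] with q hq k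
    exact pow_le_pow_left₀ (norm_nonneg _) (mem_ball_zero_iff.mp hq).le _
  exact htprod.comp (UpperHalfPlane.qParam_tendsto_atImInfty zero_lt_one)

/-- Q6: asymptotics of powers of `η`. -/
theorem tendsto_eta_zpow (K : ℤ) :
    Tendsto (fun z : ℍ => ModularForm.eta z ^ (2 * K) * cexp (-(2 * π * I * ((K : ℂ) / 12) * z)))
      atImInfty (𝓝 1) := by
  have h1 : Tendsto (fun x : ℍ ↦ (∏' (n : ℕ), (1 - eta_q n x)) ^ (2 * K)) atImInfty (𝓝 1) := by
    have := tendsto_tprod_one_sub_eta_q.zpow₀ (2 * K) (Or.inl one_ne_zero)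
    simpa using this
  refine h1.congr fun z => ?_
  rw [ModularForm.eta, mul_zpow]
  have : cexp (-(2 * π * I * ((K : ℂ) / 12) * z)) * Function.Periodic.qParam 24 z ^ (2 * K) = 1 := by
    rw [Function.Periodic.qParam, ← Complex.exp_int_mul, ← Complex.exp_add]
    have : -(2 * π * I * ((K : ℂ) / 12) * z) + ((2 * K : ℤ) : ℂ) * (2 * π * I * z / ((24 : ℝ) : ℂ)) = 0 := by
      push_cast
      ring
    rw [this, Complex.exp_zero]
  calc _ = (cexp (-(2 * π * I * ((K : ℂ) / 12) * z)) * Function.Periodic.qParam 24 z ^ (2 * K)) *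
        (∏' (n : ℕ), (1 - eta_q n z)) ^ (2 * K) := by rw [this, one_mul]
    _ = _ := by ring

/-- Q7 -/
theorem eq_const_mul_eta_zpow {g : ℍ → ℂ} (hol : MDiff g) (K : ℤ)
    (h : Derivative.serreDerivative (K : ℂ) g = 0) :
    ∃ c : ℂ, ∀ z : ℍ, g z = c * ModularForm.eta z ^ (2 * K) := by
  have hderiv : ∀ w ∈ upperHalfPlaneSet,
      HasDerivAt (fun w => (g ∘ ofComplex) w * ModularForm.eta w ^ (-(2 * K))) 0 w := by
    intro w hw
    have hg : HasDerivAt (g ∘ ofComplex) (deriv (g ∘ ofComplex) w) w :=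
      (UpperHalfPlane.mdifferentiableAt_iff.mp (hol ⟨w, hw⟩)).hasDerivAt
    have hη : HasDerivAt ModularForm.eta (deriv ModularForm.eta w) w :=
      (differentiableAt_eta_of_mem_upperHalfPlaneSet hw).hasDerivAt
    have hη0 : ModularForm.eta w ≠ 0 := eta_ne_zero hw
    have hηz := (hasDerivAt_zpow (-(2 * K)) _ (Or.inl hη0)).comp w hη
    have hprod := hg.mul hηz
    have h1 : deriv ModularForm.eta w = (π * I / 12) * EisensteinSeries.E2 ⟨w, hw⟩ * ModularForm.eta w := by
      have := logDeriv_eta_eq_E2 ⟨w, hw⟩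
      rw [logDeriv_apply, div_eq_iff hη0] at this
      exact this
    have h2 : deriv (g ∘ ofComplex) w = 2 * π * I * ((K : ℂ) * 12⁻¹ * EisensteinSeries.E2 ⟨w, hw⟩ * g ⟨w, hw⟩) := by
      have := congrFun h ⟨w, hw⟩
      simp only [Derivative.serreDerivative_apply, Derivative.normalizedDerivOfComplex, Pi.zero_apply, sub_eq_zero] at this
      rw [← this]
      have : (2 * π * I : ℂ) ≠ 0 := by simp [Real.pi_ne_zero]
      field_simp
    have h0 : (0 : ℂ) = deriv (g ∘ ofComplex) w * ((fun x => x ^ (-(2 * K))) ∘ ModularForm.eta) w +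
      (g ∘ ofComplex) w * (↑(-(2 * K)) * ModularForm.eta w ^ (-(2 * K) - 1) * deriv ModularForm.eta w) := ?_
    · rw [h0]; exact hprod
    rw [h1, h2]
    have h3 : (g ∘ ofComplex) w = g ⟨w, hw⟩ := by
      simp [ofComplex_apply_of_im_pos hw]
    rw [h3, zpow_sub_one₀ hη0]
    simp only [Function.comp_apply]
    push_cast
    field_simp
    ring
  obtain ⟨a, ha⟩ := isOpen_upperHalfPlaneSet.exists_is_const_of_deriv_eq_zero
    (Convex.isPreconnected (convex_halfSpace_im_gt 0))
    (fun w hw => (hderiv w hw).differentiableAt.differentiableWithinAt)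
    (fun w hw => (hderiv w hw).deriv)
  refine ⟨a, fun z => ?_⟩
  have := ha z z.2
  simp only [Function.comp_apply, ofComplex_apply] at this
  rw [← this, mul_assoc, ← zpow_add₀ (eta_ne_zero z.2)]
  simp

/-- Q8 -/
theorem isBoundedAtImInfty_div_disc {f : ℍ → ℂ}
    (hf : f =O[atImInfty] fun z : ℍ => Real.exp (-2 * π * z.im)) :
    IsBoundedAtImInfty (fun z => f z / ModularForm.discriminant z) := by
  have h := hf.trans ModularForm.exp_isBigO_discriminant
  have h2 : (fun z => f z / ModularForm.discriminant z) =O[atImInfty]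
      (fun z => ModularForm.discriminant z / ModularForm.discriminant z) :=
    h.mul (Asymptotics.isBigO_refl (fun z => (ModularForm.discriminant z)⁻¹) atImInfty)
  refine h2.trans (Asymptotics.IsBigO.of_bound 1 (Eventually.of_forall fun z => ?_))
  simp [div_self (discriminant_ne_zero z)]

/-- Q9 -/
theorem tendsto_disc_mul_exp {c : ℝ} (hc : c < 1) :
    Tendsto (fun z : ℍ => ModularForm.discriminant z * cexp (-(2 * π * I * c * z)))
      atImInfty (𝓝 0) := by
  have h1 : Tendsto (fun z : ℍ => cexp (2 * π * I * ((1 - c : ℝ) : ℂ) * z)) atImInfty (𝓝 0) := by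
    rw [tendsto_zero_iff_norm_tendsto_zero]
    simp_rw [norm_cexp_I_mul]
    refine Real.tendsto_exp_atBot.comp ?_
    have : Tendsto (fun z : ℍ => z.im) atImInfty atTop := tendsto_comap
    have h3 := this.const_mul_atTop (show 0 < 2 * π * (1 - c) by have := Real.pi_pos; have : 0 < 1 - c := by linarith
                                                                 positivity)
    have h4 := tendsto_neg_atTop_atBot.comp h3
    refine h4.congr fun z => ?_
    simp only [Function.comp_apply]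
    ring
  have h2 := h1.mul tendsto_atImInfty_tprod_one_sub_eta_q_pow
  rw [zero_mul] at h2
  refine h2.congr fun z => ?_
  rw [discriminant_eq_q_prod, Function.Periodic.qParam]
  have : cexp (2 * π * I * ((1 - c : ℝ) : ℂ) * z) = cexp (2 * π * I * z / ((1 : ℝ) : ℂ)) * cexp (-(2 * π * I * c * z)) := by
    rw [← Complex.exp_add]
    congr 1
    push_cast
    ring
  rw [this]
  ring

end Fermat.Agent.S20lib
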