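import Fermat.Agent.S20.GoodBasis
import Fermat.Agent.S20.FreeBasis
import Fermat.Agent.S20.Jacobi

/-!
# S20 library: a free basis of the right rank is a good basis
-/

set_option autoImplicit false

open UpperHalfPlane hiding I
open ModularForm MatrixGroups Filter Topology Complex ModularGroup
open scoped Manifold Real

namespace Fermat.Agent.S20lib

local notation "Δ" => ModularForm.discriminant

variable {X : Type} [Fintype X] [DecidableEq X] [MulAction SL(2, ℤ) X]

namespace FreeBasis

variable (B : FreeBasis X X) (D : DiagData X)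

/-- the matrix of the basis -/
def mat (z : ℍ) : Matrix X X ℂ := Matrix.of fun x j => B.F j x z

/-- the matrix of the normalised `T`-eigencomponents -/
noncomputable def PhiMat (z : ℍ) : Matrix X X ℂ := Matrix.of fun x j => D.Phi (B.F j) x z

/-- the matrix of leading coefficients -/
noncomputable def evMat : Matrix X X ℂ := Matrix.of fun x j => D.ev (B.F j) x

/-- total weight -/
def K : ℤ := ∑ j, B.wt j

theorem U_mul_mat (z : ℍ) :
    D.U * B.mat z = Matrix.diagonal (fun x => cexp (2 * π * I * D.lam x * z)) * B.PhiMat D z := by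
  ext x j
  rw [Matrix.diagonal_mul, Matrix.mul_apply]
  simp only [mat, PhiMat, Matrix.of_apply]
  exact D.tw_eq (B.F j) x z

theorem tendsto_PhiMat : Tendsto (B.PhiMat D) atImInfty (𝓝 (B.evMat D)) := by
  refine tendsto_pi_nhds.2 fun x => tendsto_pi_nhds.2 fun j => ?_
  exact D.tendsto_Phi (B.isV j).isT x

theorem det_evMat_ne (hli : LinearIndependent ℂ (fun j => D.ev (B.F j))) :
    (B.evMat D).det ≠ 0 := by
  have h : LinearIndependent ℂ (B.evMat D).col := hli
  have := Matrix.linearIndependent_cols_iff_isUnit.1 h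
  exact ((Matrix.isUnit_iff_isUnit_det _).1 this).ne_zero

theorem tendsto_det_PhiMat :
    Tendsto (fun z => (B.PhiMat D z).det) atImInfty (𝓝 (B.evMat D).det) :=
  ((continuous_id.matrix_det).tendsto _).comp (B.tendsto_PhiMat D)

theorem det_U_mul_det_mat (z : ℍ) :
    D.U.det * (B.mat z).det = cexp (2 * π * I * (∑ x, D.lam x : ℝ) * z) * (B.PhiMat D z).det := by
  rw [← Matrix.det_mul, U_mul_mat, Matrix.det_mul, Matrix.det_diagonal, ← Complex.exp_sum]
  congr 2
  push_cast
  rw [Finset.mul_sum, Finset.sum_mul]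

omit [DecidableEq X] in
theorem mdiff_mat (x j : X) : MDiff (fun z => B.mat z x j) := (B.isV j).holo x

open Derivative in
/-- the determinant of a free basis is killed by the Serre derivative -/
theorem serre_det : serreDerivative (B.K : ℂ) (fun z => (B.mat z).det) = 0 := by
  -- expansion of the Serre derivatives of the basis elements
  have h1 : ∀ j, ∃ a : X → ℍ → ℂ, (∀ l, IsR (B.wt j + 2 - B.wt l) (a l)) ∧
      (fun x => serreDerivative (B.wt j : ℂ) (B.F j x)) = ∑ l, a l • B.F l :=
    fun j => B.gen _ _ (B.isV j).serre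
  choose a ha hs using h1
  have haj : ∀ j, a j j = 0 := fun j =>
    IsR.eq_zero_of_two ((ha j j).congr_weight (by ring))
  let Bm : ℍ → Matrix X X ℂ := fun z => Matrix.of fun l j =>
    a j l z + if l = j then (B.wt j : ℂ) * 12⁻¹ * EisensteinSeries.E2 z else 0
  have hD : ∀ x j z, normalizedDerivOfComplex (fun z => B.mat z x j) z = (B.mat z * Bm z) x j := by
    intro x j z
    have h2 := congrFun (congrFun (hs j) x) z
    simp only [serreDerivative_apply, Finset.sum_apply, Pi.smul_apply, smul_eq_mul,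
      Pi.mul_apply] at h2
    have h3 : normalizedDerivOfComplex (fun z => B.mat z x j) z
        = normalizedDerivOfComplex (B.F j x) z := rfl
    rw [h3, sub_eq_iff_eq_add.1 h2, Matrix.mul_apply]
    simp only [mat, Bm, Matrix.of_apply, mul_add, Finset.sum_add_distrib, mul_ite, mul_zero,
      Finset.sum_ite_eq', Finset.mem_univ, if_true]
    congr 1
    · exact Finset.sum_congr rfl fun l _ => mul_comm _ _
    · ring
  ext z
  have h4 := normalizedDeriv_det B.mat Bm B.mdiff_mat hD z
  rw [serreDerivative_apply, h4]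
  have h5 : (Bm z).trace = (B.K : ℂ) * 12⁻¹ * EisensteinSeries.E2 z := by
    simp only [Matrix.trace, Matrix.diag_apply, Bm, Matrix.of_apply, if_true, haj, Pi.zero_apply,
      zero_add, K]
    push_cast
    rw [Finset.sum_mul, Finset.sum_mul]
  rw [h5]
  simp

theorem exists_det_eq : ∃ c : ℂ, ∀ z : ℍ, (B.mat z).det = c * ModularForm.eta z ^ (2 * B.K) :=
  eq_const_mul_eta_zpow (mdiff_det B.mat B.mdiff_mat) B.K B.serre_det

theorem tendsto_im_atImInfty : Tendsto (fun z : ℍ => z.im) atImInfty atTop := tendsto_comap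

/-- comparison of the two asymptotic expansions of the determinant -/
theorem det_const_ne_and_K_eq (hli : LinearIndependent ℂ (fun j => D.ev (B.F j))) {c : ℂ}
    (hc : ∀ z : ℍ, (B.mat z).det = c * ModularForm.eta z ^ (2 * B.K)) :
    c ≠ 0 ∧ (B.K : ℝ) = 12 * ∑ x, D.lam x := by
  have hp := B.tendsto_det_PhiMat D
  have hp0 := B.det_evMat_ne D hli
  have hpe : ∀ᶠ z in atImInfty, (B.PhiMat D z).det ≠ 0 := hp.eventually_ne hp0
  have hU : D.U.det ≠ 0 := D.unit.ne_zero
  have hc0 : c ≠ 0 := by
    rintro rfl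
    obtain ⟨z, hz⟩ := hpe.exists
    have := B.det_U_mul_det_mat D z
    rw [hc z, zero_mul, mul_zero] at this
    exact hz ((mul_eq_zero.1 this.symm).resolve_left (Complex.exp_ne_zero _))
  refine ⟨hc0, ?_⟩
  set s : ℝ := (∑ x, D.lam x) - (B.K : ℝ) / 12 with hs
  -- the key identity
  have key : ∀ z : ℍ, cexp (2 * π * I * s * z) * (B.PhiMat D z).det =
      D.U.det * c * (ModularForm.eta z ^ (2 * B.K) * cexp (-(2 * π * I * ((B.K : ℂ) / 12) * z))) := by
    intro z
    have h1 := B.det_U_mul_det_mat D z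
    rw [hc z] at h1
    have h2 : cexp (2 * π * I * s * z) = cexp (2 * π * I * (∑ x, D.lam x : ℝ) * z) *
        cexp (-(2 * π * I * ((B.K : ℂ) / 12) * z)) := by
      rw [← Complex.exp_add]
      congr 1
      rw [hs]
      push_cast
      ring
    rw [h2]
    linear_combination (cexp (-(2 * π * I * ((B.K : ℂ) / 12) * z))) * (-h1)
  have hlim : Tendsto (fun z : ℍ => cexp (2 * π * I * s * z) * (B.PhiMat D z).det) atImInfty
      (𝓝 (D.U.det * c * 1)) := by
    simp_rw [key]
    exact (tendsto_eta_zpow B.K).const_mul _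
  have hlim2 : Tendsto (fun z : ℍ => cexp (2 * π * I * s * z)) atImInfty
      (𝓝 (D.U.det * c * 1 / (B.evMat D).det)) := by
    refine (hlim.div hp hp0).congr' ?_
    filter_upwards [hpe] with z hz
    simp only [Pi.div_apply]
    field_simp
  have hnorm : Tendsto (fun z : ℍ => Real.exp (-(2 * π * s) * z.im)) atImInfty
      (𝓝 ‖D.U.det * c * 1 / (B.evMat D).det‖) := by
    refine hlim2.norm.congr fun z => ?_
    rw [Complex.norm_exp]
    congr 1
    simp [mul_assoc]
  have hL : ‖D.U.det * c * 1 / (B.evMat D).det‖ ≠ 0 := by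
    simp [hU, hc0, hp0]
  have hs0 : s = 0 := by
    rcases lt_trichotomy s 0 with h | h | h
    · exfalso
      have : Tendsto (fun z : ℍ => Real.exp (-(2 * π * s) * z.im)) atImInfty atTop := by
        refine Real.tendsto_exp_atTop.comp (tendsto_im_atImInfty.const_mul_atTop ?_)
        have := Real.pi_pos
        nlinarith
      exact not_tendsto_nhds_of_tendsto_atTop this _ hnorm
    · exact h
    · exfalso
      have : Tendsto (fun z : ℍ => Real.exp (-(2 * π * s) * z.im)) atImInfty (𝓝 0) := by
        refine Real.tendsto_exp_atBot.comp (tendsto_im_atImInfty.const_mul_atTop_of_neg ?_)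
        have := Real.pi_pos
        nlinarith
      exact hL (tendsto_nhds_unique hnorm this)
  rw [hs] at hs0
  linarith

theorem tendsto_inv_PhiMat (hli : LinearIndependent ℂ (fun j => D.ev (B.F j))) :
    Tendsto (fun z => (B.PhiMat D z)⁻¹) atImInfty (𝓝 (B.evMat D)⁻¹) := by
  simp only [Matrix.inv_def, Ring.inverse_eq_inv']
  exact ((B.tendsto_det_PhiMat D).inv₀ (B.det_evMat_ne D hli)).smul
    (((continuous_id.matrix_adjugate).tendsto _).comp (B.tendsto_PhiMat D))

theorem tendsto_inv_PhiMat_apply (hli : LinearIndependent ℂ (fun j => D.ev (B.F j))) (j y : X) :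
    Tendsto (fun z => (B.PhiMat D z)⁻¹ j y) atImInfty (𝓝 ((B.evMat D)⁻¹ j y)) :=
  (tendsto_pi_nhds.1 (tendsto_pi_nhds.1 (B.tendsto_inv_PhiMat D hli) j)) y

theorem inv_mat_eq {z : ℍ} (hz : (B.mat z).det ≠ 0) :
    (B.mat z)⁻¹ = (B.PhiMat D z)⁻¹ *
      Matrix.diagonal (fun x => cexp (-(2 * π * I * D.lam x * z))) * D.U := by
  have hP : (B.PhiMat D z).det ≠ 0 := by
    intro h
    have := B.det_U_mul_det_mat D z
    rw [h, mul_zero] at this
    exact (mul_ne_zero D.unit.ne_zero hz) this
  refine Matrix.inv_eq_left_inv ?_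
  rw [Matrix.mul_assoc, U_mul_mat, Matrix.mul_assoc, ← Matrix.mul_assoc (Matrix.diagonal _),
    Matrix.diagonal_mul_diagonal]
  have : (fun x => cexp (-(2 * π * I * D.lam x * z)) * cexp (2 * π * I * D.lam x * z))
      = fun _ : X => (1 : ℂ) := by
    ext x
    rw [← Complex.exp_add]
    simp
  rw [this, Matrix.diagonal_one, Matrix.one_mul]
  exact Matrix.nonsing_inv_mul _ (Ne.isUnit hP)

theorem inv_mat_apply {z : ℍ} (hz : (B.mat z).det ≠ 0) (j x : X) :
    (B.mat z)⁻¹ j x =
      ∑ y, (B.PhiMat D z)⁻¹ j y * (cexp (-(2 * π * I * D.lam y * z)) * D.U y x) := by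
  rw [B.inv_mat_eq D hz, Matrix.mul_assoc, Matrix.mul_apply]
  simp only [Matrix.diagonal_mul]

theorem coeff_eq {z : ℍ} (hz : (B.mat z).det ≠ 0) (H : X → ℍ → ℂ) (j : X) :
    ∑ x, (B.mat z)⁻¹ j x * H x z = ∑ y, (B.PhiMat D z)⁻¹ j y * D.Phi H y z := by
  simp only [B.inv_mat_apply D hz, Finset.sum_mul, DiagData.Phi, DiagData.tw, Finset.mul_sum]
  rw [Finset.sum_comm]
  refine Finset.sum_congr rfl fun y _ => Finset.sum_congr rfl fun x _ => ?_
  ring

/-- a free basis indexed by `X` whose leading coefficients are independent is a good basis -/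
noncomputable def toGoodBasis (hli : LinearIndependent ℂ (fun j => D.ev (B.F j))) :
    GoodBasis X :=
  have hdet : ∀ z : ℍ, (B.mat z).det ≠ 0 := by
    obtain ⟨c, hc⟩ := B.exists_det_eq
    intro z
    rw [hc z]
    exact mul_ne_zero (B.det_const_ne_and_K_eq D hli hc).1
      (zpow_ne_zero _ (ModularForm.eta_ne_zero z.2))
  { wt := B.wt
    F := B.F
    isV := B.isV
    det_ne := hdet
    sum_wt := by
      obtain ⟨c, hc⟩ := B.exists_det_eq
      have h := (B.det_const_ne_and_K_eq D hli hc).2
      rw [D.sum_lam] at h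
      have h2 : ((∑ j, B.wt j : ℤ) : ℝ) = ((6 * ((Fintype.card X : ℤ) - (numCusps X : ℤ)) : ℤ) : ℝ) := by
        have : ((∑ j, B.wt j : ℤ) : ℝ) = (B.K : ℝ) := rfl
        rw [this, h]
        push_cast
        ring
      exact_mod_cast h2
    coeff_bdd := by
      intro k H hH j
      have h1 : (fun z => ∑ x, (Matrix.of fun x j => B.F j x z)⁻¹ j x * H x z) =
          fun z => ∑ y, (B.PhiMat D z)⁻¹ j y * D.Phi H y z := by
        ext z
        exact B.coeff_eq D (hdet z) H j
      rw [h1]
      have h2 : Tendsto (fun z => ∑ y, (B.PhiMat D z)⁻¹ j y * D.Phi H y z) atImInfty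
          (𝓝 (∑ y, (B.evMat D)⁻¹ j y * D.ev H y)) :=
        tendsto_finsetSum _ fun y _ =>
          (B.tendsto_inv_PhiMat_apply D hli j y).mul (D.tendsto_Phi hH.isT y)
      exact h2.isBigO_one ℝ
    inv_zero := by
      intro j x
      have h1 : (fun z => Δ z * (Matrix.of fun x j => B.F j x z)⁻¹ j x) =
          fun z => ∑ y, (B.PhiMat D z)⁻¹ j y * D.U y x *
            (Δ z * cexp (-(2 * π * I * D.lam y * z))) := by
        ext z
        have := B.inv_mat_apply D (hdet z) j x
        simp only [mat] at this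
        rw [this, Finset.mul_sum]
        refine Finset.sum_congr rfl fun y _ => ?_
        ring
      rw [h1]
      have h2 : Tendsto (fun z => ∑ y, (B.PhiMat D z)⁻¹ j y * D.U y x *
            (Δ z * cexp (-(2 * π * I * D.lam y * z)))) atImInfty
          (𝓝 (∑ y, (B.evMat D)⁻¹ j y * D.U y x * 0)) :=
        tendsto_finsetSum _ fun y _ =>
          ((B.tendsto_inv_PhiMat_apply D hli j y).mul_const _).mul
            (tendsto_disc_mul_exp (D.lam_lt_one y))
      simp only [mul_zero, Finset.sum_const_zero] at h2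
      exact h2 }

end FreeBasis

end Fermat.Agent.S20lib
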