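import Fermat.Agent.S20.LevelOne
import Fermat.Agent.S20.Periodic

/-!
# S20 library, task V: basic facts on vector valued forms
-/

set_option autoImplicit false

open UpperHalfPlane hiding I
open ModularForm MatrixGroups Filter Topology Complex ModularGroup
open scoped Manifold Real

namespace Fermat.Agent.S20lib

local notation "Δ" => ModularForm.discriminant

variable {X : Type} [MulAction SL(2, ℤ) X]

/-- V2: explicit form of the equivariance. -/
theorem IsV.apply_smul {k : ℤ} {F : X → ℍ → ℂ} (hF : IsV k F) (g : SL(2, ℤ)) (x : X) (z : ℍ) :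
    F x (g • z) = denom g z ^ k * F (g⁻¹ • x) z := by
  have h := congrFun (hF.equiv g x) z
  rw [SL_slash_apply] at h
  rw [← h, mul_comm, mul_assoc, ← zpow_add₀ (denom_ne_zero g z)]
  simp

/-- V1 -/
theorem IsV.shift {k : ℤ} {F : X → ℍ → ℂ} (hF : IsV k F) (x : X) (z : ℍ) :
    F x ((1 : ℝ) +ᵥ z) = F (T⁻¹ • x) z := by
  have h := hF.apply_smul T x z
  rw [modular_T_smul] at h
  have hd : denom T z = 1 := by
    rw [ModularGroup.denom_apply]
    simp [ModularGroup.T]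
  rw [h, hd, one_zpow, one_mul]

/-- V6 -/
theorem isV_const (c : ℂ) : IsV 0 (fun _ _ => c : X → ℍ → ℂ) where
  holo _ := mdifferentiable_const
  equiv g _ := is_invariant_const g c
  bdd _ := Filter.const_boundedAtFilter _ c

/-- V12: componentwise powers. -/
theorem IsV.pow {k : ℤ} {F : X → ℍ → ℂ} (hF : IsV k F) (n : ℕ) :
    IsV (n * k) (fun x => F x ^ n) := by
  induction n with
  | zero =>
    simpa using! isV_const (X := X) 1
  | succ n ih =>
    refine ⟨fun x => (hF.holo x).pow _, fun g x => ?_, fun x => ?_⟩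
    · have h1 := ih.equiv g x
      rw [pow_succ, show ((n + 1 : ℕ) : ℤ) * k = n * k + k by push_cast; ring, mul_slash_SL2, h1,
        hF.equiv, pow_succ]
    · have h1 := ih.bdd x
      rw [pow_succ]
      exact h1.mul (hF.bdd x)

/-- V3: the product over `X` of the components is a level one form. -/
theorem IsV.prod_isR [Fintype X] {k : ℤ} {F : X → ℍ → ℂ} (hF : IsV k F) :
    IsR (k * Fintype.card X) (∏ x, F x) where
  holo := .prod fun x _ => hF.holo x
  inv g := by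
    rw [SL_slash, ← Finset.card_univ, ModularForm.prod_slash]
    have h1 : ∀ x, F x ∣[k] (g : GL (Fin 2) ℝ) = F (g⁻¹ • x) := fun x => hF.equiv g x
    simp only [h1]
    simpa using Equiv.prod_comp (MulAction.toPerm g⁻¹) F
  bdd := by
    rw [IsBoundedAtImInfty, Filter.BoundedAtFilter]
    rw [show (1 : ℍ → ℝ) = (fun x ↦ ∏ (i : X), (1:ℝ)) by ext; simp, Finset.prod_fn]
    exact .finsetProd fun x _ => hF.bdd x

theorem IsV.eq_zero_of_exists [MulAction.IsPretransitive SL(2, ℤ) X] {k : ℤ}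
    {F : X → ℍ → ℂ} (hF : IsV k F) {x₀ : X} (h0 : F x₀ = 0) : F = 0 := by
  funext x
  obtain ⟨g, rfl⟩ := MulAction.exists_smul_eq SL(2, ℤ) x₀ x
  have := hF.equiv g⁻¹ x₀
  rw [inv_inv, h0, SlashAction.zero_slash] at this
  exact this.symm

/-- V4 -/
theorem IsV.eq_zero_of_neg [Fintype X] [MulAction.IsPretransitive SL(2, ℤ) X] {k : ℤ}
    {F : X → ℍ → ℂ} (hk : k < 0) (hF : IsV k F) : F = 0 := by
  rcases isEmpty_or_nonempty X with hX | hX
  · exact funext fun x => (hX.false x).elim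
  have hcard : (0 : ℤ) < Fintype.card X := by exact_mod_cast Fintype.card_pos
  have h0 := hF.prod_isR.eq_zero_of_neg (mul_neg_of_neg_of_pos hk hcard)
  obtain ⟨x₀, -, hx₀⟩ := (UpperHalfPlane.prod_eq_zero_iff fun x _ => hF.holo x).1 h0
  exact hF.eq_zero_of_exists hx₀

/-- V5 -/
theorem IsV.eq_const [Fintype X] [MulAction.IsPretransitive SL(2, ℤ) X]
    {F : X → ℍ → ℂ} (hF : IsV 0 F) : ∃ c : ℂ, F = fun _ _ => c := by
  rcases isEmpty_or_nonempty X with hX | hX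
  · exact ⟨0, funext fun x => (hX.false x).elim⟩
  obtain ⟨x₀⟩ := hX
  refine ⟨F x₀ UpperHalfPlane.I, ?_⟩
  have hG : IsV 0 (F - fun _ _ => F x₀ UpperHalfPlane.I) := hF.sub (isV_const _)
  have hP := hG.prod_isR
  rw [zero_mul] at hP
  obtain ⟨c, hc⟩ := hP.eq_const
  have hc0 : c = 0 := by
    have := congrFun hc UpperHalfPlane.I
    rw [Finset.prod_apply] at this
    rw [← this]
    exact Finset.prod_eq_zero (Finset.mem_univ x₀) (by simp)
  rw [hc0] at hc
  obtain ⟨x₁, -, hx₁⟩ := (UpperHalfPlane.prod_eq_zero_iff fun x _ => hG.holo x).1 hc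
  exact sub_eq_zero.1 (hG.eq_zero_of_exists hx₁)

/-- V7 -/
theorem IsV.eq_zero_of_odd (hneg : ∀ x : X, (-1 : SL(2, ℤ)) • x = x) {k : ℤ}
    {F : X → ℍ → ℂ} (hk : Odd k) (hF : IsV k F) : F = 0 := by
  funext x z
  have h := hF.apply_smul (-1) x z
  have h1 : ((-1 : SL(2, ℤ))⁻¹ • x) = x := by
    rw [inv_smul_eq_iff, hneg]
  have h2 : (-1 : SL(2, ℤ)) • z = z := by
    simp
  have h3 : denom (-1 : SL(2, ℤ)) z = -1 := by
    rw [ModularGroup.denom_apply]
    simp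
  rw [h1, h2, h3, hk.neg_one_zpow] at h
  have : (2 : ℂ) * F x z = 0 := by linear_combination h
  simpa using this

/-- V8: cuspidal forms of weight `≤ 0` vanish. -/
theorem IsS.eq_zero_of_nonpos [Fintype X] [MulAction.IsPretransitive SL(2, ℤ) X] {k : ℤ}
    {F : X → ℍ → ℂ} (hk : k ≤ 0) (hF : IsS k F) : F = 0 := by
  rcases hk.lt_or_eq with hk | rfl
  · exact hF.isV.eq_zero_of_neg hk
  obtain ⟨c, rfl⟩ := hF.isV.eq_const
  funext x z
  have h1 : Tendsto (fun _ : ℍ => c) atImInfty (𝓝 0) := hF.zero x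
  exact tendsto_nhds_unique tendsto_const_nhds h1

/-- division by `Δ`: holomorphy and equivariance -/
theorem IsV.div_disc_aux {k : ℤ} {F : X → ℍ → ℂ} (hF : IsV k F) :
    (∀ x, MDiff (F x / (Δ : ℍ → ℂ))) ∧
      ∀ (g : SL(2, ℤ)) (x : X), (F x / (Δ : ℍ → ℂ)) ∣[k - 12] g = F (g⁻¹ • x) / (Δ : ℍ → ℂ) :=
  ⟨fun x => (hF.holo x).div isR_disc.holo discriminant_ne_zero, fun g x => by
    rw [div_slash_SL2, hF.equiv, isR_disc.inv]⟩

/-- V9: division by `Δ`. -/
theorem IsV.div_disc {k : ℤ} {F : X → ℍ → ℂ} (hF : IsV k F)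
    (h : ∀ x, F x =O[atImInfty] fun z : ℍ => Real.exp (-2 * π * z.im)) :
    ∃ H : X → ℍ → ℂ, IsV (k - 12) H ∧ F = (Δ : ℍ → ℂ) • H := by
  refine ⟨fun x => F x / (Δ : ℍ → ℂ), ⟨hF.div_disc_aux.1, hF.div_disc_aux.2,
    fun x => isBoundedAtImInfty_div_disc (h x)⟩, ?_⟩
  funext x z
  simp only [Pi.smul_apply, smul_eq_mul, Pi.mul_apply, Pi.div_apply]
  rw [mul_div_cancel₀ _ (discriminant_ne_zero z)]

/-- V10: `E₄, E₆` is a regular sequence.  Take `h = (E₄² f - E₆ g) / (1728 Δ)`. -/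
theorem IsV.regular {k : ℤ} {g f : X → ℍ → ℂ} (hg : IsV (k - 4) g) (hf : IsV (k - 6) f)
    (h : (E₄ : ℍ → ℂ) • g = (E₆ : ℍ → ℂ) • f) :
    ∃ h : X → ℍ → ℂ, IsV (k - 10) h ∧ g = (E₆ : ℍ → ℂ) • h ∧ f = (E₄ : ℍ → ℂ) • h := by
  have hN : IsV (k + 2) ((1 / 1728 : ℂ) • (((E₄ : ℍ → ℂ) * (E₄ : ℍ → ℂ)) • f - (E₆ : ℍ → ℂ) • g)) := by
    refine IsV.smul _ (IsV.sub ?_ ?_)
    · exact (IsV.rsmul (isR_E4.mul isR_E4) hf).congr_weight (by ring)
    · exact (IsV.rsmul isR_E6 hg).congr_weight (by ring)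
  set N := (1 / 1728 : ℂ) • (((E₄ : ℍ → ℂ) * (E₄ : ℍ → ℂ)) • f - (E₆ : ℍ → ℂ) • g) with hNdef
  have hpt : ∀ x z, (E₄ : ℍ → ℂ) z * g x z = (E₆ : ℍ → ℂ) z * f x z := fun x z => by
    simpa using congrFun (congrFun h x) z
  have hD : ∀ z, (Δ : ℍ → ℂ) z = (1 / 1728 : ℂ) * ((E₄ : ℍ → ℂ) z ^ 3 - (E₆ : ℍ → ℂ) z ^ 2) :=
    fun z => by simpa using congrFun disc_eq z
  have hNpt : ∀ x z, N x z = (1 / 1728 : ℂ) *
      ((E₄ : ℍ → ℂ) z * (E₄ : ℍ → ℂ) z * f x z - (E₆ : ℍ → ℂ) z * g x z) := fun x z => by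
    simp [hNdef]
  have h4 : ∀ x z, f x z = (E₄ : ℍ → ℂ) z * (N x z / (Δ : ℍ → ℂ) z) := fun x z => by
    rw [← mul_div_assoc, eq_div_iff (discriminant_ne_zero z), hNpt, hD]
    linear_combination ((1 / 1728 : ℂ) * (E₆ : ℍ → ℂ) z) * hpt x z
  have h6 : ∀ x z, g x z = (E₆ : ℍ → ℂ) z * (N x z / (Δ : ℍ → ℂ) z) := fun x z => by
    rw [← mul_div_assoc, eq_div_iff (discriminant_ne_zero z), hNpt, hD]
    linear_combination ((1 / 1728 : ℂ) * (E₄ : ℍ → ℂ) z ^ 2) * hpt x z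
  refine ⟨fun x => N x / (Δ : ℍ → ℂ), ⟨hN.div_disc_aux.1, fun γ x => ?_, fun x => ?_⟩, ?_, ?_⟩
  · have := hN.div_disc_aux.2 γ x
    rwa [show k + 2 - 12 = k - 10 by ring] at this
  · -- boundedness: `h = f / E₄` near `i∞`
    have hE : ∀ᶠ z in atImInfty, (1 / 2 : ℝ) ≤ ‖(E₄ : ℍ → ℂ) z‖ := by
      have h1 : Tendsto (fun z => ‖(E₄ : ℍ → ℂ) z‖) atImInfty (𝓝 ‖(1 : ℂ)‖) := tendsto_E4.norm
      rw [norm_one] at h1
      exact h1.eventually_const_le (by norm_num)
    have hb : (fun z => N x z / (Δ : ℍ → ℂ) z) =O[atImInfty] (f x) := by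
      refine Asymptotics.IsBigO.of_bound 2 ?_
      filter_upwards [hE] with z hz
      rw [h4 x z, norm_mul]
      nlinarith [norm_nonneg (N x z / (Δ : ℍ → ℂ) z)]
    exact hb.trans (hf.bdd x)
  · funext x z
    simpa using h6 x z
  · funext x z
    simpa using h4 x z

/-- V11: the Serre derivative preserves vector valued forms. -/
theorem IsV.serre {k : ℤ} {F : X → ℍ → ℂ} (hF : IsV k F) :
    IsV (k + 2) (fun x => Derivative.serreDerivative (k : ℂ) (F x)) where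
  holo x := Derivative.serreDerivative_mdifferentiable _ (hF.holo x)
  equiv g x := by
    rw [Derivative.serreDerivative_slash_equivariant (hF.holo x), hF.equiv]
  bdd x := by
    have h1 := isBoundedAtImInfty_normalizedDeriv (hF.holo x) (hF.bdd x)
    have h2 : IsBoundedAtImInfty (fun z => (k : ℂ) * 12⁻¹ * EisensteinSeries.E2 z * F x z) :=
      ((Filter.const_boundedAtFilter _ ((k : ℂ) * 12⁻¹)).mul isBoundedAtImInfty_E2).mul (hF.bdd x)
    have h3 := h1.add h2.neg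
    simpa [sub_eq_add_neg] using! h3

/-- V13: the pairing of a cuspidal form with a form is a level one cusp form. -/
theorem IsS.pairing [Fintype X] {k l : ℤ} {f F : X → ℍ → ℂ} (hf : IsS k f) (hF : IsV l F) :
    IsR (k + l) (∑ x, f x * F x) ∧ IsZeroAtImInfty (∑ x, f x * F x) := by
  have hz : IsZeroAtImInfty (∑ x, f x * F x) := by
    have h1 : ∀ x, Tendsto (f x * F x) atImInfty (𝓝 0) :=
      fun x => (hf.zero x).mul_boundedAtFilter (hF.bdd x)
    have h2 := tendsto_finsetSum Finset.univ fun x _ => h1 x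
    simp only [Finset.sum_const_zero] at h2
    rw [IsZeroAtImInfty, ZeroAtFilter]
    convert h2 using 1
    funext z
    simp
  refine ⟨⟨.sum fun x _ => (hf.holo x).mul (hF.holo x), fun g => ?_, hz.boundedAtFilter⟩, hz⟩
  rw [SlashAction.sum_slash]
  simp only [mul_slash_SL2, hf.equiv, hF.equiv]
  exact Equiv.sum_comp (MulAction.toPerm g⁻¹) (fun x => f x * F x)

end Fermat.Agent.S20lib
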